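import Fermat.Agent.EllReducible.Basic
import Fermat.Agent.EllTorsion.GaloisDet
import Fermat.Agent.Galois.Places

/-!
# Congruence of traces from an equivariant isomorphism of 5-torsion
-/

set_option autoImplicit false

open WeierstrassCurve WeierstrassCurve.Affine.Point
open FLTA.EllReducible

open scoped WeierstrassCurve.Affine

namespace FLTA.Elliptic.Switch

local notation "Qbar" => AlgebraicClosure ℚ

/-- Curves congruent modulo `q` have the same `a_q`. -/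
theorem apOfModel_congr (W W' : WeierstrassCurve ℤ) {q : ℕ}
    (h : W'.map (Int.castRingHom (ZMod q)) = W.map (Int.castRingHom (ZMod q))) :
    W'.apOfModel q = W.apOfModel q := by
  unfold WeierstrassCurve.apOfModel WeierstrassCurve.reductionMod
  rw [h]

theorem five_dvd_apOfModel_sub_of_ne_two (W W' : WeierstrassCurve ℤ) (hΔ : W.Δ ≠ 0)
    (hΔ' : W'.Δ ≠ 0)
    (φ : Tors (W.map (Int.castRingHom ℚ)) 5 ≃+ Tors (W'.map (Int.castRingHom ℚ)) 5)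
    (hφ : ∀ (σ : Qbar ≃ₐ[ℚ] Qbar) (x : Tors (W.map (Int.castRingHom ℚ)) 5),
      φ (σ • x) = σ • φ x)
    (ℓ : ℕ) (hℓ : ℓ.Prime) (hg : W.IsGoodPrimeFor ℓ) (hg' : W'.IsGoodPrimeFor ℓ) (hℓ2 : ℓ ≠ 2)
    (hℓ5 : ℓ ≠ 5) : (5 : ℤ) ∣ (W'.apOfModel ℓ - W.apOfModel ℓ) := by
  have : Fact (Nat.Prime 5) := ⟨by norm_num⟩
  obtain ⟨A, hA⟩ := FLTA.Galois.exists_liesOverPrime hℓ
  obtain ⟨σ, hσ⟩ := FLTA.Galois.exists_isFrobeniusAt hℓ hA
  have e := EllTorsion.galoisTrace_frobenius W hΔ 5 (by norm_num) ℓ hℓ hℓ2 hg hℓ5 A hA σ hσ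
  have e' := EllTorsion.galoisTrace_frobenius W' hΔ' 5 (by norm_num) ℓ hℓ hℓ2 hg' hℓ5 A hA σ hσ
  let Φ : Tors (W.map (Int.castRingHom ℚ)) 5 ≃ₗ[ZMod 5] Tors (W'.map (Int.castRingHom ℚ)) 5 :=
    { φ with map_smul' := fun c x => (φ.toAddMonoidHom.toZModLinearMap 5).map_smul c x }
  have hconj : Φ.conj (galoisRepModuleEnd ℚ (W.map (Int.castRingHom ℚ)) 5 σ)
      = galoisRepModuleEnd ℚ (W'.map (Int.castRingHom ℚ)) 5 σ := by
    refine LinearMap.ext fun y => ?_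
    rw [LinearEquiv.conj_apply_apply]
    exact (hφ σ (Φ.symm y)).trans (congrArg _ (Φ.apply_symm_apply y))
  have htr : galoisTrace (K := Qbar) ℚ (W'.map (Int.castRingHom ℚ)) 5 σ
      = galoisTrace (K := Qbar) ℚ (W.map (Int.castRingHom ℚ)) 5 σ := by
    rw [galoisTrace_def, galoisTrace_def, ← hconj]
    exact LinearMap.trace_conj' _ Φ
  have : ((W'.apOfModel ℓ - W.apOfModel ℓ : ℤ) : ZMod 5) = 0 := by
    push_cast
    rw [sub_eq_zero]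
    exact (e'.symm.trans htr).trans e
  exact_mod_cast (ZMod.intCast_zmod_eq_zero_iff_dvd _ 5).1 this

theorem five_dvd_apOfModel_sub (W W' : WeierstrassCurve ℤ) (hΔ : W.Δ ≠ 0) (hΔ' : W'.Δ ≠ 0)
    (φ : Tors (W.map (Int.castRingHom ℚ)) 5 ≃+ Tors (W'.map (Int.castRingHom ℚ)) 5)
    (hφ : ∀ (σ : Qbar ≃ₐ[ℚ] Qbar) (x : Tors (W.map (Int.castRingHom ℚ)) 5),
      φ (σ • x) = σ • φ x)
    (h2 : W'.map (Int.castRingHom (ZMod 2)) = W.map (Int.castRingHom (ZMod 2)))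
    (ℓ : ℕ) (hℓ : ℓ.Prime) (hg : W.IsGoodPrimeFor ℓ) (hg' : W'.IsGoodPrimeFor ℓ) (hℓ5 : ℓ ≠ 5) :
    (5 : ℤ) ∣ (W'.apOfModel ℓ - W.apOfModel ℓ) := by
  rcases eq_or_ne ℓ 2 with rfl | hℓ2
  · rw [apOfModel_congr W W' h2, sub_self]; exact dvd_zero _
  exact five_dvd_apOfModel_sub_of_ne_two W W' hΔ hΔ' φ hφ ℓ hℓ hg hg' hℓ2 hℓ5

end FLTA.Elliptic.Switch
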