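import Mathlib

/-!
# Specialisation of integral points

For a Weierstrass curve over an integrally closed domain `R`, points over the fraction field with
coordinates in `R` specialise additively along any ring map into a field at which the discriminant
does not vanish.
-/

set_option autoImplicit false

open WeierstrassCurve WeierstrassCurve.Affine

namespace FLTA.Elliptic.Switch

section

variable {R : Type*} [CommRing R] (W : WeierstrassCurve R)
variable (L : Type*) [Field L] [Algebra R L]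

/-- A point with coordinates in the base ring. -/
def IsIntegralPoint (P : (W.map (algebraMap R L)).toAffine.Point) : Prop :=
  match P with
  | .zero => True
  | .some x y _ => x ∈ (algebraMap R L).range ∧ y ∈ (algebraMap R L).range

variable {W L}

theorem IsIntegralPoint.cases [FaithfulSMul R L] {P : (W.map (algebraMap R L)).toAffine.Point}
    (hP : IsIntegralPoint W L P) :
    P = 0 ∨ ∃ (a b : R) (h : (W.map (algebraMap R L)).toAffine.Nonsingular (algebraMap R L a)
      (algebraMap R L b)), W.toAffine.Equation a b ∧ P = .some _ _ h := by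
  rcases P with _ | ⟨x, y, h⟩
  · exact Or.inl rfl
  · obtain ⟨⟨a, rfl⟩, ⟨b, rfl⟩⟩ := hP
    exact Or.inr ⟨a, b, h, (map_equation _ (FaithfulSMul.algebraMap_injective R L) a b).mp h.1, rfl⟩

theorem isIntegralPoint_zero : IsIntegralPoint W L 0 := trivial

theorem isIntegralPoint_some {a b : R}
    (h : (W.map (algebraMap R L)).toAffine.Nonsingular (algebraMap R L a) (algebraMap R L b)) :
    IsIntegralPoint W L (.some _ _ h) :=
  ⟨⟨a, rfl⟩, ⟨b, rfl⟩⟩

theorem IsIntegralPoint.neg [FaithfulSMul R L] {P : (W.map (algebraMap R L)).toAffine.Point}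
    (hP : IsIntegralPoint W L P) : IsIntegralPoint W L (-P) := by
  rcases hP.cases with rfl | ⟨a, b, h, -, rfl⟩
  · simpa using isIntegralPoint_zero
  · rw [Point.neg_some]
    exact ⟨⟨a, rfl⟩, W.toAffine.negY a b, by simp⟩

variable {K : Type*} [Field K]

theorem nonsingular_specialize [FaithfulSMul R L] (e : R →+* K) (he : e W.Δ ≠ 0) {a b : R}
    (h : (W.map (algebraMap R L)).toAffine.Nonsingular (algebraMap R L a) (algebraMap R L b)) :
    (W.map e).toAffine.Nonsingular (e a) (e b) :=
  (equation_iff_nonsingular_of_Δ_ne_zero (by rwa [WeierstrassCurve.map_Δ])).mp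
    (((map_equation _ (FaithfulSMul.algebraMap_injective R L) a b).mp h.1).map e)

open scoped Classical in
/-- The specialised point. -/
noncomputable def specialize (e : R →+* K) (P : (W.map (algebraMap R L)).toAffine.Point) :
    (W.map e).toAffine.Point :=
  match P with
  | .zero => 0
  | .some x y _ =>
    if h : ∃ ab : R × R, algebraMap R L ab.1 = x ∧ algebraMap R L ab.2 = y ∧
        (W.map e).toAffine.Nonsingular (e ab.1) (e ab.2) then
      .some _ _ h.choose_spec.2.2
    else 0

theorem specialize_zero (e : R →+* K) : specialize (L := L) (W := W) e 0 = 0 := rfl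

theorem specialize_some [FaithfulSMul R L] (e : R →+* K) (he : e W.Δ ≠ 0) {a b : R}
    (h : (W.map (algebraMap R L)).toAffine.Nonsingular (algebraMap R L a) (algebraMap R L b)) :
    specialize e (.some _ _ h) = .some _ _ (nonsingular_specialize e he h) := by
  have hex : ∃ ab : R × R, algebraMap R L ab.1 = algebraMap R L a ∧
      algebraMap R L ab.2 = algebraMap R L b ∧
      (W.map e).toAffine.Nonsingular (e ab.1) (e ab.2) :=
    ⟨(a, b), rfl, rfl, nonsingular_specialize e he h⟩
  simp only [specialize, dif_pos hex]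
  have h1 := FaithfulSMul.algebraMap_injective R L hex.choose_spec.1
  have h2 := FaithfulSMul.algebraMap_injective R L hex.choose_spec.2.1
  simp only [Point.some.injEq]
  exact ⟨congrArg e h1, congrArg e h2⟩

theorem specialize_eq_zero_iff [FaithfulSMul R L] (e : R →+* K) (he : e W.Δ ≠ 0)
    {P : (W.map (algebraMap R L)).toAffine.Point} (hP : IsIntegralPoint W L P) :
    specialize e P = 0 ↔ P = 0 := by
  rcases hP.cases with rfl | ⟨a, b, h, -, rfl⟩
  · simp [specialize_zero]
  · simp [specialize_some e he h]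

theorem specialize_add [IsDomain R] [IsIntegrallyClosed R] [IsFractionRing R L] [DecidableEq L]
    [DecidableEq K] (e : R →+* K) (he : e W.Δ ≠ 0)
    {P Q : (W.map (algebraMap R L)).toAffine.Point} (hP : IsIntegralPoint W L P)
    (hQ : IsIntegralPoint W L Q) (hPQ : IsIntegralPoint W L (P + Q)) :
    specialize e (P + Q) = specialize e P + specialize e Q := by
  classical
  have : FaithfulSMul R L := (faithfulSMul_iff_algebraMap_injective R L).mpr
    (IsFractionRing.injective R L)
  rcases hP.cases with rfl | ⟨a₁, b₁, h₁, e₁, rfl⟩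
  · simp [specialize_zero]
  rcases hQ.cases with rfl | ⟨a₂, b₂, h₂, e₂, rfl⟩
  · simp [specialize_zero]
  have inj := FaithfulSMul.algebraMap_injective R L
  set ι := algebraMap R L with hι
  rw [specialize_some e he h₁, specialize_some e he h₂]
  by_cases hxy : ι a₁ = ι a₂ ∧ ι b₁ = (W.map ι).toAffine.negY (ι a₂) (ι b₂)
  · rw [Point.add_of_Y_eq hxy.1 hxy.2, specialize_zero, eq_comm]
    have hb : b₁ = W.toAffine.negY a₂ b₂ := inj (by rw [hxy.2]; simp)
    exact Point.add_of_Y_eq (congrArg e (inj hxy.1)) (by rw [hb]; simp)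
  rw [Point.add_some hxy] at hPQ ⊢
  obtain ⟨⟨a₃, ha₃⟩, ⟨b₃, hb₃⟩⟩ := hPQ
  set sl := (W.map ι).toAffine.slope (ι a₁) (ι a₂) (ι b₁) (ι b₂) with hsl
  -- the slope is integral, being a root of a monic quadratic
  obtain ⟨l, hl⟩ : ∃ l : R, ι l = sl := by
    refine IsIntegrallyClosed.isIntegral_iff.mp
      ⟨Polynomial.X ^ 2 + Polynomial.C W.a₁ * Polynomial.X -
        Polynomial.C (a₃ + a₁ + a₂ + W.a₂), ?_, ?_⟩
    · monicity!
    · have : ι a₃ = sl ^ 2 + ι W.a₁ * sl - ι W.a₂ - ι a₁ - ι a₂ := by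
        rw [ha₃]; simp
      simp only [Polynomial.eval₂_sub, Polynomial.eval₂_add, Polynomial.eval₂_mul,
        Polynomial.eval₂_X_pow, Polynomial.eval₂_C, Polynomial.eval₂_X, map_add, ← hι, this]
      ring
  have ha₃' : a₃ = W.toAffine.addX a₁ a₂ l := inj (by rw [ha₃, ← hl]; simp)
  have hb₃' : b₃ = W.toAffine.addY a₁ a₂ b₁ l := inj (by rw [hb₃, ← hl]; simp [addY])
  rw [equation_iff] at e₁ e₂
  -- the two equations characterising the slope, valid in `R`
  have hsec : b₁ - b₂ = l * (a₁ - a₂) := by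
    apply inj
    simp only [map_sub, map_mul, hl, hsl]
    by_cases hx : ι a₁ = ι a₂
    · rw [hx, sub_self, mul_zero, Affine.Y_eq_of_Y_ne h₁.1 h₂.1 hx (fun h => hxy ⟨hx, h⟩),
        sub_self]
    · rw [slope_of_X_ne hx, div_mul_cancel₀ _ (sub_ne_zero.mpr hx)]
  have htan : l * (b₁ + b₂ + W.a₁ * a₁ + W.a₃)
      = a₁ ^ 2 + a₁ * a₂ + a₂ ^ 2 + W.a₂ * (a₁ + a₂) + W.a₄ - W.a₁ * b₂ := by
    by_cases hx : a₁ = a₂
    · have hy : ι b₁ ≠ (W.map ι).toAffine.negY (ι a₂) (ι b₂) := fun h => hxy ⟨by rw [hx], h⟩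
      have hb : b₁ = b₂ := inj (Affine.Y_eq_of_Y_ne h₁.1 h₂.1 (by rw [hx]) hy)
      subst hx hb
      apply inj
      have hne : ι b₁ - (W.map ι).toAffine.negY (ι a₁) (ι b₁) ≠ 0 := sub_ne_zero.mpr hy
      have := hl.trans (hsl.trans (slope_of_Y_ne rfl hy))
      rw [eq_div_iff hne] at this
      simp only [negY, map_a₁, map_a₂, map_a₃, map_a₄] at this
      simp only [map_add, map_sub, map_mul, map_pow]
      linear_combination this
    · apply mul_left_cancel₀ (sub_ne_zero.mpr hx)
      linear_combination e₁ - e₂ - (b₁ + b₂ + W.a₁ * a₁ + W.a₃) * hsec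
  have hns := (W.map e).toAffine.nonsingular_iff (e a₁) (e b₁) |>.mp
    (nonsingular_specialize e he h₁)
  have hne : ¬(e a₁ = e a₂ ∧ e b₁ = (W.map e).toAffine.negY (e a₂) (e b₂)) := by
    rintro ⟨hx, hy⟩
    have hs := congrArg e hsec
    have ht := congrArg e htan
    simp only [map_sub, map_mul, map_add, map_pow, ← hx, sub_self, mul_zero] at hs ht
    simp only [negY, map_a₁, map_a₃, ← hx] at hy
    rcases hns.2 with h | h
    · apply h
      simp only [map_a₁, map_a₂, map_a₄]
      linear_combination ht + e W.a₁ * sub_eq_zero.mp hs - (e l) * hy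
    · apply h
      simp only [map_a₁, map_a₃]
      linear_combination hs + hy
  have hslope : (W.map e).toAffine.slope (e a₁) (e a₂) (e b₁) (e b₂) = e l := by
    have hs := congrArg e hsec
    have ht := congrArg e htan
    simp only [map_sub, map_mul, map_add, map_pow] at hs ht
    by_cases hx : e a₁ = e a₂
    · have hy : e b₁ ≠ (W.map e).toAffine.negY (e a₂) (e b₂) := fun h => hne ⟨hx, h⟩
      rw [← hx, sub_self, mul_zero, sub_eq_zero] at hs
      rw [slope_of_Y_ne hx hy, div_eq_iff]
      · simp only [negY, map_a₁, map_a₂, map_a₃, map_a₄]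
        rw [← hx, ← hs] at ht
        linear_combination -ht
      · rw [← hx, ← hs] at hy
        exact sub_ne_zero.mpr hy
    · rw [slope_of_X_ne hx, div_eq_iff (sub_ne_zero.mpr hx), hs]
  have hQ' : (.some _ _ (nonsingular_add h₁ h₂ hxy) :
      (W.map ι).toAffine.Point) = .some (ι a₃) (ι b₃)
        (ha₃ ▸ hb₃ ▸ nonsingular_add h₁ h₂ hxy) := by
    simp only [Point.some.injEq]
    exact ⟨ha₃.symm, hb₃.symm⟩
  rw [hQ', specialize_some e he, Point.add_some hne, Point.some.injEq, hslope, ha₃', hb₃']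
  exact ⟨by simp, by simp [addY]⟩

end

section Integrality

open Polynomial

variable {R : Type*} [CommRing R] {L : Type*} [Field L] [Algebra R L] [DecidableEq L]
  {W : WeierstrassCurve R}

/-- The duplication formula for the `x`-coordinate. -/
theorem duplication {E : WeierstrassCurve L} {x y t s : L} {h : E.toAffine.Nonsingular x y}
    {h' : E.toAffine.Nonsingular t s}
    (hadd : (Affine.Point.some x y h) + Affine.Point.some x y h = Affine.Point.some t s h') :
    t * (4 * x ^ 3 + E.b₂ * x ^ 2 + 2 * E.b₄ * x + E.b₆)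
      = x ^ 4 - E.b₄ * x ^ 2 - 2 * E.b₆ * x - E.b₈ := by
  by_cases hy : y = E.toAffine.negY x y
  · rw [Point.add_self_of_Y_eq hy] at hadd
    exact absurd hadd.symm (Point.some_ne_zero _)
  rw [Point.add_self_of_Y_ne hy, Point.some.injEq] at hadd
  obtain ⟨ht, -⟩ := hadd
  set sl := E.toAffine.slope x x y y with hsl
  have hne : y - E.toAffine.negY x y ≠ 0 := sub_ne_zero.mpr hy
  rw [slope_of_Y_ne rfl hy, eq_div_iff hne] at hsl
  have he := (E.toAffine.equation_iff x y).mp h.1
  simp only [addX] at ht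
  simp only [negY] at hsl
  rw [← ht]
  simp only [WeierstrassCurve.b₂, WeierstrassCurve.b₄, WeierstrassCurve.b₆, WeierstrassCurve.b₈]
  linear_combination (sl * (2 * y + E.a₁ * x + E.a₃)
      + (3 * x ^ 2 + 2 * E.a₂ * x + E.a₄ - E.a₁ * y)
      + E.a₁ * (2 * y + E.a₁ * x + E.a₃)) * hsl
    + (-(4 * sl ^ 2) - 4 * E.a₁ * sl - E.a₁ ^ 2) * he

set_option maxHeartbeats 400000 in
/-- A point of order five has integral coordinates. -/
theorem isIntegralPoint_of_five_nsmul [IsDomain R] [IsIntegrallyClosed R] [IsFractionRing R L]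
    (h15 : IsUnit (15 : R)) {P : (W.map (algebraMap R L)).toAffine.Point}
    (hP : 5 • P = 0) : IsIntegralPoint W L P := by
  rcases P with _ | ⟨x, y, h⟩
  · trivial
  have h5 : (5 : ℕ) ≠ 0 := by norm_num
  have h4 : (Affine.Point.some x y h + .some x y h) + (.some x y h + .some x y h)
      = -Affine.Point.some x y h := by
    rw [eq_neg_iff_add_eq_zero, ← hP]; abel
  have h2 : Affine.Point.some x y h + .some x y h ≠ 0 := by
    intro h0
    rw [h0, add_zero, eq_comm, neg_eq_zero] at h4
    exact Point.some_ne_zero _ h4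
  generalize hQ : Affine.Point.some x y h + .some x y h = Q at h2 h4
  rcases Q with _ | ⟨t, s, h'⟩
  · exact absurd rfl h2
  rw [Point.neg_some] at h4
  have d1 := duplication hQ
  have d2 := duplication h4
  simp only [map_b₂, map_b₄, map_b₆, map_b₈] at d1 d2
  let ph : R[X] := X ^ 4 - C W.b₄ * X ^ 2 - C (2 * W.b₆) * X - C W.b₈
  let ps : R[X] := C 4 * X ^ 3 + C W.b₂ * X ^ 2 + C (2 * W.b₄) * X + C W.b₆
  let F : R[X] := (ph ^ 4 - C W.b₄ * (ph ^ 2 * ps ^ 2) - C (2 * W.b₆) * (ph * ps ^ 3)
      - C W.b₈ * ps ^ 4)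
    - X * ps * (C 4 * ph ^ 3 + C W.b₂ * (ph ^ 2 * ps) + C (2 * W.b₄) * (ph * ps ^ 2)
      + C W.b₆ * ps ^ 3)
  have hph : ph.natDegree ≤ 4 := by simp only [ph]; compute_degree
  have hps : ps.natDegree ≤ 3 := by simp only [ps]; compute_degree
  let G : R[X] := C 4 * ph ^ 3 + C W.b₂ * (ph ^ 2 * ps) + C (2 * W.b₄) * (ph * ps ^ 2)
      + C W.b₆ * ps ^ 3
  have hpp : ∀ i j : ℕ, (ph ^ i * ps ^ j).natDegree ≤ 4 * i + 3 * j := fun i j =>
    natDegree_mul_le.trans (Nat.add_le_add
      (natDegree_pow_le.trans ((Nat.mul_le_mul_left i hph).trans (by omega)))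
      (natDegree_pow_le.trans ((Nat.mul_le_mul_left j hps).trans (by omega))))
  have hph4 : ph.coeff 4 = 1 := by simp [ph, coeff_X_pow, coeff_X, coeff_C]
  have hps3 : ps.coeff 3 = 4 := by simp [ps, coeff_X_pow, coeff_X, coeff_C, coeff_ofNat_mul]
  have hG : G.natDegree ≤ 12 := by
    refine natDegree_add_le_of_degree_le (natDegree_add_le_of_degree_le
      (natDegree_add_le_of_degree_le ?_ ?_) ?_) ?_ <;> refine (natDegree_C_mul_le _ _).trans ?_
    · simpa using hpp 3 0
    · exact (by simpa using hpp 2 1 : (ph ^ 2 * ps).natDegree ≤ 11).trans (by norm_num)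
    · exact (by simpa using hpp 1 2 : (ph * ps ^ 2).natDegree ≤ 10).trans (by norm_num)
    · exact (by simpa using hpp 0 3 : (ps ^ 3).natDegree ≤ 9).trans (by norm_num)
  have hG12 : G.coeff 12 = 4 := by
    have e0 : (ph ^ 3).coeff 12 = 1 := by
      rw [show 12 = 3 * 4 from rfl, coeff_pow_of_natDegree_le hph, hph4, one_pow]
    have e1 : (ph ^ 2 * ps).coeff 12 = 0 :=
      coeff_eq_zero_of_natDegree_lt (lt_of_le_of_lt (by simpa using hpp 2 1) (by norm_num))
    have e2 : (ph * ps ^ 2).coeff 12 = 0 :=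
      coeff_eq_zero_of_natDegree_lt (lt_of_le_of_lt (by simpa using hpp 1 2) (by norm_num))
    have e3 : (ps ^ 3).coeff 12 = 0 :=
      coeff_eq_zero_of_natDegree_lt (lt_of_le_of_lt (by simpa using hpp 0 3) (by norm_num))
    simp only [G, coeff_add, coeff_C_mul, e0, e1, e2, e3, mul_zero, mul_one, add_zero]
  have hXps : (X * ps).natDegree ≤ 4 :=
    natDegree_mul_le.trans (Nat.add_le_add natDegree_X_le hps)
  have hFdef : F = (ph ^ 4 - C W.b₄ * (ph ^ 2 * ps ^ 2) - C (2 * W.b₆) * (ph * ps ^ 3)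
      - C W.b₈ * ps ^ 4) - X * ps * G := rfl
  have hdeg : F.natDegree ≤ 16 := by
    rw [hFdef]
    refine (natDegree_sub_le _ _).trans (max_le ((natDegree_sub_le _ _).trans (max_le
      ((natDegree_sub_le _ _).trans (max_le ((natDegree_sub_le _ _).trans (max_le ?_ ?_)) ?_)) ?_))
      ?_)
    · simpa using hpp 4 0
    · exact (natDegree_C_mul_le _ _).trans ((hpp 2 2).trans (by norm_num))
    · exact (natDegree_C_mul_le _ _).trans
        ((by simpa using hpp 1 3 : (ph * ps ^ 3).natDegree ≤ 13).trans (by norm_num))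
    · exact (natDegree_C_mul_le _ _).trans
        ((by simpa using hpp 0 4 : (ps ^ 4).natDegree ≤ 12).trans (by norm_num))
    · exact natDegree_mul_le.trans (Nat.add_le_add hXps hG)
  have hc : F.coeff 16 = -15 := by
    have e0 : (ph ^ 4).coeff 16 = 1 := by
      rw [show 16 = 4 * 4 from rfl, coeff_pow_of_natDegree_le hph, hph4, one_pow]
    have e1 : (ph ^ 2 * ps ^ 2).coeff 16 = 0 :=
      coeff_eq_zero_of_natDegree_lt (lt_of_le_of_lt (hpp 2 2) (by norm_num))
    have e2 : (ph * ps ^ 3).coeff 16 = 0 :=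
      coeff_eq_zero_of_natDegree_lt (lt_of_le_of_lt (by simpa using hpp 1 3) (by norm_num))
    have e3 : (ps ^ 4).coeff 16 = 0 :=
      coeff_eq_zero_of_natDegree_lt (lt_of_le_of_lt (by simpa using hpp 0 4) (by norm_num))
    have e4 : (X * ps * G).coeff 16 = 16 := by
      rw [show 16 = 4 + 12 from rfl, coeff_mul_add_eq_of_natDegree_le hXps hG, hG12,
        show 4 = 3 + 1 from rfl, coeff_X_mul, hps3]
      norm_num
    simp only [hFdef, coeff_sub, coeff_C_mul, e0, e1, e2, e3, e4, mul_zero, sub_zero]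
    norm_num
  obtain ⟨u, hu⟩ := h15
  have hmonic : (C (-(↑u⁻¹ : R)) * F).Monic := by
    refine monic_of_natDegree_le_of_coeff_eq_one 16 ((natDegree_C_mul_le _ _).trans hdeg) ?_
    rw [coeff_C_mul, hc, ← hu, neg_mul_neg, Units.inv_mul]
  have hx : x ∈ (algebraMap R L).range := by
    refine IsIntegrallyClosed.isIntegral_iff.mp ⟨_, hmonic, ?_⟩
    have key : ∀ A B : L, t * B = A → (A ^ 4 - (algebraMap R L) W.b₄ * (A ^ 2 * B ^ 2)
        - 2 * (algebraMap R L) W.b₆ * (A * B ^ 3) - (algebraMap R L) W.b₈ * B ^ 4)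
        - x * B * (4 * A ^ 3 + (algebraMap R L) W.b₂ * (A ^ 2 * B) + 2 * (algebraMap R L) W.b₄ * (A * B ^ 2)
          + (algebraMap R L) W.b₆ * B ^ 3) = 0 := by
      intro A B hAB
      subst hAB
      linear_combination (-B ^ 4) * d2
    simp only [F, ph, ps, eval₂_sub, eval₂_add, eval₂_mul, eval₂_pow, eval₂_C, eval₂_X]
    simp only [map_mul, map_ofNat]
    linear_combination ((algebraMap R L) (-(↑u⁻¹ : R))) * key _ _ d1
  obtain ⟨a, ha⟩ := hx
  refine ⟨⟨a, ha⟩, ?_⟩
  have he := ((W.map (algebraMap R L)).toAffine.equation_iff x y).mp h.1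
  refine IsIntegrallyClosed.isIntegral_iff.mp
    ⟨X ^ 2 + C (W.a₁ * a + W.a₃) * X - C (a ^ 3 + W.a₂ * a ^ 2 + W.a₄ * a + W.a₆), ?_, ?_⟩
  · monicity!
  · simp only [eval₂_sub, eval₂_add, eval₂_mul, eval₂_X_pow, eval₂_C, eval₂_X]; simp only [map_add, map_mul,
      map_pow, ha]
    simp only [map_a₁, map_a₂, map_a₃, map_a₄, map_a₆] at he
    linear_combination he

end Integrality

end FLTA.Elliptic.Switch
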