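import Fermat.Agent.Elliptic.Switch.KleinPoint
import Fermat.Agent.Elliptic.Switch.Spec

/-!
# The twisted family and its marked point of order five
-/

set_option autoImplicit false
set_option linter.unusedSectionVars false

open WeierstrassCurve WeierstrassCurve.Affine

namespace FLTA.Elliptic.Switch

section Twist

variable {R S : Type*} [CommRing R] [Algebra ℚ R] [CommRing S] [Algebra ℚ S]

/-- The fourth coefficient of the twist of `W` with invariant `H`. -/
def twistA4 (W : WeierstrassCurve ℚ) (H : R) : R :=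
  (algebraMap ℚ R (W.b₂ ^ 2 - 24 * (W.a₁ * W.a₃)) - H) * algebraMap ℚ R (1 / 48)

/-- The curve with the same `a₁, a₂, a₃` as `W` and invariants `c₄ = H`, `c₆ = T`. -/
def twist (W : WeierstrassCurve ℚ) (H T : R) : WeierstrassCurve R where
  a₁ := algebraMap ℚ R W.a₁
  a₂ := algebraMap ℚ R W.a₂
  a₃ := algebraMap ℚ R W.a₃
  a₄ := twistA4 W H
  a₆ := (-T + 36 * algebraMap ℚ R W.b₂ *
      (2 * twistA4 W H + algebraMap ℚ R (W.a₁ * W.a₃))
      - algebraMap ℚ R (W.b₂ ^ 3 + 216 * W.a₃ ^ 2)) * algebraMap ℚ R (1 / 864)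

theorem map_twist (φ : R →+* S) (W : WeierstrassCurve ℚ) (H T : R) :
    (twist W H T).map φ = twist W (φ H) (φ T) := by
  ext <;> simp only [twist, twistA4, map_a₁, map_a₂, map_a₃, map_a₄, map_a₆, map_mul, map_add,
    map_sub, map_neg, map_ofNat, RingHom.map_rat_algebraMap]

theorem twist_b₂ (W : WeierstrassCurve ℚ) (H T : R) :
    (twist W H T).b₂ = algebraMap ℚ R W.b₂ := by
  simp [twist, WeierstrassCurve.b₂, map_ofNat]

theorem twist_c₄ (W : WeierstrassCurve ℚ) (H T : R) : (twist W H T).c₄ = H := by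
  have h : (48 : R) * algebraMap ℚ R (1 / 48) = 1 := by
    rw [← map_ofNat (algebraMap ℚ R) 48, ← map_mul]; norm_num
  simp only [WeierstrassCurve.c₄, twist_b₂]
  simp only [WeierstrassCurve.b₄, twist, twistA4, map_sub, map_mul, map_pow, map_ofNat]
  linear_combination (H - algebraMap ℚ R W.b₂ ^ 2
    + 24 * (algebraMap ℚ R W.a₁ * algebraMap ℚ R W.a₃)) * h

theorem twist_c₆ (W : WeierstrassCurve ℚ) (H T : R) : (twist W H T).c₆ = T := by
  have h : (864 : R) * algebraMap ℚ R (1 / 864) = 1 := by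
    rw [← map_ofNat (algebraMap ℚ R) 864, ← map_mul]; norm_num
  simp only [WeierstrassCurve.c₆, twist_b₂]
  simp only [WeierstrassCurve.b₄, WeierstrassCurve.b₆, twist, map_add, map_sub, map_mul, map_pow,
    map_ofNat]
  linear_combination (T - 36 * algebraMap ℚ R W.b₂ *
      (2 * twistA4 W H + algebraMap ℚ R W.a₁ * algebraMap ℚ R W.a₃)
      + algebraMap ℚ R W.b₂ ^ 3 + 216 * algebraMap ℚ R W.a₃ ^ 2) * h

theorem twist_Δ (W : WeierstrassCurve ℚ) (u v : R) :
    (twist W (kH u v) (kT u v)).Δ = kf u v ^ 5 := by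
  have h := (twist W (kH u v) (kT u v)).c_relation
  rw [twist_c₄, twist_c₆, kH_pow_three_sub] at h
  have h' : (1728 : R) * algebraMap ℚ R (1 / 1728) = 1 := by
    rw [← map_ofNat (algebraMap ℚ R) 1728, ← map_mul]; norm_num
  linear_combination algebraMap ℚ R (1 / 1728) * h
    - ((twist W (kH u v) (kT u v)).Δ - kf u v ^ 5) * h'

theorem twist_self (W : WeierstrassCurve ℚ) :
    twist W (algebraMap ℚ R W.c₄) (algebraMap ℚ R W.c₆) = W.map (algebraMap ℚ R) := by
  ext <;> simp only [twist, twistA4, map_a₁, map_a₂, map_a₃, map_a₄, map_a₆]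
  · rw [← map_sub, ← map_mul]
    congr 1
    simp only [WeierstrassCurve.c₄, WeierstrassCurve.b₄]; ring
  · rw [← map_sub, ← map_mul, ← map_neg, ← map_ofNat (algebraMap ℚ R) 36,
      ← map_ofNat (algebraMap ℚ R) 2, ← map_mul, ← map_mul, ← map_add, ← map_mul, ← map_add,
      ← map_sub, ← map_mul]
    congr 1
    simp only [WeierstrassCurve.c₄, WeierstrassCurve.c₆, WeierstrassCurve.b₄,
      WeierstrassCurve.b₆]; ring

end Twist

section Congr

variable {F : Type*} [Field F] [DecidableEq F]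

/-- The underlying map of `pointCongr`. It keeps the coordinates, so that no cast of data along
the equality of curves is needed. -/
def pointCast {E E' : WeierstrassCurve F} (h : E = E') :
    E.toAffine.Point → E'.toAffine.Point
  | .zero => .zero
  | .some x y hxy => .some x y (h ▸ hxy)

/-- Transport of points along an equality of curves. -/
noncomputable def pointCongr {E E' : WeierstrassCurve F} (h : E = E') :
    E.toAffine.Point ≃+ E'.toAffine.Point where
  toFun := pointCast h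
  invFun := pointCast h.symm
  left_inv P := by subst h; cases P <;> rfl
  right_inv P := by subst h; cases P <;> rfl
  map_add' P Q := by
    subst h
    have : ∀ R : E.toAffine.Point, pointCast (rfl : E = E) R = R := fun R => by cases R <;> rfl
    simp only [this]

theorem pointCongr_some {E E' : WeierstrassCurve F} (h : E = E') {x y : F}
    (hx : E.toAffine.Nonsingular x y) :
    pointCongr h (.some x y hx) = .some x y (h ▸ hx) := by
  rfl

end Congr

section Point

variable {F : Type*} [Field F] [CharZero F] [Algebra ℚ F]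

/-- Abscissa of the marked point on the twist. -/
def kx (W : WeierstrassCurve ℚ) (ζ u v : F) : F :=
  (kX ζ u v - 3 * algebraMap ℚ F W.b₂) / 36

/-- Ordinate of the marked point on the twist. -/
def ky (W : WeierstrassCurve ℚ) (ζ u v : F) : F :=
  (kY ζ u v / 108 - algebraMap ℚ F W.a₁ * kx W ζ u v - algebraMap ℚ F W.a₃) / 2

theorem equation_twist (W : WeierstrassCurve ℚ) {ζ : F}
    (hζ : 1 + ζ + ζ ^ 2 + ζ ^ 3 + ζ ^ 4 = 0) (u v : F) :
    (twist W (kH u v) (kT u v)).toAffine.Equation (kx W ζ u v) (ky W ζ u v) := by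
  rw [equation_iff]
  have h := kY_sq hζ u v
  simp only [twist, twistA4, kx, ky, map_sub, map_mul, map_add, map_pow, map_div₀, map_one,
    map_ofNat, WeierstrassCurve.b₂]
  field_simp
  linear_combination (1934917632 : F) * h

variable [DecidableEq F]

/-- The marked point. -/
noncomputable def kPoint (W : WeierstrassCurve ℚ) {ζ : F}
    (hζ : 1 + ζ + ζ ^ 2 + ζ ^ 3 + ζ ^ 4 = 0) (u v : F)
    (hΔ : (twist W (kH u v) (kT u v)).Δ ≠ 0) :
    (twist W (kH u v) (kT u v)).toAffine.Point :=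
  .some _ _ ((equation_iff_nonsingular_of_Δ_ne_zero hΔ).mp (equation_twist W hζ u v))

theorem zeta_sq_sum {ζ : F} (hζ : 1 + ζ + ζ ^ 2 + ζ ^ 3 + ζ ^ 4 = 0) :
    1 + ζ ^ 2 + (ζ ^ 2) ^ 2 + (ζ ^ 2) ^ 3 + (ζ ^ 2) ^ 4 = 0 := by
  linear_combination (1 - ζ + ζ ^ 2 - ζ ^ 3 + ζ ^ 4) * hζ

theorem kY_ne_zero_of_double (W : WeierstrassCurve ℚ) {ζ : F}
    (hζ : 1 + ζ + ζ ^ 2 + ζ ^ 3 + ζ ^ 4 = 0) (u v : F)
    (hΔ : (twist W (kH u v) (kT u v)).Δ ≠ 0) : kY ζ u v ≠ 0 := by
  intro h
  have hY := kY_sq hζ u v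
  have hL := kLam_mul hζ u v
  rw [h] at hY hL
  have h1 : kX ζ u v ^ 2 = 9 * kH u v := by linear_combination (-1 / 3 : F) * hL
  have h2 : kX ζ u v * kH u v = -3 * kT u v := by
    linear_combination (1 / 18 : F) * hY + (kX ζ u v / 18) * h1
  have h3 : kH u v ^ 3 - kT u v ^ 2 = 0 := by
    linear_combination (-(kH u v ^ 2) / 9) * h1 + ((kX ζ u v * kH u v - 3 * kT u v) / 9) * h2
  rw [kH_pow_three_sub] at h3
  rw [twist_Δ] at hΔ
  exact hΔ ((mul_eq_zero.mp h3).resolve_left (by norm_num))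

/-- Doubling the marked point squares the root of unity. -/
theorem kPoint_add_self (W : WeierstrassCurve ℚ) {ζ : F}
    (hζ : 1 + ζ + ζ ^ 2 + ζ ^ 3 + ζ ^ 4 = 0) (u v : F)
    (hΔ : (twist W (kH u v) (kT u v)).Δ ≠ 0) :
    kPoint W hζ u v hΔ + kPoint W hζ u v hΔ = kPoint W (zeta_sq_sum hζ) u v hΔ := by
  have hY := kY_ne_zero_of_double W hζ u v hΔ
  have hy : ky W ζ u v ≠ (twist W (kH u v) (kT u v)).toAffine.negY (kx W ζ u v) (ky W ζ u v) := by
    intro h
    apply hY
    simp only [negY, ky, twist] at h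
    linear_combination (108 : F) * h
  rw [kPoint, Point.add_self_of_Y_ne hy, kPoint, Point.some.injEq]
  have hsl : (twist W (kH u v) (kT u v)).toAffine.slope (kx W ζ u v) (kx W ζ u v) (ky W ζ u v)
      (ky W ζ u v) = kLam ζ u v / 6 - algebraMap ℚ F W.a₁ / 2 := by
    rw [slope_of_Y_ne rfl hy, div_eq_iff (sub_ne_zero.mpr hy)]
    have h := kLam_mul hζ u v
    simp only [negY, twist, twistA4, kx, ky, map_sub, map_mul, map_add, map_pow, map_div₀, map_one,
      map_ofNat, WeierstrassCurve.b₂]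
    field_simp
    linear_combination (-124416 : F) * h
  have hx := kX_double hζ u v
  have hyy := kY_double hζ u v
  rw [hsl]
  have e1 : (twist W (kH u v) (kT u v)).toAffine.addX (kx W ζ u v) (kx W ζ u v)
      (kLam ζ u v / 6 - algebraMap ℚ F W.a₁ / 2) = kx W (ζ ^ 2) u v := by
    simp only [addX, twist, kx, hx, WeierstrassCurve.b₂, map_add, map_mul, map_pow, map_ofNat]
    field_simp
    ring
  refine ⟨e1, ?_⟩
  rw [addY, negAddY, e1]
  simp only [negY, twist, kx, ky, hyy]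
  field_simp
  ring

theorem kPoint_congr (W : WeierstrassCurve ℚ) {ζ ζ' : F}
    (hζ : 1 + ζ + ζ ^ 2 + ζ ^ 3 + ζ ^ 4 = 0) (hζ' : 1 + ζ' + ζ' ^ 2 + ζ' ^ 3 + ζ' ^ 4 = 0)
    (h : ζ = ζ') (u v : F) (hΔ : (twist W (kH u v) (kT u v)).Δ ≠ 0) :
    kPoint W hζ u v hΔ = kPoint W hζ' u v hΔ := by
  subst h; rfl

theorem kPoint_four (W : WeierstrassCurve ℚ) {ζ : F}
    (hζ : 1 + ζ + ζ ^ 2 + ζ ^ 3 + ζ ^ 4 = 0) (u v : F)
    (hΔ : (twist W (kH u v) (kT u v)).Δ ≠ 0) :
    kPoint W (zeta_sq_sum (zeta_sq_sum hζ)) u v hΔ = -kPoint W hζ u v hΔ := by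
  simp only [kPoint, Point.neg_some, Point.some.injEq]
  have hx : kx W ((ζ ^ 2) ^ 2) u v = kx W ζ u v := by
    simp only [kx, ← pow_mul]; rw [kX_inv hζ]
  refine ⟨hx, ?_⟩
  simp only [ky, negY, twist, hx]
  rw [← pow_mul, kY_inv hζ]
  ring

/-- The marked point has order five. -/
theorem five_nsmul_kPoint (W : WeierstrassCurve ℚ) {ζ : F}
    (hζ : 1 + ζ + ζ ^ 2 + ζ ^ 3 + ζ ^ 4 = 0) (u v : F)
    (hΔ : (twist W (kH u v) (kT u v)).Δ ≠ 0) : 5 • kPoint W hζ u v hΔ = 0 := by
  have h2 := kPoint_add_self W hζ u v hΔ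
  have h4 := kPoint_add_self W (zeta_sq_sum hζ) u v hΔ
  rw [kPoint_four W hζ, ← h2] at h4
  calc 5 • kPoint W hζ u v hΔ = (kPoint W hζ u v hΔ + kPoint W hζ u v hΔ
        + (kPoint W hζ u v hΔ + kPoint W hζ u v hΔ)) + kPoint W hζ u v hΔ := by abel
    _ = 0 := by rw [h4, neg_add_cancel]

end Point

end FLTA.Elliptic.Switch
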