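import Fermat.Agent.Elliptic.Switch.Orbit
import Fermat.Agent.Elliptic.Switch.Twist
import Fermat.Agent.EllTorsion.Card

/-!
# The 5-torsion of the generic twist and its specialisations

All 5-torsion points of the generic twist are defined over `K(u, v)` and have polynomial
coordinates; specialisation at any point with nonzero discriminant is bijective on them.
-/

set_option autoImplicit false
set_option linter.unusedSectionVars false

open WeierstrassCurve WeierstrassCurve.Affine

namespace FLTA.Elliptic.Switch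

variable (K : Type*) [Field K] [CharZero K] [Algebra ℚ K] [DecidableEq K]

/-- Polynomials in two variables. -/
abbrev GenRing : Type _ := MvPolynomial (Fin 2) K

variable (L : Type*) [Field L] [CharZero L] [Algebra ℚ L] [DecidableEq L]
  [Algebra (GenRing K) L] [IsFractionRing (GenRing K) L]

variable {K}

/-- The generic twist of `W`. -/
noncomputable def genCurve (W : WeierstrassCurve ℚ) : WeierstrassCurve (GenRing K) :=
  twist W (kH (MvPolynomial.X 0) (MvPolynomial.X 1)) (kT (MvPolynomial.X 0) (MvPolynomial.X 1))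

/-- Evaluation at a point. -/
noncomputable def evalAt (a b : K) : GenRing K →+* K := MvPolynomial.eval ![a, b]

theorem map_genCurve_evalAt (W : WeierstrassCurve ℚ) (a b : K) :
    (genCurve W).map (evalAt a b) = twist W (kH a b) (kT a b) := by
  simp [genCurve, map_twist, map_kH, map_kT, evalAt]

theorem evalAt_Δ (W : WeierstrassCurve ℚ) (a b : K) :
    evalAt a b (genCurve W).Δ = kf a b ^ 5 := by
  rw [← WeierstrassCurve.map_Δ, map_genCurve_evalAt, twist_Δ]

variable (K) in
/-- The points of order dividing five on the generic twist, over the function field. -/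
abbrev GenTorsion (W : WeierstrassCurve ℚ) : Type _ :=
  Submodule.torsionBy ℤ
    ((genCurve (K := K) W).map (algebraMap (GenRing K) L)).toAffine.Point (5 : ℕ)

/-- The points of order dividing five on a specialisation. -/
abbrev SpecTorsion (W : WeierstrassCurve ℚ) (e : GenRing K →+* K) : Type _ :=
  Submodule.torsionBy ℤ ((genCurve W).map e).toAffine.Point (5 : ℕ)

theorem five_nsmul_eq_zero {A : Type*} [AddCommGroup A]
    (P : Submodule.torsionBy ℤ A (5 : ℕ)) : 5 • (P : A) = 0 := by
  have h := (Submodule.mem_torsionBy_iff (R := ℤ) _ _).mp P.2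
  rwa [natCast_zsmul] at h

theorem mem_torsion_five {A : Type*} [AddCommGroup A] {P : A} (h : 5 • P = 0) :
    P ∈ Submodule.torsionBy ℤ A (5 : ℕ) := by
  rw [Submodule.mem_torsionBy_iff, natCast_zsmul, h]

theorem isIntegralPoint_genTorsion (W : WeierstrassCurve ℚ) (P : GenTorsion K L W) :
    IsIntegralPoint (genCurve W) L P.1 := by
  refine isIntegralPoint_of_five_nsmul ?_ (five_nsmul_eq_zero P)
  simpa [map_ofNat] using
    (isUnit_iff_ne_zero.mpr (by norm_num : (15 : K) ≠ 0)).map (MvPolynomial.C (σ := Fin 2))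

/-- Specialisation of torsion along a ring map at which the discriminant does not vanish. -/
noncomputable def specTorsion (W : WeierstrassCurve ℚ) {F : Type*} [Field F] [DecidableEq F]
    (e : GenRing K →+* F) (he : e (genCurve W).Δ ≠ 0) :
    GenTorsion K L W →+ ((genCurve W).map e).toAffine.Point where
  toFun P := specialize e P.1
  map_zero' := specialize_zero e
  map_add' P Q := specialize_add e he (isIntegralPoint_genTorsion L W P)
    (isIntegralPoint_genTorsion L W Q) (isIntegralPoint_genTorsion L W (P + Q))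

theorem specTorsion_injective (W : WeierstrassCurve ℚ) {F : Type*} [Field F] [DecidableEq F]
    (e : GenRing K →+* F) (he : e (genCurve W).Δ ≠ 0) :
    Function.Injective (specTorsion L W e he) := by
  rw [injective_iff_map_eq_zero]
  intro P hP
  exact Subtype.ext ((specialize_eq_zero_iff e he (isIntegralPoint_genTorsion L W P)).mp hP)

theorem five_nsmul_specTorsion (W : WeierstrassCurve ℚ) {F : Type*} [Field F] [DecidableEq F]
    (e : GenRing K →+* F) (he : e (genCurve W).Δ ≠ 0) (P : GenTorsion K L W) :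
    5 • specTorsion L W e he P = 0 := by
  rw [← map_nsmul, show 5 • P = 0 from Subtype.ext (five_nsmul_eq_zero P), map_zero]

/-- Specialisation, landing in the torsion of the specialised curve. -/
noncomputable def specAt (W : WeierstrassCurve ℚ) (e : GenRing K →+* K)
    (he : e (genCurve W).Δ ≠ 0) : GenTorsion K L W →+ SpecTorsion W e :=
  AddMonoidHom.mk' (fun P => ⟨specTorsion L W e he P,
    mem_torsion_five (five_nsmul_specTorsion L W e he P)⟩)
    fun P Q => Subtype.ext (map_add (specTorsion L W e he) P Q)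

/-! ### Two independent points -/

section Basis

variable {ζ : K}

local notation "ι" => algebraMap (GenRing K) L

theorem zeta_sum_map (hζ : 1 + ζ + ζ ^ 2 + ζ ^ 3 + ζ ^ 4 = 0) :
    1 + ι (MvPolynomial.C ζ) + ι (MvPolynomial.C ζ) ^ 2 + ι (MvPolynomial.C ζ) ^ 3
      + ι (MvPolynomial.C ζ) ^ 4 = 0 := by
  simpa using congrArg (fun x => ι (MvPolynomial.C x)) hζ

/-- The image of a substitution of the variables, in the function field. -/
noncomputable def substVar (a b : K) : GenRing K :=
  MvPolynomial.C a * MvPolynomial.X 0 + MvPolynomial.C b * MvPolynomial.X 1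

theorem eval_substVar (a b : K) (x : Fin 2 → K) :
    MvPolynomial.eval x (substVar a b) = a * x 0 + b * x 1 := by
  simp [substVar]

theorem twist_subst_eq (W : WeierstrassCurve ℚ) {g : Lin K}
    (hH : ∀ u v, kH (g.fu u v) (g.fv u v) = kH u v)
    (hT : ∀ u v, kT (g.fu u v) (g.fv u v) = kT u v) :
    twist W (kH (substVar g.a g.b) (substVar g.c g.d)) (kT (substVar g.a g.b) (substVar g.c g.d))
      = (genCurve W : WeierstrassCurve (GenRing K)) := by
  refine congrArg₂ (twist W) (MvPolynomial.funext fun x => ?_) (MvPolynomial.funext fun x => ?_)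
  · simpa [map_kH, eval_substVar, Lin.fu, Lin.fv] using hH (x 0) (x 1)
  · simpa [map_kT, eval_substVar, Lin.fu, Lin.fv] using hT (x 0) (x 1)

theorem genCurve_map_eq (W : WeierstrassCurve ℚ) {g : Lin K}
    (hH : ∀ u v, kH (g.fu u v) (g.fv u v) = kH u v)
    (hT : ∀ u v, kT (g.fu u v) (g.fv u v) = kT u v) :
    twist W (kH (ι (substVar g.a g.b)) (ι (substVar g.c g.d)))
      (kT (ι (substVar g.a g.b)) (ι (substVar g.c g.d)))
      = (genCurve (K := K) W).map ι := by
  rw [← twist_subst_eq W hH hT, map_twist, map_kH, map_kT]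

theorem genCurve_map_Δ_ne_zero (W : WeierstrassCurve ℚ) :
    ((genCurve (K := K) W).map ι).Δ ≠ 0 := by
  rw [WeierstrassCurve.map_Δ, map_ne_zero_iff _ (IsFractionRing.injective _ _)]
  intro h
  have := evalAt_Δ (K := K) W 1 1
  rw [h, map_zero] at this
  norm_num [kf] at this

theorem some_mem_torsion {F : Type*} [Field F] [DecidableEq F] {E E' : WeierstrassCurve F}
    (h : E = E') {x y : F} (h1 : E.toAffine.Nonsingular x y) (h2 : E'.toAffine.Nonsingular x y)
    (hP : 5 • (Point.some x y h1 : E.toAffine.Point) = 0) :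
    (Point.some x y h2 : E'.toAffine.Point) ∈
      Submodule.torsionBy ℤ E'.toAffine.Point (5 : ℕ) := by
  subst h; exact mem_torsion_five hP

theorem some_add_congr {F : Type*} [Field F] [DecidableEq F] {E E' : WeierstrassCurve F}
    (h : E = E') {x y t s t' s' : F} (h1 : E.toAffine.Nonsingular x y)
    (h2 : E.toAffine.Nonsingular t s) (h1' : E'.toAffine.Nonsingular x y)
    (h2' : E'.toAffine.Nonsingular t' s') (ht : t = t') (hs : s = s')
    (hP : (Point.some x y h1 : E.toAffine.Point) + Point.some x y h1 = Point.some t s h2) :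
    (Point.some x y h1' : E'.toAffine.Point) + Point.some x y h1' = Point.some t' s' h2' := by
  subst h ht hs; exact hP

theorem pointCongr_torsion {F : Type*} [Field F] [DecidableEq F] {E E' : WeierstrassCurve F}
    (h : E = E') {P : E.toAffine.Point} (hP : 5 • P = 0) :
    pointCongr h P ∈ Submodule.torsionBy ℤ E'.toAffine.Point (5 : ℕ) :=
  mem_torsion_five (by rw [← map_nsmul, hP, map_zero])

theorem twist_subst_Δ_ne_zero (W : WeierstrassCurve ℚ) {g : Lin K}
    (hH : ∀ u v, kH (g.fu u v) (g.fv u v) = kH u v)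
    (hT : ∀ u v, kT (g.fu u v) (g.fv u v) = kT u v) :
    (twist W (kH (ι (substVar g.a g.b)) (ι (substVar g.c g.d)))
      (kT (ι (substVar g.a g.b)) (ι (substVar g.c g.d)))).Δ ≠ 0 := by
  rw [genCurve_map_eq L W hH hT]
  exact genCurve_map_Δ_ne_zero L W

theorem genNonsingular (W : WeierstrassCurve ℚ) (hζ : 1 + ζ + ζ ^ 2 + ζ ^ 3 + ζ ^ 4 = 0)
    {g : Lin K} (hH : ∀ u v, kH (g.fu u v) (g.fv u v) = kH u v)
    (hT : ∀ u v, kT (g.fu u v) (g.fv u v) = kT u v) :
    ((genCurve (K := K) W).map ι).toAffine.Nonsingular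
      (kx W (ι (MvPolynomial.C ζ)) (ι (substVar g.a g.b)) (ι (substVar g.c g.d)))
      (ky W (ι (MvPolynomial.C ζ)) (ι (substVar g.a g.b)) (ι (substVar g.c g.d))) := by
  rw [← genCurve_map_eq L W hH hT]
  exact (equation_iff_nonsingular_of_Δ_ne_zero (twist_subst_Δ_ne_zero L W hH hT)).mp
    (equation_twist W (zeta_sum_map L hζ) _ _)

theorem five_nsmul_genNonsingular (W : WeierstrassCurve ℚ)
    (hζ : 1 + ζ + ζ ^ 2 + ζ ^ 3 + ζ ^ 4 = 0)
    {g : Lin K} (hH : ∀ u v, kH (g.fu u v) (g.fv u v) = kH u v)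
    (hT : ∀ u v, kT (g.fu u v) (g.fv u v) = kT u v) :
    Point.some _ _ (genNonsingular L W hζ hH hT) ∈
      Submodule.torsionBy ℤ ((genCurve (K := K) W).map ι).toAffine.Point (5 : ℕ) :=
  some_mem_torsion (genCurve_map_eq L W hH hT)
    ((equation_iff_nonsingular_of_Δ_ne_zero (twist_subst_Δ_ne_zero L W hH hT)).mp
      (equation_twist W (zeta_sum_map L hζ) _ _)) _
    (five_nsmul_kPoint W (zeta_sum_map L hζ) _ _ (twist_subst_Δ_ne_zero L W hH hT))

/-- A point of order five attached to a symmetry. -/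
noncomputable def genPoint (W : WeierstrassCurve ℚ) (hζ : 1 + ζ + ζ ^ 2 + ζ ^ 3 + ζ ^ 4 = 0)
    {g : Lin K} (hH : ∀ u v, kH (g.fu u v) (g.fv u v) = kH u v)
    (hT : ∀ u v, kT (g.fu u v) (g.fv u v) = kT u v) : GenTorsion K L W :=
  ⟨.some _ _ (genNonsingular L W hζ hH hT), five_nsmul_genNonsingular L W hζ hH hT⟩

theorem genPoint_eq (W : WeierstrassCurve ℚ) (hζ : 1 + ζ + ζ ^ 2 + ζ ^ 3 + ζ ^ 4 = 0)
    {g : Lin K} (hH : ∀ u v, kH (g.fu u v) (g.fv u v) = kH u v)
    (hT : ∀ u v, kT (g.fu u v) (g.fv u v) = kT u v) :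
    ∃ (y : L) (h : ((genCurve (K := K) W).map ι).toAffine.Nonsingular
        (kx W (ι (MvPolynomial.C ζ)) (ι (substVar g.a g.b)) (ι (substVar g.c g.d))) y),
      (genPoint L W hζ hH hT).1 = .some _ y h :=
  ⟨_, _, rfl⟩

theorem genPoint_add_self (W : WeierstrassCurve ℚ) (hζ : 1 + ζ + ζ ^ 2 + ζ ^ 3 + ζ ^ 4 = 0)
    {g : Lin K} (hH : ∀ u v, kH (g.fu u v) (g.fv u v) = kH u v)
    (hT : ∀ u v, kT (g.fu u v) (g.fv u v) = kT u v) :
    genPoint L W hζ hH hT + genPoint L W hζ hH hT = genPoint L W (zeta_sq_sum hζ) hH hT := by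
  apply Subtype.ext
  exact some_add_congr (genCurve_map_eq L W hH hT) _ _ _ _ (by simp [map_pow]) (by simp [map_pow])
    (kPoint_add_self W (zeta_sum_map L hζ) _ _ (twist_subst_Δ_ne_zero L W hH hT))

theorem kXn_eval_eq (W : WeierstrassCurve ℚ) {a b : K} {g g' : Lin K}
    (h : kx W (ι (MvPolynomial.C a)) (ι (substVar g.a g.b)) (ι (substVar g.c g.d))
      = kx W (ι (MvPolynomial.C b)) (ι (substVar g'.a g'.b)) (ι (substVar g'.c g'.d))) :
    kXn a (g.fu 0 1) (g.fv 0 1) = kXn b (g'.fu 0 1) (g'.fv 0 1) := by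
  simp only [kx, kX] at h
  field_simp at h
  rw [sub_left_inj, ← map_kXn, ← map_kXn] at h
  have := congrArg (evalAt (0 : K) 1) (IsFractionRing.injective (GenRing K) L h)
  simpa [map_kXn, evalAt, eval_substVar, Lin.fu, Lin.fv] using this

theorem exists_two_points (W : WeierstrassCurve ℚ) (hζ : IsPrimitiveRoot ζ 5) :
    25 ≤ Nat.card (GenTorsion K L W) ∨ ¬ Finite (GenTorsion K L W) := by
  by_cases hfin : Finite (GenTorsion K L W)
  swap
  · exact Or.inr hfin
  left
  have hs := sum_pow_zeta hζ
  have hφ : golden ζ ^ 2 = golden ζ + 1 := golden_sq hs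
  let e : Lin K := ⟨1, 0, 0, 1⟩
  have heH : ∀ u v, kH (e.fu u v) (e.fv u v) = kH u v := fun u v => by simp [e, Lin.fu, Lin.fv]
  have heT : ∀ u v, kT (e.fu u v) (e.fv u v) = kT u v := fun u v => by simp [e, Lin.fu, Lin.fv]
  have hS := isIcosa_goldenFlip hs (by norm_num)
  set P := genPoint L W hs heH heT with hP
  set P' := genPoint L W (zeta_sq_sum hs) heH heT with hP'
  set Q := genPoint L W hs hS.hH hS.hT with hQ
  have hdouble : P + P = P' := genPoint_add_self L W hs heH heT
  obtain ⟨yP, hyP, eP⟩ := genPoint_eq L W hs heH heT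
  obtain ⟨yP', hyP', eP'⟩ := genPoint_eq L W (zeta_sq_sum hs) heH heT
  obtain ⟨yQ, hyQ, eQ⟩ := genPoint_eq L W hs hS.hH hS.hT
  rw [← hP] at eP; rw [← hP'] at eP'; rw [← hQ] at eQ
  have hval : kXn ζ ((goldenFlip ζ).fu 0 1) ((goldenFlip ζ).fv 0 1) = 15 := by
    have hsq := scale_sq hs
    have hne : golden ζ + 2 ≠ 0 := by
      intro h
      rw [eq_neg_of_add_eq_zero_left h] at hφ
      norm_num at hφ
    set s := (ζ - ζ ^ 4)⁻¹ with hsd
    have hs2 : (golden ζ + 2) * s ^ 2 = -1 := by
      rw [hsd, inv_pow, hsq]; field_simp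
    have : kXn ζ ((goldenFlip ζ).fu 0 1) ((goldenFlip ζ).fv 0 1)
        = s ^ 10 * kXn ζ (golden ζ) (-1) := by
      simp only [goldenFlip, Lin.fu, Lin.fv, kXn, ← hsd]; ring
    rw [this, kXn_golden hs]
    linear_combination (-15 * ((((golden ζ + 2) * s ^ 2) ^ 4) - ((golden ζ + 2) * s ^ 2) ^ 3
      + ((golden ζ + 2) * s ^ 2) ^ 2 - (golden ζ + 2) * s ^ 2 + 1)) * hs2
  have hne1 : ∀ (y y' : L) h h',
      (Point.some (kx W (ι (MvPolynomial.C ζ)) (ι (substVar (goldenFlip ζ).a (goldenFlip ζ).b))
        (ι (substVar (goldenFlip ζ).c (goldenFlip ζ).d))) y h :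
          ((genCurve (K := K) W).map ι).toAffine.Point)
      ≠ Point.some (kx W (ι (MvPolynomial.C ζ)) (ι (substVar e.a e.b)) (ι (substVar e.c e.d)))
          y' h' := by
    intro y y' h h' heq
    have := kXn_eval_eq L W (Point.some.inj heq).1
    rw [hval] at this
    have : golden ζ = -2 := by
      simp [kXn, e, Lin.fu, Lin.fv] at this
      simp only [golden]
      linear_combination (1 / 36 : K) * this
    rw [this] at hφ
    norm_num at hφ
  have hne2 : ∀ (y y' : L) h h',
      (Point.some (kx W (ι (MvPolynomial.C ζ)) (ι (substVar (goldenFlip ζ).a (goldenFlip ζ).b))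
        (ι (substVar (goldenFlip ζ).c (goldenFlip ζ).d))) y h :
          ((genCurve (K := K) W).map ι).toAffine.Point)
      ≠ Point.some (kx W (ι (MvPolynomial.C (ζ ^ 2))) (ι (substVar e.a e.b))
          (ι (substVar e.c e.d))) y' h' := by
    intro y y' h h' heq
    have := kXn_eval_eq L W (Point.some.inj heq).1
    rw [hval] at this
    have : golden ζ = 3 := by
      simp [kXn, e, Lin.fu, Lin.fv] at this
      simp only [golden]
      linear_combination (-1 / 36 : K) * this - hs - ζ * (five_pow hs)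
    rw [this] at hφ
    norm_num at hφ
  have hP0 : P ≠ 0 := fun h => Point.some_ne_zero hyP (by rw [← eP, h]; rfl)
  have hQ0 : Q ≠ 0 := fun h => Point.some_ne_zero hyQ (by rw [← eQ, h]; rfl)
  have hQP : Q ≠ P := fun h => hne1 _ _ hyQ hyP (by rw [← eQ, ← eP, h])
  have hQnP : Q ≠ -P := fun h => hne1 _ _ hyQ ((nonsingular_neg _ _).mpr hyP)
    (by rw [← Point.neg_some hyP, ← eQ, ← eP, h]; rfl)
  have hQ2 : Q ≠ P' := fun h => hne2 _ _ hyQ hyP' (by rw [← eQ, ← eP', h])
  have hQn2 : Q ≠ -P' := fun h => hne2 _ _ hyQ ((nonsingular_neg _ _).mpr hyP')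
    (by rw [← Point.neg_some hyP', ← eQ, ← eP', h]; rfl)
  have h5 : ∀ R : GenTorsion K L W, (5 : ℕ) • R = 0 := fun R =>
    Subtype.ext (five_nsmul_eq_zero R)
  let := AddCommGroup.zmodModule h5
  have hall : ∀ c : ZMod 5, c • P ≠ Q := by
    intro c h
    have hc : (c.val : ℕ) • P = Q := by
      rw [← Nat.cast_smul_eq_nsmul (ZMod 5), ZMod.natCast_zmod_val]; exact h
    have hlt := c.val_lt
    have h5P := h5 P
    interval_cases hv : c.val
    · exact hQ0 (by rw [← hc, zero_nsmul])
    · exact hQP (by rw [← hc, one_nsmul])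
    · exact hQ2 (by rw [← hc, two_nsmul, hdouble])
    · refine hQn2 ?_
      rw [← hc, ← hdouble, eq_neg_iff_add_eq_zero, ← h5P]
      abel
    · refine hQnP ?_
      rw [← hc, eq_neg_iff_add_eq_zero, ← h5P]
      abel
  have hinj : Function.Injective fun ab : ZMod 5 × ZMod 5 => ab.1 • P + ab.2 • Q := by
    rintro ⟨a, b⟩ ⟨a', b'⟩ h
    have h' : (a - a') • P + (b - b') • Q = 0 := by
      simp only at h
      rw [sub_smul, sub_smul, sub_add_sub_comm, h, sub_self]
    have : Fact (Nat.Prime 5) := ⟨by norm_num⟩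
    by_cases hb : b = b'
    · subst hb
      rw [sub_self, zero_smul, add_zero] at h'
      rcases smul_eq_zero.mp h' with ha | ha
      · rw [sub_eq_zero] at ha; rw [ha]
      · exact absurd ha hP0
    · exfalso
      refine hall (-(b - b')⁻¹ * (a - a')) ?_
      have := congrArg (fun R => (b - b')⁻¹ • R) h'
      simp only [smul_add, smul_smul, smul_zero, inv_mul_cancel₀ (sub_ne_zero.mpr hb),
        one_smul] at this
      rw [neg_mul, neg_smul, neg_eq_iff_eq_neg]
      exact eq_neg_of_add_eq_zero_left this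
  have := Nat.card_le_card_of_injective _ hinj
  simpa using this

end Basis

/-- Specialisation is bijective on the torsion. -/
theorem specAt_bijective [IsAlgClosed K] (W : WeierstrassCurve ℚ) (e : GenRing K →+* K)
    (he : e (genCurve W).Δ ≠ 0) : Function.Bijective (specAt L W e he) := by
  have hinj : Function.Injective (specAt L W e he) := fun P Q h =>
    specTorsion_injective L W e he (congrArg Subtype.val h)
  have : ((genCurve W).map e).IsElliptic :=
    ⟨isUnit_iff_ne_zero.mpr (by rwa [WeierstrassCurve.map_Δ])⟩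
  have hcard : Nat.card (SpecTorsion W e) = 25 := by
    rw [SpecTorsion, EllTorsion.natCard_torsionBy _ (by norm_num : ((5 : ℕ) : K) ≠ 0)]
    norm_num
  have : Finite (SpecTorsion W e) := Nat.finite_of_card_ne_zero (by omega)
  have hfin : Finite (GenTorsion K L W) := Finite.of_injective _ hinj
  obtain ⟨ζ, hζ⟩ := HasEnoughRootsOfUnity.exists_primitiveRoot K 5
  refine (Nat.bijective_iff_injective_and_card _).mpr ⟨hinj, ?_⟩
  have h1 := (exists_two_points L W hζ).resolve_right (not_not_intro hfin)
  have h2 := Nat.card_le_card_of_injective _ hinj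
  omega

theorem coe_specAt (W : WeierstrassCurve ℚ) (e : GenRing K →+* K)
    (he : e (genCurve W).Δ ≠ 0) (P : GenTorsion K L W) :
    (specAt L W e he P).1 = specialize e P.1 := rfl

/-- `Q` has the conjugate coordinates of `P`. -/
def IsConjPoint {E E' : WeierstrassCurve K} (σ : K →+* K) (P : E.toAffine.Point)
    (Q : E'.toAffine.Point) : Prop :=
  match P, Q with
  | .zero, .zero => True
  | .some x y _, .some x' y' _ => x' = σ x ∧ y' = σ y
  | _, _ => False

theorem IsConjPoint.unique {E E' : WeierstrassCurve K} {σ : K →+* K} {P : E.toAffine.Point}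
    {Q Q' : E'.toAffine.Point} (h : IsConjPoint σ P Q) (h' : IsConjPoint σ P Q') : Q = Q' := by
  rcases P with _ | ⟨x, y, hP⟩ <;> rcases Q with _ | ⟨x', y', hQ⟩ <;>
    rcases Q' with _ | ⟨x'', y'', hQ'⟩ <;> simp_all [IsConjPoint]

/-- The endomorphism of the generic ring attached to a field map and a substitution. -/
noncomputable def conjSubst (σ : K →+* K) (g : Lin K) : GenRing K →+* GenRing K :=
  MvPolynomial.eval₂Hom (MvPolynomial.C.comp σ) ![substVar g.a g.b, substVar g.c g.d]

theorem map_genCurve_conjSubst (W : WeierstrassCurve ℚ) (σ : K →+* K) {g : Lin K}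
    (hH : ∀ u v, kH (g.fu u v) (g.fv u v) = kH u v)
    (hT : ∀ u v, kT (g.fu u v) (g.fv u v) = kT u v) :
    (genCurve W).map ((algebraMap (GenRing K) L).comp (conjSubst σ g))
      = (genCurve (K := K) W).map (algebraMap (GenRing K) L) := by
  rw [← WeierstrassCurve.map_map]
  refine congrArg (fun E : WeierstrassCurve (GenRing K) => E.map (algebraMap (GenRing K) L)) ?_
  conv_rhs => rw [← twist_subst_eq W hH hT]
  simp [genCurve, map_twist, map_kH, map_kT, conjSubst]

theorem evalAt_conjSubst (σ : K →+* K) (g : Lin K) {a b : K} (ha : σ a = g.fu a b)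
    (hb : σ b = g.fv a b) : (evalAt a b).comp (conjSubst σ g) = σ.comp (evalAt a b) := by
  refine MvPolynomial.ringHom_ext (fun r => ?_) fun i => ?_
  · simp [evalAt, conjSubst]
  · fin_cases i <;> simp [evalAt, conjSubst, eval_substVar, ha, hb, Lin.fu, Lin.fv]

/-- The permutation of the generic torsion induced by a field map and a substitution. -/
noncomputable def conjTorsion (W : WeierstrassCurve ℚ) (σ : K →+* K) {g : Lin K}
    (hH : ∀ u v, kH (g.fu u v) (g.fv u v) = kH u v)
    (hT : ∀ u v, kT (g.fu u v) (g.fv u v) = kT u v) (P : GenTorsion K L W) : GenTorsion K L W :=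
  have he : ((algebraMap (GenRing K) L).comp (conjSubst σ g)) (genCurve W).Δ ≠ 0 := by
    rw [← WeierstrassCurve.map_Δ, map_genCurve_conjSubst L W σ hH hT]
    exact genCurve_map_Δ_ne_zero L W
  ⟨pointCongr (map_genCurve_conjSubst L W σ hH hT) (specTorsion L W _ he P),
    pointCongr_torsion _ (five_nsmul_specTorsion L W _ he P)⟩

theorem coe_conjTorsion (W : WeierstrassCurve ℚ) (σ : K →+* K) {g : Lin K}
    (hH : ∀ u v, kH (g.fu u v) (g.fv u v) = kH u v)
    (hT : ∀ u v, kT (g.fu u v) (g.fv u v) = kT u v) (P : GenTorsion K L W) :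
    (conjTorsion L W σ hH hT P).1 = pointCongr (map_genCurve_conjSubst L W σ hH hT)
      (specialize ((algebraMap (GenRing K) L).comp (conjSubst σ g)) P.1) := rfl

theorem pointCongr_specialize {R : Type*} [CommRing R] {W : WeierstrassCurve R} {F : Type*}
    [Field F] [Algebra R F] [FaithfulSMul R F] {F' : Type*} [Field F'] [DecidableEq F']
    (e : R →+* F') (he : e W.Δ ≠ 0) {E' : WeierstrassCurve F'} (heq : W.map e = E') {x y : R}
    {P : (W.map (algebraMap R F)).toAffine.Point}
    {h : (W.map (algebraMap R F)).toAffine.Nonsingular (algebraMap R F x) (algebraMap R F y)}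
    (hP : P = .some _ _ h) {u v : F'} (hu : e x = u) (hv : e y = v) :
    ∃ h', pointCongr heq (specialize e P) = .some u v h' := by
  subst heq hP hu hv
  rw [specialize_some e he h]
  exact ⟨_, pointCongr_some rfl _⟩

theorem conjTorsion_some (W : WeierstrassCurve ℚ) (σ : K →+* K) {g : Lin K}
    (hH : ∀ u v, kH (g.fu u v) (g.fv u v) = kH u v)
    (hT : ∀ u v, kT (g.fu u v) (g.fv u v) = kT u v) (P : GenTorsion K L W) {x y : GenRing K}
    {h : ((genCurve W).map (algebraMap (GenRing K) L)).toAffine.Nonsingular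
      (algebraMap (GenRing K) L x) (algebraMap (GenRing K) L y)}
    (hP : P.1 = .some _ _ h) :
    ∃ h', (conjTorsion L W σ hH hT P).1 = .some (algebraMap (GenRing K) L (conjSubst σ g x))
      (algebraMap (GenRing K) L (conjSubst σ g y)) h' := by
  have he' : ((algebraMap (GenRing K) L).comp (conjSubst σ g)) (genCurve W).Δ ≠ 0 := by
    rw [← WeierstrassCurve.map_Δ, map_genCurve_conjSubst L W σ hH hT]
    exact genCurve_map_Δ_ne_zero L W
  have : FaithfulSMul (GenRing K) L :=
    (faithfulSMul_iff_algebraMap_injective _ _).mpr (IsFractionRing.injective _ _)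
  obtain ⟨h', e⟩ := pointCongr_specialize (F := L) _ he' (map_genCurve_conjSubst L W σ hH hT) hP
    (RingHom.comp_apply _ _ _) (RingHom.comp_apply _ _ _)
  exact ⟨h', (coe_conjTorsion L W σ hH hT P).trans e⟩

theorem isConjPoint_specAt (W : WeierstrassCurve ℚ) (σ : K →+* K) {g : Lin K}
    (hH : ∀ u v, kH (g.fu u v) (g.fv u v) = kH u v)
    (hT : ∀ u v, kT (g.fu u v) (g.fv u v) = kT u v) {a b : K} (ha : σ a = g.fu a b)
    (hb : σ b = g.fv a b) (he : evalAt a b (genCurve W).Δ ≠ 0) (P : GenTorsion K L W) :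
    IsConjPoint σ (specAt L W (evalAt a b) he P).1
      (specAt L W (evalAt a b) he (conjTorsion L W σ hH hT P)).1 := by
  have : FaithfulSMul (GenRing K) L :=
    (faithfulSMul_iff_algebraMap_injective _ _).mpr (IsFractionRing.injective _ _)
  rcases (isIntegralPoint_genTorsion L W P).cases with h0 | ⟨x, y, h, -, hP⟩
  · have : P = 0 := Subtype.ext h0
    subst this
    have : conjTorsion L W σ hH hT 0 = (0 : GenTorsion K L W) :=
      Subtype.ext (by simp [coe_conjTorsion, specialize_zero])
    rw [this, map_zero]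
    trivial
  · obtain ⟨h', e2⟩ := conjTorsion_some L W σ hH hT P hP
    rw [coe_specAt, hP, specialize_some _ he, coe_specAt, e2, specialize_some _ he]
    exact ⟨RingHom.congr_fun (evalAt_conjSubst σ g ha hb) x,
      RingHom.congr_fun (evalAt_conjSubst σ g ha hb) y⟩

/-- The isomorphism of 5-torsion between two members of the family, compatible with every
field map acting on both parameters by the same symmetry. -/
theorem exists_torsion_equiv [IsAlgClosed K] (W : WeierstrassCurve ℚ) (a b a' b' : K)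
    (hf : kf a b ≠ 0) (hf' : kf a' b' ≠ 0) :
    ∃ φ : SpecTorsion W (evalAt a b) ≃+ SpecTorsion W (evalAt a' b'),
      ∀ (σ : K →+* K) (g : Lin K), (∀ u v, kH (g.fu u v) (g.fv u v) = kH u v) →
        (∀ u v, kT (g.fu u v) (g.fv u v) = kT u v) →
        σ a = g.fu a b → σ b = g.fv a b → σ a' = g.fu a' b' → σ b' = g.fv a' b' →
        ∀ x y : SpecTorsion W (evalAt a b), IsConjPoint σ x.1 y.1 →
          IsConjPoint σ (φ x).1 (φ y).1 := by
  let F := FractionRing (GenRing K)
  let _ : DecidableEq F := Classical.decEq _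
  have : CharZero F :=
    charZero_of_injective_algebraMap (R := GenRing K) (IsFractionRing.injective _ F)
  have he : evalAt a b (genCurve W).Δ ≠ 0 := by rw [evalAt_Δ]; exact pow_ne_zero _ hf
  have he' : evalAt a' b' (genCurve W).Δ ≠ 0 := by rw [evalAt_Δ]; exact pow_ne_zero _ hf'
  let A := AddEquiv.ofBijective _ (specAt_bijective F W (evalAt a b) he)
  let B := AddEquiv.ofBijective _ (specAt_bijective F W (evalAt a' b') he')
  refine ⟨A.symm.trans B, fun σ g hH hT ha hb ha' hb' x y hxy => ?_⟩
  obtain ⟨P, rfl⟩ := A.surjective x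
  have hy : A (conjTorsion F W σ hH hT P) = y :=
    Subtype.ext ((isConjPoint_specAt F W σ hH hT ha hb he P).unique hxy)
  subst hy
  simp only [AddEquiv.trans_apply, AddEquiv.symm_apply_apply]
  exact isConjPoint_specAt F W σ hH hT ha' hb' he' P

end FLTA.Elliptic.Switch
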