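import Fermat.Prelude.Def_FLTPrelim_GaloisRep
import Fermat.Prelude.Def_FLTPrelim_Modularity
import Fermat.Agent.Elliptic.Switch.Universal
import Fermat.Agent.EllReducible.IntegralTorsion

/-!
# The rational line on the twisted Klein family
-/

set_option autoImplicit false

open Polynomial

namespace FLTA.Elliptic.Switch

local notation "Qbar" => AlgebraicClosure ℚ

/-- A semistable integral model has nonzero `c₄` and `c₆`. -/
theorem c₄_ne_zero_and_c₆_ne_zero (W : WeierstrassCurve ℤ) (_hΔ : W.Δ ≠ 0)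
    (hW : W.IsSemistableModel) : W.c₄ ≠ 0 ∧ W.c₆ ≠ 0 := by
  have h := W.c_relation
  have hunit : (∀ p : ℕ, p.Prime → (p : ℤ) ∣ W.Δ → (p : ℤ) ∣ W.c₄) → W.Δ.natAbs = 1 := by
    intro hp
    by_contra hne
    obtain ⟨p, hpr, hpd⟩ := Nat.exists_prime_and_dvd hne
    have hpd' : (p : ℤ) ∣ W.Δ := Int.natCast_dvd.mpr hpd
    exact hW p hpr hpd' (hp p hpr hpd')
  constructor <;> intro h0 <;> rw [h0] at h
  · have h1 := hunit fun p _ _ => by rw [h0]; exact dvd_zero _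
    rcases Int.natAbs_eq W.Δ with e | e <;> rw [h1] at e <;> rw [e] at h <;> norm_num at h
    · nlinarith [sq_nonneg W.c₆]
    · have h2 : W.c₆ ^ 2 = 1728 := by linarith
      have hlt : W.c₆ < 42 ∧ -42 < W.c₆ := ⟨by nlinarith, by nlinarith⟩
      obtain ⟨h3, h4⟩ := hlt
      interval_cases W.c₆ <;> norm_num at h2
  · have hc4 : ∀ p : ℕ, p.Prime → (p : ℤ) ∣ W.Δ → (p : ℤ) ∣ W.c₄ := by
      intro p hp hd
      refine (Nat.prime_iff_prime_int.mp hp).dvd_of_dvd_pow (n := 3) ⟨1728 * (W.Δ / p), ?_⟩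
      rw [mul_left_comm, Int.mul_ediv_cancel' hd]
      linarith
    have h1 := hunit hc4
    have h16 : (16 : ℤ) ∣ W.c₄ ∨ W.c₄ % 2 = 1 := by
      rcases Int.emod_two_eq W.a₁ with ha | ha
      · left
        obtain ⟨b, hb⟩ : ∃ b, W.a₁ = 2 * b := ⟨W.a₁ / 2, by omega⟩
        refine ⟨(b ^ 2 + W.a₂) ^ 2 - 3 * (W.a₄ + b * W.a₃), ?_⟩
        simp only [WeierstrassCurve.c₄, WeierstrassCurve.b₂, WeierstrassCurve.b₄, hb]; ring
      · right
        obtain ⟨b, hb⟩ : ∃ b, W.a₁ = 2 * b + 1 := ⟨W.a₁ / 2, by omega⟩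
        have : W.c₄ = 2 * ((2 * b ^ 2 + 2 * b + 2 * W.a₂) * (4 * b ^ 2 + 4 * b + 4 * W.a₂ + 2)
            - 12 * W.b₄) + 1 := by
          simp only [WeierstrassCurve.c₄, WeierstrassCurve.b₂, hb]; ring
        omega
    have hpm : W.c₄ = 12 ∨ W.c₄ = -12 := by
      rcases Int.natAbs_eq W.Δ with e | e <;> rw [h1] at e <;> rw [e] at h <;> norm_num at h
      · left; nlinarith [sq_nonneg (W.c₄ - 12), sq_nonneg (W.c₄ + 6)]
      · right; nlinarith [sq_nonneg (W.c₄ + 12), sq_nonneg (W.c₄ - 6)]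
    omega

theorem exists_map_eq_of_fixed (p : Qbar[X]) (h : ∀ σ : Qbar ≃ₐ[ℚ] Qbar, p.map σ.toRingEquiv.toRingHom = p) :
    ∃ q : ℚ[X], q.map (algebraMap ℚ Qbar) = p := by
  have : IsGalois ℚ Qbar := EllReducible.isGalois_qbar
  rw [← mem_lifts, lifts_iff_coeff_lifts]
  intro k
  refine (InfiniteGalois.mem_range_algebraMap_iff_fixed (k := ℚ) (p.coeff k)).mpr fun σ => ?_
  have := congrArg (fun r => r.coeff k) (h σ)
  simpa [coeff_map] using this

/-- A rational line on the twisted family, with its three forms. -/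
structure LineData (c₄ c₆ : ℚ) (u v r₁ r₂ : Qbar) (qH qT qD : ℚ[X]) : Prop where
  hH : kH u v = algebraMap ℚ Qbar c₄
  hT : kT u v = algebraMap ℚ Qbar c₆
  hf : kf u v ≠ 0
  hfr : kf r₁ r₂ ≠ 0
  hdet : v * r₁ - u * r₂ ≠ 0
  hqH : qH.map (algebraMap ℚ Qbar) = kH (C u + C r₁ * X) (C v + C r₂ * X)
  hqT : qT.map (algebraMap ℚ Qbar) = kT (C u + C r₁ * X) (C v + C r₂ * X)
  hqD : C (kf u v) * qD.map (algebraMap ℚ Qbar) = kf (C u + C r₁ * X) (C v + C r₂ * X)
  hsym : ∀ σ : Qbar ≃ₐ[ℚ] Qbar, ∃ g : Lin Qbar, IsKleinSym g ∧ σ u = g.fu u v ∧ σ v = g.fv u v ∧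
    σ r₁ = g.fu r₁ r₂ ∧ σ r₂ = g.fv r₁ r₂

/-- The line through a point with rational invariants in the direction `k P + P*`, where `P*` is
the gradient of the form of degree 12 turned by a quarter, is rational. -/
theorem exists_lineData (c₄ c₆ : ℚ) (h4 : c₄ ≠ 0) (h6 : c₆ ≠ 0) (u v : Qbar)
    (hH : kH u v = algebraMap ℚ Qbar c₄) (hT : kT u v = algebraMap ℚ Qbar c₆) (hf : kf u v ≠ 0)
    (k : ℤ) (hk : kf ((k : Qbar) * u + kfv u v) ((k : Qbar) * v - kfu u v) ≠ 0) :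
    ∃ qH qT qD : ℚ[X],
      LineData c₄ c₆ u v ((k : Qbar) * u + kfv u v) ((k : Qbar) * v - kfu u v) qH qT qD := by
  obtain ⟨ζ, hζ⟩ := HasEnoughRootsOfUnity.exists_primitiveRoot Qbar 5
  set r₁ := (k : Qbar) * u + kfv u v with hr₁
  set r₂ := (k : Qbar) * v - kfu u v with hr₂
  have hdet : v * r₁ - u * r₂ ≠ 0 := by
    rw [show v * r₁ - u * r₂ = 12 * kf u v from by
      rw [← euler_kf, hr₁, hr₂]; ring]
    exact mul_ne_zero (by norm_num) hf
  have hsym : ∀ σ : Qbar ≃ₐ[ℚ] Qbar, ∃ g : Lin Qbar, IsKleinSym g ∧ σ u = g.fu u v ∧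
      σ v = g.fv u v ∧ σ r₁ = g.fu r₁ r₂ ∧ σ r₂ = g.fv r₁ r₂ := by
    intro σ
    let s : Qbar →+* Qbar := σ.toRingEquiv.toRingHom
    have e4 : kH (σ u) (σ v) = kH u v := by
      rw [show kH (σ u) (σ v) = s (kH u v) from (map_kH s u v).symm, hH]
      exact σ.commutes c₄
    have e6 : kT (σ u) (σ v) = kT u v := by
      rw [show kT (σ u) (σ v) = s (kT u v) from (map_kT s u v).symm, hT]
      exact σ.commutes c₆
    obtain ⟨g, hg, hgu, hgv⟩ := exists_kleinSym hζ e4 e6 (by rw [hH]; simpa using h4)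
      (by rw [hT]; simpa using h6) hf
    refine ⟨g, hg, hgu.symm, hgv.symm, ?_, ?_⟩
    · rw [hr₁, map_add, map_mul, map_intCast, show σ (kfv u v) = kfv (σ u) (σ v) from map_kfv s u v,
        ← hgu, ← hgv, hg.hgu]
      simp only [Lin.fu, hr₂]
      ring
    · rw [hr₂, map_sub, map_mul, map_intCast, show σ (kfu u v) = kfu (σ u) (σ v) from map_kfu s u v,
        ← hgu, ← hgv, sub_eq_add_neg, hg.hgv]
      simp only [Lin.fv, hr₁]
      ring
  have hline : ∀ (σ : Qbar ≃ₐ[ℚ] Qbar) (g : Lin Qbar), σ u = g.fu u v → σ v = g.fv u v →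
      σ r₁ = g.fu r₁ r₂ → σ r₂ = g.fv r₁ r₂ → ∀ e : Qbar,
      σ u + σ r₁ * e = g.fu (u + r₁ * e) (v + r₂ * e) ∧
        σ v + σ r₂ * e = g.fv (u + r₁ * e) (v + r₂ * e) := by
    intro σ g a b c d e
    rw [a, b, c, d]
    constructor <;> simp only [Lin.fu, Lin.fv] <;> ring
  obtain ⟨qH, hqH⟩ := exists_map_eq_of_fixed (kH (C u + C r₁ * X) (C v + C r₂ * X)) fun σ => by
    obtain ⟨g, hg, a, b, c, d⟩ := hsym σ
    apply Polynomial.funext
    intro e
    rw [← coe_mapRingHom, map_kH, ← coe_evalRingHom, map_kH, map_kH]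
    simp only [coe_mapRingHom, coe_evalRingHom, Polynomial.map_add, Polynomial.map_mul, map_C,
      map_X, eval_add, eval_mul, eval_C, eval_X]
    rw [show σ.toRingEquiv.toRingHom u + σ.toRingEquiv.toRingHom r₁ * e = _ from
      (hline σ g a b c d e).1, show σ.toRingEquiv.toRingHom v + σ.toRingEquiv.toRingHom r₂ * e = _
      from (hline σ g a b c d e).2, hg.hH]
  obtain ⟨qT, hqT⟩ := exists_map_eq_of_fixed (kT (C u + C r₁ * X) (C v + C r₂ * X)) fun σ => by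
    obtain ⟨g, hg, a, b, c, d⟩ := hsym σ
    apply Polynomial.funext
    intro e
    rw [← coe_mapRingHom, map_kT, ← coe_evalRingHom, map_kT, map_kT]
    simp only [coe_mapRingHom, coe_evalRingHom, Polynomial.map_add, Polynomial.map_mul, map_C,
      map_X, eval_add, eval_mul, eval_C, eval_X]
    rw [show σ.toRingEquiv.toRingHom u + σ.toRingEquiv.toRingHom r₁ * e = _ from
      (hline σ g a b c d e).1, show σ.toRingEquiv.toRingHom v + σ.toRingEquiv.toRingHom r₂ * e = _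
      from (hline σ g a b c d e).2, hg.hT]
  obtain ⟨qD, hqD⟩ := exists_map_eq_of_fixed
      (C (kf u v)⁻¹ * kf (C u + C r₁ * X) (C v + C r₂ * X)) fun σ => by
    obtain ⟨g, hg, a, b, c, d⟩ := hsym σ
    obtain ⟨α, hα, hgf⟩ := hg.hf
    have hfP : σ.toRingEquiv.toRingHom (kf u v) = α * kf u v := by
      rw [map_kf, show σ.toRingEquiv.toRingHom u = g.fu u v from a,
        show σ.toRingEquiv.toRingHom v = g.fv u v from b, hgf]
    apply Polynomial.funext
    intro e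
    rw [Polynomial.map_mul, map_C, map_inv₀, hfP, eval_mul, eval_mul, eval_C, eval_C,
      ← coe_mapRingHom, map_kf, ← coe_evalRingHom, map_kf, map_kf]
    simp only [coe_mapRingHom, coe_evalRingHom, Polynomial.map_add, Polynomial.map_mul, map_C,
      map_X, eval_add, eval_mul, eval_C, eval_X]
    rw [show σ.toRingEquiv.toRingHom u + σ.toRingEquiv.toRingHom r₁ * e = _ from
      (hline σ g a b c d e).1, show σ.toRingEquiv.toRingHom v + σ.toRingEquiv.toRingHom r₂ * e = _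
      from (hline σ g a b c d e).2, hgf]
    field_simp
  refine ⟨qH, qT, qD, hH, hT, hf, hk, hdet, hqH, hqT, ?_, hsym⟩
  rw [hqD, ← mul_assoc, ← C_mul, mul_inv_cancel₀ hf, C_1, one_mul]

/-- A rational line through a point with invariants `(c₄, c₆)` on the twisted family. -/
theorem exists_line (c₄ c₆ : ℚ) (h4 : c₄ ≠ 0) (h6 : c₆ ≠ 0) (h46 : c₄ ^ 3 ≠ c₆ ^ 2) :
    ∃ (u v r₁ r₂ : Qbar) (qH qT qD : ℚ[X]),
      kH u v = algebraMap ℚ Qbar c₄ ∧ kT u v = algebraMap ℚ Qbar c₆ ∧ kf u v ≠ 0 ∧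
      kf r₁ r₂ ≠ 0 ∧ v * r₁ - u * r₂ ≠ 0 ∧
      qH.map (algebraMap ℚ Qbar) = kH (C u + C r₁ * X) (C v + C r₂ * X) ∧
      qT.map (algebraMap ℚ Qbar) = kT (C u + C r₁ * X) (C v + C r₂ * X) ∧
      C (kf u v) * qD.map (algebraMap ℚ Qbar) = kf (C u + C r₁ * X) (C v + C r₂ * X) ∧
      ∀ σ : Qbar ≃ₐ[ℚ] Qbar, ∃ g : Lin Qbar, IsKleinSym g ∧ σ u = g.fu u v ∧ σ v = g.fv u v ∧
        σ r₁ = g.fu r₁ r₂ ∧ σ r₂ = g.fv r₁ r₂ := by
  obtain ⟨u, v, hH, hT⟩ := exists_kleinPoint (K := Qbar) (A := algebraMap ℚ Qbar c₄)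
    (B := algebraMap ℚ Qbar c₆) (by simpa using h4) (by simpa using h6)
    (by rw [← map_pow, ← map_pow]; exact fun e => h46 ((algebraMap ℚ Qbar).injective e))
  have hf : kf u v ≠ 0 := by
    intro h0
    have h := kH_pow_three_sub u v
    rw [hH, hT, h0, ← map_pow, ← map_pow, ← map_sub] at h
    simp only [ne_eq, OfNat.ofNat_ne_zero, not_false_eq_true, zero_pow, mul_zero,
      map_eq_zero, sub_eq_zero] at h
    exact h46 h
  -- a rational direction
  obtain ⟨k, hk⟩ : ∃ k : ℤ, kf ((k : Qbar) * u + kfv u v) ((k : Qbar) * v - kfu u v) ≠ 0 := by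
    by_contra hcon
    simp only [not_exists, not_not] at hcon
    apply hf
    have hp : kf (C u + X * C (kfv u v)) (C v - X * C (kfu u v)) = (0 : Qbar[X]) := by
      refine eq_zero_of_infinite_isRoot _ (Set.Infinite.mono ?_ (Set.infinite_range_of_injective
        (f := fun n : ℕ => (((n + 1 : ℕ) : Qbar))⁻¹) fun a b hab => by simpa using hab))
      rintro _ ⟨n, rfl⟩
      set m : Qbar := ((n + 1 : ℕ) : Qbar) with hm
      have hm0 : m ≠ 0 := Nat.cast_ne_zero.mpr (Nat.succ_ne_zero n)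
      show eval m⁻¹ _ = 0
      rw [← coe_evalRingHom, map_kf]
      simp only [map_add, map_sub, map_mul, coe_evalRingHom, eval_C, eval_X]
      have e := hcon (n + 1)
      rw [show (((n : ℤ) + 1 : ℤ) : Qbar) = m by simp [hm]] at e
      have e1 : m * (u + m⁻¹ * kfv u v) = m * u + kfv u v := by field_simp
      have e2 : m * (v - m⁻¹ * kfu u v) = m * v - kfu u v := by field_simp
      rw [← e1, ← e2, kf_smul] at e
      exact (mul_eq_zero.mp e).resolve_left (pow_ne_zero _ hm0)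
    have := congrArg (evalRingHom (0 : Qbar)) hp
    simpa [map_kf] using this
  obtain ⟨qH, qT, qD, d⟩ := exists_lineData c₄ c₆ h4 h6 u v hH hT hf k hk
  exact ⟨u, v, _, _, qH, qT, qD, hH, hT, hf, hk, d.hdet, d.hqH, d.hqT, d.hqD, d.hsym⟩

end FLTA.Elliptic.Switch
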