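import Mathlib

/-!
# Elementary Hilbert irreducibility for linear factors

A monic family `x ^ d + ∑ g i (n) x ^ i` whose weighted top part is separable, and which has no
polynomial root, has no integer root for some arbitrarily large `n`.  The root is close to one of
finitely many truncated series at infinity; a colour recurring on a fixed pattern of offsets makes
that truncation a rational polynomial (Lagrange interpolation), hence a root.
-/

set_option autoImplicit false

open Polynomial Filter Topology Finset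

namespace FLTA.Elliptic.Switch.Hilbert

/-- A real sequence asymptotic to integers, constant, is an integer. -/
theorem exists_int_of_tendsto {a : ℝ} {u : ℕ → ℤ}
    (h : Tendsto (fun k => a - (u k : ℝ)) atTop (𝓝 0)) : ∃ z : ℤ, a = z := by
  have h' : Tendsto (fun k => (u k : ℝ)) atTop (𝓝 a) := by
    simpa using (tendsto_const_nhds (x := a)).sub h
  obtain ⟨z, hz⟩ := (Int.isClosedEmbedding_coe_real.isClosed_range).mem_of_tendsto h'
    (Eventually.of_forall fun k => ⟨u k, rfl⟩)
  exact ⟨z, hz.symm⟩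

/-- An integer sequence tending to zero is eventually zero. -/
theorem eventually_eq_zero {u : ℕ → ℤ} (h : Tendsto (fun k => (u k : ℝ)) atTop (𝓝 0)) :
    ∀ᶠ k in atTop, u k = 0 := by
  filter_upwards [Metric.tendsto_atTop.1 h 1 one_pos |>.elim fun N hN =>
    eventually_atTop.2 ⟨N, hN⟩] with k hk
  rw [Real.dist_eq, sub_zero, ← Int.cast_abs] at hk
  exact abs_eq_zero.1 (by
    have : |u k| < 1 := by exact_mod_cast hk
    linarith [abs_nonneg (u k)])

/-- A polynomial of degree `≤ e` near integers on translates of `e + 1` fixed offsets has bounded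
denominators. -/
theorem exists_denom (e : ℕ) : ∀ (P : ℝ[X]), P.natDegree ≤ e → ∀ (D : Finset ℤ), D.card = e + 1 →
    ∀ n : ℕ → ℤ, (∀ j ∈ D, ∃ z : ℕ → ℤ,
      Tendsto (fun k => P.eval ((n k + j : ℤ) : ℝ) - (z k : ℝ)) atTop (𝓝 0)) →
    ∃ m : ℤ, m ≠ 0 ∧ ∀ i, ∃ a : ℤ, (m : ℝ) * P.coeff i = a := by
  induction e with
  | zero =>
    intro P hP D hD n hz
    obtain ⟨j, hj⟩ := card_eq_one.1 (by simpa using hD)
    obtain ⟨z, hz⟩ := hz j (by simp [hj])
    rw [eq_C_of_natDegree_le_zero hP] at hz ⊢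
    simp only [eval_C] at hz
    obtain ⟨a, ha⟩ := exists_int_of_tendsto hz
    refine ⟨1, one_ne_zero, fun i => ?_⟩
    rcases i with _ | i
    · exact ⟨a, by simp [ha]⟩
    · exact ⟨0, by simp⟩
  | succ e ih =>
    intro P hP D hD n hz
    choose! z hz using hz
    set Δ : ℤ := ∏ j ∈ D, ∏ i ∈ D.erase j, (j - i) with hΔ
    have hΔ0 : Δ ≠ 0 := prod_ne_zero_iff.2 fun j _ => prod_ne_zero_iff.2 fun i hi =>
      sub_ne_zero.2 (ne_of_mem_erase hi).symm
    have hdvd : ∀ j ∈ D, ∃ c : ℤ, Δ = (∏ i ∈ D.erase j, (j - i)) * c :=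
      fun j hj => dvd_prod_of_mem (fun j => ∏ i ∈ D.erase j, (j - i)) hj
    choose! c hc using hdvd
    have hlead : ∀ k, (Δ : ℝ) * P.coeff (e + 1) =
        ∑ j ∈ D, (c j : ℝ) * P.eval ((n k + j : ℤ) : ℝ) := by
      intro k
      have hinj : Set.InjOn (fun j : ℤ => ((n k + j : ℤ) : ℝ)) D := fun x _ y _ h => by
        simpa using h
      have hdeg : P.degree < #D := by
        rw [hD]; exact degree_le_natDegree.trans_lt (by exact_mod_cast Nat.lt_succ_of_le hP)
      have := Lagrange.coeff_eq_sum hinj hdeg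
      rw [hD, Nat.add_sub_cancel] at this
      rw [this, mul_sum]
      refine sum_congr rfl fun j hj => ?_
      have hne : (∏ i ∈ D.erase j, (((n k + j : ℤ) : ℝ) - ((n k + i : ℤ) : ℝ)))
          = ((∏ i ∈ D.erase j, (j - i) : ℤ) : ℝ) := by
        push_cast; exact prod_congr rfl fun i _ => by ring
      have hne0 : ((∏ i ∈ D.erase j, (j - i) : ℤ) : ℝ) ≠ 0 := by
        exact_mod_cast (prod_ne_zero_iff.2 fun i hi => sub_ne_zero.2 (ne_of_mem_erase hi).symm)
      rw [hne, hc j hj, Int.cast_mul]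
      field_simp
    have hA : Tendsto (fun k => (Δ : ℝ) * P.coeff (e + 1) - ((∑ j ∈ D, c j * z j k : ℤ) : ℝ))
        atTop (𝓝 0) := by
      have : Tendsto (fun k => ∑ j ∈ D, (c j : ℝ) * (P.eval ((n k + j : ℤ) : ℝ) - (z j k : ℝ)))
          atTop (𝓝 0) := by
        simpa using tendsto_finsetSum D fun j hj => (hz j hj).const_mul (c j : ℝ)
      refine this.congr fun k => ?_
      rw [hlead k]; push_cast
      rw [← sum_sub_distrib]
      exact sum_congr rfl fun j _ => by ring
    obtain ⟨A, hA'⟩ := exists_int_of_tendsto hA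
    set P' : ℝ[X] := C (Δ : ℝ) * P - C (A : ℝ) * X ^ (e + 1) with hP'
    have hdeg' : P'.natDegree ≤ e := by
      refine natDegree_le_iff_coeff_eq_zero.2 fun i hi => ?_
      rw [hP', coeff_sub, coeff_C_mul, coeff_C_mul, coeff_X_pow]
      rcases eq_or_ne i (e + 1) with rfl | hne
      · simp [hA']
      · rw [if_neg hne, coeff_eq_zero_of_natDegree_lt (by omega)]; simp
    obtain ⟨D', hD'sub, hD'⟩ := exists_subset_card_eq (s := D) (n := e + 1) (by omega)
    obtain ⟨m, hm, hmi⟩ := ih P' hdeg' D' hD' n fun j hj =>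
      ⟨fun k => Δ * z j k - A * (n k + j) ^ (e + 1), by
        have := (hz j (hD'sub hj)).const_mul (Δ : ℝ)
        rw [mul_zero] at this
        refine this.congr fun k => ?_
        simp only [hP', eval_sub, eval_mul, eval_C, eval_pow, eval_X]
        push_cast; ring⟩
    refine ⟨m * Δ, mul_ne_zero hm hΔ0, fun i => ?_⟩
    obtain ⟨a, ha⟩ := hmi i
    refine ⟨a + if i = e + 1 then m * A else 0, ?_⟩
    rw [hP', coeff_sub, coeff_C_mul, coeff_C_mul, coeff_X_pow] at ha
    split_ifs at ha ⊢ <;> push_cast <;> linear_combination ha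

/-- Truncated series root. -/
theorem exists_series_root (H : ℝ[X][X]) {c : ℝ}
    (hc : (H.map (evalRingHom 0)).eval c = 0)
    (hc' : (H.map (evalRingHom 0)).derivative.eval c ≠ 0) :
    ∀ k : ℕ, ∃ Φ : ℝ[X], Φ.natDegree ≤ k ∧ Φ.coeff 0 = c ∧ X ^ (k + 1) ∣ H.eval Φ := by
  have key : ∀ (G : ℝ[X][X]) (Φ : ℝ[X]), Φ.coeff 0 = c →
      (G.eval Φ).coeff 0 = (G.map (evalRingHom 0)).eval c := fun G Φ h => by
    rw [coeff_zero_eq_eval_zero, ← h, coeff_zero_eq_eval_zero, ← coe_evalRingHom, ← eval₂_at_apply,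
      ← eval_map]
  intro k
  induction k with
  | zero =>
    refine ⟨C c, by simp, by simp, ?_⟩
    rw [zero_add, pow_one, X_dvd_iff, key H _ (by simp), hc]
  | succ k ih =>
    obtain ⟨Φ, hdeg, h0, u, hu⟩ := ih
    set D₀ := (H.map (evalRingHom 0)).derivative.eval c with hD₀
    set b := -u.coeff 0 / D₀ with hb
    refine ⟨Φ + C b * X ^ (k + 1), ?_, ?_, ?_⟩
    · exact (natDegree_add_le _ _).trans
        (max_le (hdeg.trans k.le_succ) ((natDegree_C_mul_le _ _).trans (by simp)))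
    · simp [h0, coeff_X_pow]
    · obtain ⟨r, hr⟩ := Polynomial.binomExpansion H Φ (C b * X ^ (k + 1))
      rw [hr, hu]
      have : X ^ (k + 1) * u + H.derivative.eval Φ * (C b * X ^ (k + 1))
          + r * (C b * X ^ (k + 1)) ^ 2
          = X ^ (k + 1) * (u + H.derivative.eval Φ * C b + r * C b ^ 2 * X ^ (k + 1)) := by ring
      rw [this, pow_succ X (k + 1)]
      refine mul_dvd_mul_left _ ?_
      rw [X_dvd_iff]
      simp only [coeff_add, mul_coeff_zero, coeff_C_zero, coeff_X_pow, key _ _ h0,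
        ← derivative_map, ← hD₀]
      have : D₀ * b = -u.coeff 0 := by rw [hb]; field_simp
      simp [this]

/-- Coefficients of the family in the variable `s = 1 / n`. -/
noncomputable def scaled {d : ℕ} (e : ℕ) (g : Fin d → ℚ[X]) : ℝ[X][X] :=
  X ^ d + ∑ i : Fin d, C (reflect (e * (d - (i : ℕ))) ((g i).map (Rat.castHom ℝ))) * X ^ (i : ℕ)

theorem eval_scaled {d : ℕ} (e : ℕ) (g : Fin d → ℚ[X]) (s y : ℝ) :
    ((scaled e g).map (evalRingHom s)).eval y = y ^ d + ∑ i : Fin d,
      (reflect (e * (d - (i : ℕ))) ((g i).map (Rat.castHom ℝ))).eval s * y ^ (i : ℕ) := by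
  simp [scaled, Polynomial.map_sum, eval_finsetSum]

theorem eval_reflect_inv (f : ℝ[X]) {N : ℕ} (hf : f.natDegree ≤ N) {n : ℝ} (hn : n ≠ 0) :
    (reflect N f).eval n⁻¹ * n ^ N = f.eval n := by
  let : Invertible n := invertibleOfNonzero hn
  have := eval₂_reflect_mul_pow (RingHom.id ℝ) n N f hf
  rwa [invOf_eq_inv, eval₂_id, eval₂_id] at this

theorem eval_scaled_inv {d : ℕ} (e : ℕ) (g : Fin d → ℚ[X])
    (hdeg : ∀ i, (g i).natDegree ≤ e * (d - (i : ℕ))) {n : ℤ} (hn : (n : ℝ) ≠ 0) {x : ℤ}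
    (hx : (x : ℚ) ^ d + ∑ i, (g i).eval (n : ℚ) * (x : ℚ) ^ (i : ℕ) = 0) :
    ((scaled e g).map (evalRingHom (n : ℝ)⁻¹)).eval ((x : ℝ) / (n : ℝ) ^ e) = 0 := by
  have hx' : (x : ℝ) ^ d + ∑ i, ((g i).map (Rat.castHom ℝ)).eval (n : ℝ) * (x : ℝ) ^ (i : ℕ)
      = 0 := by
    have h := congrArg (Rat.castHom ℝ) hx
    simp only [map_add, map_sum, map_mul, map_pow, map_zero, map_intCast] at h
    rw [← h]
    congr 1
    refine sum_congr rfl fun i _ => ?_
    rw [show (n : ℝ) = Rat.castHom ℝ (n : ℚ) by simp, eval_map, eval₂_at_apply]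
  rw [eval_scaled]
  refine (mul_eq_zero.1 ?_).resolve_right (pow_ne_zero (e * d) hn)
  rw [add_mul, sum_mul, ← hx']
  congr 1
  · rw [div_pow, ← pow_mul, div_mul_cancel₀ _ (pow_ne_zero _ hn)]
  · refine sum_congr rfl fun i _ => ?_
    have hN : e * d = e * (d - (i : ℕ)) + e * (i : ℕ) := by
      rw [← mul_add, Nat.sub_add_cancel i.2.le]
    rw [← eval_reflect_inv _ (natDegree_map_le.trans (hdeg i)) hn, hN, pow_add, div_pow, ← pow_mul]
    have := pow_ne_zero (e * (i : ℕ)) hn
    field_simp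

/-- The truncated expansion approximates a root converging to a simple root of the top part. -/
theorem exists_expansion {d : ℕ} (e : ℕ) (g : Fin d → ℚ[X])
    (hdeg : ∀ i, (g i).natDegree ≤ e * (d - (i : ℕ))) {c : ℝ}
    (hc : ((scaled e g).map (evalRingHom 0)).eval c = 0)
    (hc' : ((scaled e g).map (evalRingHom 0)).derivative.eval c ≠ 0)
    : ∃ P : ℝ[X], P.natDegree ≤ e ∧
      ∀ (n x : ℕ → ℤ), Tendsto n atTop atTop →
        (∀ k, (x k : ℚ) ^ d + ∑ i, (g i).eval (n k : ℚ) * (x k : ℚ) ^ (i : ℕ) = 0) →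
        Tendsto (fun k => (x k : ℝ) / (n k : ℝ) ^ e) atTop (𝓝 c) →
        Tendsto (fun k => (x k : ℝ) - P.eval (n k : ℝ)) atTop (𝓝 0) := by
  set H := scaled e g with hH
  obtain ⟨Φ, hΦ, hΦ0, u, hu⟩ := exists_series_root H hc hc' e
  have hPdeg : (reflect e Φ).natDegree ≤ e := natDegree_le_iff_coeff_eq_zero.2 fun i hi => by
    rw [coeff_reflect, show revAt e i = i by
      rw [← revAtFun_eq, revAtFun, if_neg (by omega)]]
    exact coeff_eq_zero_of_natDegree_lt (by omega)
  refine ⟨reflect e Φ, hPdeg, fun n x hn hx hy => ?_⟩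
  set s : ℕ → ℝ := fun k => (n k : ℝ)⁻¹ with hs
  set y : ℕ → ℝ := fun k => (x k : ℝ) / (n k : ℝ) ^ e with hydef
  have hnR : Tendsto (fun k => (n k : ℝ)) atTop atTop := tendsto_intCast_atTop_atTop.comp hn
  have hs0 : Tendsto s atTop (𝓝 0) := hnR.inv_tendsto_atTop
  have hev : ∀ (p : ℝ[X]), Tendsto (fun k => p.eval (s k)) atTop (𝓝 (p.coeff 0)) := fun p => by
    rw [coeff_zero_eq_eval_zero]; exact (p.continuous.tendsto 0).comp hs0
  have hφ : Tendsto (fun k => Φ.eval (s k)) atTop (𝓝 c) := hΦ0 ▸ hev Φ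
  -- the secant slope
  set K : ℕ → ℝ := fun k => ∑ i ∈ range (H.natDegree + 1),
    (H.coeff i).eval (s k) * ∑ j ∈ range i, y k ^ j * Φ.eval (s k) ^ (i - 1 - j) with hK
  have hKlim : Tendsto K atTop (𝓝 ((H.map (evalRingHom 0)).derivative.eval c)) := by
    rw [derivative_eval, sum_over_range' _ (by simp) (H.natDegree + 1)
      (Nat.lt_succ_of_le natDegree_map_le)]
    refine tendsto_finsetSum _ fun i _ => ?_
    simp only [coeff_map, coe_evalRingHom, ← coeff_zero_eq_eval_zero]
    rw [mul_assoc]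
    refine (hev _).mul ?_
    have : ∑ j ∈ range i, c ^ j * c ^ (i - 1 - j) = (i : ℝ) * c ^ (i - 1) := by
      rw [← geom_sum₂_self]
    rw [← this]
    exact tendsto_finsetSum _ fun j _ => (hy.pow _).mul (hφ.pow _)
  have hev0 : ∀ᶠ k in atTop, (n k : ℝ) ≠ 0 := by
    filter_upwards [hnR.eventually_gt_atTop 0] with k hk using hk.ne'
  have hsec : ∀ᶠ k in atTop,
      (x k : ℝ) - (reflect e Φ).eval (n k : ℝ) = -(s k * u.eval (s k)) / K k := by
    filter_upwards [hev0, hKlim.eventually_ne hc'] with k hk hKk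
    have h1 : (y k - Φ.eval (s k)) * K k =
        (H.map (evalRingHom (s k))).eval (y k) - (H.map (evalRingHom (s k))).eval (Φ.eval (s k)) := by
      rw [eval_eq_sum_range' (n := H.natDegree + 1) (Nat.lt_succ_of_le natDegree_map_le),
        eval_eq_sum_range' (n := H.natDegree + 1) (Nat.lt_succ_of_le natDegree_map_le),
        ← sum_sub_distrib, hK, mul_sum]
      refine sum_congr rfl fun i _ => ?_
      rw [coeff_map, coe_evalRingHom, ← mul_sub, ← geom_sum₂_mul (y k) (Φ.eval (s k)) i]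
      ring
    have h2 : (H.map (evalRingHom (s k))).eval (Φ.eval (s k)) = s k ^ (e + 1) * u.eval (s k) := by
      rw [eval_map, ← coe_evalRingHom, eval₂_at_apply, coe_evalRingHom, hu]
      simp
    rw [eval_scaled_inv e g hdeg hk (hx k), h2, zero_sub] at h1
    have h3 : (x k : ℝ) - (reflect e Φ).eval (n k : ℝ)
        = (n k : ℝ) ^ e * (y k - Φ.eval (s k)) := by
      rw [← eval_reflect_inv _ hPdeg hk, reflect_reflect, hydef, hs]
      field_simp
    have h4 : y k - Φ.eval (s k) = -(s k ^ (e + 1) * u.eval (s k)) / K k := by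
      rw [eq_div_iff hKk, h1]
    have h5 : (n k : ℝ) ^ e * s k ^ (e + 1) = s k := by
      rw [hs, pow_succ, ← mul_assoc, ← mul_pow, mul_inv_cancel₀ hk, one_pow, one_mul]
    rw [h3, h4, ← mul_div_assoc, mul_neg, ← mul_assoc, h5]
  have : Tendsto (fun k => -(s k * u.eval (s k)) / K k) atTop (𝓝 0) := by
    have h := ((hs0.mul (hev u)).neg).div hKlim hc'
    rw [zero_mul, neg_zero, zero_div] at h
    exact h
  exact this.congr' (hsec.mono fun k h => h.symm)

end FLTA.Elliptic.Switch.Hilbert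

namespace FLTA.Elliptic.Switch

open Hilbert

/-- Hilbert irreducibility for linear factors of a weighted homogeneous-at-infinity family. -/
theorem exists_int_no_root {d e : ℕ} (g : Fin d → ℚ[X])
    (hdeg : ∀ i, (g i).natDegree ≤ e * (d - (i : ℕ)))
    (hsep : (X ^ d + ∑ i, C ((g i).coeff (e * (d - (i : ℕ)))) * X ^ (i : ℕ) : ℚ[X]).Separable)
    (hno : ∀ P : ℚ[X], P.natDegree ≤ e → P ^ d + ∑ i, g i * P ^ (i : ℕ) ≠ 0) (M : ℕ) :
    ∃ n : ℕ, M ≤ n ∧
      ∀ x : ℤ, (x : ℚ) ^ d + ∑ i, (g i).eval (n : ℚ) * (x : ℚ) ^ (i : ℕ) ≠ 0 := by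
  by_contra hall
  push Not at hall
  choose! x hx using hall
  rcases Nat.eq_zero_or_pos d with rfl | hd
  · simpa using hx M le_rfl
  set Q : ℚ[X] := X ^ d + ∑ i, C ((g i).coeff (e * (d - (i : ℕ)))) * X ^ (i : ℕ) with hQ
  set H := scaled e g with hH
  set h0 := H.map (evalRingHom 0) with hh0
  have hh0Q : h0 = Q.map (Rat.castHom ℝ) := by
    rw [hh0, hH, hQ, scaled]
    simp [Polynomial.map_sum, ← coeff_zero_eq_eval_zero, coeff_reflect]
  have hmonic : Q.Monic := by
    refine monic_X_pow_add (lt_of_le_of_lt (degree_sum_le _ _) ((Finset.sup_lt_iff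
      (WithBot.bot_lt_coe d)).2 fun i _ => lt_of_le_of_lt (degree_C_mul_X_pow_le _ _) ?_))
    exact WithBot.coe_lt_coe.2 i.2
  -- the roots of the top part
  set R : Finset ℂ := (Q.aroots ℂ).toFinset with hR
  set N : ℕ → ℤ := fun k => ((M + 1 + k : ℕ) : ℤ) with hN
  set X' : ℕ → ℤ := fun k => x (M + 1 + k) with hX'
  have hxk : ∀ k, (X' k : ℚ) ^ d + ∑ i, (g i).eval (N k : ℚ) * (X' k : ℚ) ^ (i : ℕ) = 0 :=
    fun k => by simpa [hN, hX'] using hx (M + 1 + k) (by omega)
  have hNpos : ∀ k, (N k : ℝ) ≠ 0 := fun k => by simp [hN]; positivity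
  have hNt : Tendsto N atTop atTop :=
    tendsto_natCast_atTop_atTop.comp (tendsto_atTop_mono (fun k => Nat.le_add_left k (M + 1)) tendsto_id)
  set s : ℕ → ℝ := fun k => (N k : ℝ)⁻¹ with hs
  set y : ℕ → ℝ := fun k => (X' k : ℝ) / (N k : ℝ) ^ e with hy
  have hs0 : Tendsto s atTop (𝓝 0) :=
    (tendsto_intCast_atTop_atTop.comp hNt).inv_tendsto_atTop
  set G : Fin d → ℝ[X] := fun i => reflect (e * (d - (i : ℕ))) ((g i).map (Rat.castHom ℝ)) with hG
  have hzero : ∀ k, y k ^ d + ∑ i, (G i).eval (s k) * y k ^ (i : ℕ) = 0 := fun k => by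
    rw [← eval_scaled e g]; exact eval_scaled_inv e g hdeg (hNpos k) (hxk k)
  have hGt : ∀ i, Tendsto (fun k => (G i).eval (s k)) atTop (𝓝 ((G i).eval 0)) :=
    fun i => ((G i).continuous.tendsto 0).comp hs0
  -- boundedness, and the top part tends to zero
  set B : ℝ := ∑ i, |(G i).eval 0| + 1 with hB
  have hBpos : 1 ≤ B := le_add_of_nonneg_left (sum_nonneg fun i _ => abs_nonneg _)
  have hyB : ∀ᶠ k in atTop, |y k| ≤ B := by
    have hsum : Tendsto (fun k => ∑ i, |(G i).eval (s k)|) atTop (𝓝 (∑ i, |(G i).eval 0|)) :=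
      tendsto_finsetSum _ fun i _ => (hGt i).abs
    filter_upwards [hsum.eventually (gt_mem_nhds (lt_add_one _))] with k hk
    by_contra hlt
    rw [not_le] at hlt
    have h1 : 1 ≤ |y k| := hBpos.trans hlt.le
    have h2 : |y k| ^ d ≤ (∑ i, |(G i).eval (s k)|) * |y k| ^ (d - 1) := by
      rw [← abs_pow, eq_neg_of_add_eq_zero_left (hzero k), abs_neg, sum_mul]
      refine (abs_sum_le_sum_abs _ _).trans (sum_le_sum fun i _ => ?_)
      rw [abs_mul, abs_pow]
      exact mul_le_mul_of_nonneg_left (pow_le_pow_right₀ h1 (by omega)) (abs_nonneg _)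
    rw [show |y k| ^ d = |y k| * |y k| ^ (d - 1) by
      rw [← pow_succ', Nat.sub_add_cancel hd]] at h2
    have := le_of_mul_le_mul_right h2 (by positivity)
    linarith
  have hq : Tendsto (fun k => h0.eval (y k)) atTop (𝓝 0) := by
    have hdiff : ∀ k, h0.eval (y k) = ∑ i, ((G i).eval 0 - (G i).eval (s k)) * y k ^ (i : ℕ) :=
      fun k => by
        rw [hh0, hH, eval_scaled]
        simp only [sub_mul, sum_sub_distrib]
        linarith [hzero k]
    refine squeeze_zero_norm' (a := fun k => ∑ i, |(G i).eval 0 - (G i).eval (s k)| * B ^ (i : ℕ)) ?_ ?_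
    · filter_upwards [hyB] with k hk
      rw [hdiff k, Real.norm_eq_abs]
      refine (abs_sum_le_sum_abs _ _).trans (sum_le_sum fun i _ => ?_)
      rw [abs_mul, abs_pow]
      gcongr
    · simpa using tendsto_finsetSum (univ : Finset (Fin d)) fun i _ =>
        (((tendsto_const_nhds (x := (G i).eval 0)).sub (hGt i)).abs.mul_const (B ^ (i : ℕ)))
  -- colouring by the nearest root
  have hQC : ∀ t : ℝ, ‖(Q.aroots ℂ).map (fun c => (t : ℂ) - c) |>.prod‖ = |h0.eval t| := by
    intro t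
    have hsplit : (Q.map (algebraMap ℚ ℂ)).Splits := IsAlgClosed.splits _
    rw [aroots_def, ← hsplit.eval_eq_prod_roots_of_monic (hmonic.map _), hh0Q,
      ← Real.norm_eq_abs, ← Complex.norm_real]
    congr 1
    rw [eval_map, eval_map]
    show _ = Complex.ofRealHom _
    rw [hom_eval₂]
    congr 1
  have hRne : R.Nonempty := by
    obtain ⟨r, hr⟩ := IsAlgClosed.exists_root (Q.map (algebraMap ℚ ℂ))
      (by rw [degree_map, degree_eq_natDegree hmonic.ne_zero]
          exact_mod_cast (by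
            rw [hQ, natDegree_add_eq_left_of_degree_lt]
            · simp; omega
            · rw [degree_X_pow]
              exact lt_of_le_of_lt (degree_sum_le _ _) ((Finset.sup_lt_iff
                (WithBot.bot_lt_coe d)).2 fun i _ => lt_of_le_of_lt (degree_C_mul_X_pow_le _ _)
                  (WithBot.coe_lt_coe.2 i.2)) : Q.natDegree ≠ 0))
    exact ⟨r, by
      rw [hR, Multiset.mem_toFinset, aroots_def]
      exact (mem_roots (map_ne_zero hmonic.ne_zero)).2 hr⟩
  have hmin : ∀ k, ∃ c ∈ R, ∀ c' ∈ R, ‖(y k : ℂ) - c‖ ≤ ‖(y k : ℂ) - c'‖ :=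
    fun k => exists_min_image R _ hRne
  choose col hcol hcolmin using hmin
  set m := (Q.aroots ℂ).card with hm
  have hcol0 : Tendsto (fun k => ‖(y k : ℂ) - col k‖ ^ m) atTop (𝓝 0) := by
    refine squeeze_zero (fun k => by positivity) (fun k => ?_) (by simpa using hq.abs)
    rw [← hQC, ← normHom_apply (Multiset.prod _), map_multiset_prod, Multiset.map_map, hm,
      ← Multiset.prod_replicate, ← Multiset.map_const']
    refine Multiset.prod_map_le_prod_map₀ _ _ (fun _ _ => norm_nonneg _) fun c hc => ?_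
    exact hcolmin k c (Multiset.mem_toFinset.2 hc)
  have hm0 : m ≠ 0 := by
    intro h
    obtain ⟨r, hr⟩ := hRne
    rw [hR, Multiset.card_eq_zero.1 h] at hr
    simp at hr
  have hcol1 : Tendsto (fun k => (y k : ℂ) - col k) atTop (𝓝 0) := by
    rw [tendsto_zero_iff_norm_tendsto_zero]
    have := hcol0.rpow_const (p := (m : ℝ)⁻¹) (Or.inr (by positivity))
    rw [Real.zero_rpow (inv_ne_zero (by exact_mod_cast hm0))] at this
    exact this.congr fun k => Real.pow_rpow_inv_natCast (norm_nonneg _) hm0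
  -- a recurring pattern
  set L := R.card * e + 1 with hL
  obtain ⟨pat, hpat⟩ := Finite.exists_infinite_fiber
    (fun k : ℕ => fun j : Fin L => (⟨col (k + j), hcol _⟩ : R))
  obtain ⟨c, hc⟩ := Fintype.exists_lt_card_fiber_of_mul_lt_card (f := pat) (n := e)
    (by rw [Fintype.card_coe, Fintype.card_fin]; omega)
  obtain ⟨D, hDsub, hDcard⟩ := exists_subset_card_eq
    (s := univ.filter fun j => pat j = c) (n := e + 1) hc
  set emb := @Infinite.natEmbedding _ hpat with hemb
  set σ : ℕ → ℕ := fun k => (emb k).1 with hσ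
  have hσinj : Function.Injective σ := fun a b h => emb.injective (Subtype.ext h)
  have hσt : Tendsto σ atTop atTop := by
    simpa [Nat.cofinite_eq_atTop] using hσinj.tendsto_cofinite
  have hσj : ∀ j ∈ D, Tendsto (fun k => σ k + (j : ℕ)) atTop atTop := fun j _ =>
    tendsto_atTop_mono (fun k => Nat.le_add_right _ _) hσt
  have hcolj : ∀ j ∈ D, ∀ k, col (σ k + j) = c.1 := fun j hj k => by
    have h1 : (fun j : Fin L => (⟨col (σ k + j), hcol _⟩ : R)) = pat :=
      (emb k).2
    have h2 := congrFun h1 j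
    rw [(mem_filter.1 (hDsub hj)).2] at h2
    exact congrArg Subtype.val h2
  have hlim : ∀ j ∈ D, Tendsto (fun k => (y (σ k + j) : ℂ)) atTop (𝓝 c.1) := fun j hj => by
    have := (hcol1.comp (hσj j hj)).add_const c.1
    rw [zero_add] at this
    exact this.congr fun k => by simp [hcolj j hj k]
  obtain ⟨j₀, hj₀⟩ := card_pos.1 (show 0 < D.card by omega)
  have hreal : Tendsto (fun k => y (σ k + (j₀ : ℕ))) atTop (𝓝 c.1.re) := by
    simpa [Function.comp_def] using (Complex.continuous_re.tendsto _).comp (hlim j₀ hj₀)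
  have hcre : (c.1.re : ℂ) = c.1 :=
    tendsto_nhds_unique ((Complex.continuous_ofReal.tendsto _).comp hreal) (hlim j₀ hj₀)
  have hlimR : ∀ j ∈ D, Tendsto (fun k => y (σ k + (j : ℕ))) atTop (𝓝 c.1.re) := fun j hj => by
    simpa [Function.comp_def] using (Complex.continuous_re.tendsto _).comp (hlim j hj)
  have hroot : h0.eval c.1.re = 0 :=
    tendsto_nhds_unique ((h0.continuous.tendsto _).comp (hlimR j₀ hj₀)) (hq.comp (hσj j₀ hj₀))
  have hroot' : h0.derivative.eval c.1.re ≠ 0 := by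
    intro h'
    obtain ⟨a, b, hab⟩ : h0.Separable := by rw [hh0Q]; exact hsep.map
    have := congrArg (eval c.1.re) hab
    rw [eval_add, eval_mul, eval_mul, hroot, h', eval_one] at this
    simp at this
  obtain ⟨P, hPdeg, hPlim⟩ := exists_expansion e g hdeg hroot hroot'
  have happ : ∀ j ∈ D, Tendsto
      (fun k => (X' (σ k + j) : ℝ) - P.eval (N (σ k + j) : ℝ)) atTop (𝓝 0) :=
    fun j hj => hPlim _ _ (hNt.comp (hσj j hj)) (fun k => hxk _) (hlimR j hj)
  let emb' : Fin L ↪ ℤ := ⟨fun j => ((j : ℕ) : ℤ), fun a b h => Fin.ext (by simpa using h)⟩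
  obtain ⟨den, hden, hcoeff⟩ := exists_denom e P hPdeg (D.map emb') (by simp [hDcard])
    (fun k => N (σ k)) fun j hj => by
      obtain ⟨i, hi, rfl⟩ := Finset.mem_map.1 hj
      refine ⟨fun k => X' (σ k + i), ?_⟩
      have := (happ i hi).neg
      rw [neg_zero] at this
      refine this.congr fun k => ?_
      show _ = P.eval ((N (σ k) + ((i : ℕ) : ℤ) : ℤ) : ℝ) - _
      simp [hN, add_assoc]
  choose a ha using hcoeff
  obtain ⟨P₀, hP₀⟩ := (lifts_iff_coeff_lifts P).2 fun i =>
    (⟨(a i : ℚ) / den, by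
      have : (den : ℝ) ≠ 0 := by exact_mod_cast hden
      simp only [map_div₀, map_intCast, ← ha i]; field_simp⟩ :
      P.coeff i ∈ Set.range (Rat.castHom ℝ))
  rw [coe_mapRingHom] at hP₀
  have hdeg₀ : P₀.natDegree ≤ e := by
    rwa [← natDegree_map (Rat.castHom ℝ) (p := P₀), hP₀]
  have hev : ∀ k, (den : ℝ) * P.eval (N k : ℝ)
      = ((∑ i ∈ range (e + 1), a i * N k ^ i : ℤ) : ℝ) := fun k => by
    rw [eval_eq_sum_range' (Nat.lt_succ_of_le hPdeg), mul_sum]
    push_cast
    exact sum_congr rfl fun i _ => by rw [← ha i]; ring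
  have hzero' : ∀ᶠ k in atTop, P₀.eval (N (σ k + j₀) : ℚ) = X' (σ k + j₀) := by
    have h : Tendsto (fun k => ((den * X' (σ k + j₀)
        - ∑ i ∈ range (e + 1), a i * N (σ k + j₀) ^ i : ℤ) : ℝ)) atTop (𝓝 0) := by
      have := (happ j₀ hj₀).const_mul (den : ℝ)
      rw [mul_zero] at this
      refine this.congr fun k => ?_
      push_cast
      rw [mul_sub, hev]
      push_cast; ring
    filter_upwards [eventually_eq_zero h] with k hk
    apply (Rat.castHom ℝ).injective
    rw [← eval₂_at_apply, ← eval_map, hP₀, map_intCast, map_intCast]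
    apply mul_left_cancel₀ (show (den : ℝ) ≠ 0 by exact_mod_cast hden)
    rw [hev, ← Int.cast_mul]
    exact_mod_cast (sub_eq_zero.1 hk).symm
  apply hno P₀ hdeg₀
  apply eq_zero_of_infinite_isRoot
  obtain ⟨k₀, hk₀⟩ := eventually_atTop.1 hzero'
  refine Set.Infinite.mono ?_ (Set.infinite_range_of_injective
    (f := fun k => (N (σ (k₀ + k) + j₀) : ℚ)) ?_)
  · rintro _ ⟨k, rfl⟩
    show eval _ _ = 0
    simp only [eval_add, eval_pow, eval_finsetSum, eval_mul]
    rw [hk₀ _ (Nat.le_add_right _ _)]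
    exact hxk _
  · intro p q hpq
    have h1 : σ (k₀ + p) = σ (k₀ + q) := by simpa [hN] using hpq
    simpa using hσinj h1

end FLTA.Elliptic.Switch
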