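import Fermat.Agent.Elliptic.Switch.Forms

/-!
# Leading coefficients of Klein's forms on a line
-/

set_option autoImplicit false

open Polynomial

namespace FLTA.Elliptic.Switch

variable {K : Type*} [Field K]

theorem coeff_line_pow (a r : K) (i : ℕ) : ((C a + C r * X) ^ i).coeff i = r ^ i := by
  have h := coeff_pow_of_natDegree_le (p := C a + C r * X) (n := 1) (m := i) (by compute_degree)
  simpa using h

theorem coeff_line_mul (a b r s : K) (i j : ℕ) :
    ((C a + C r * X) ^ i * (C b + C s * X) ^ j).coeff (i + j) = r ^ i * s ^ j := by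
  rw [coeff_mul_add_eq_of_natDegree_le (natDegree_pow_le_of_le i (m := 1) (by compute_degree) |>.trans (by simp))
    (natDegree_pow_le_of_le j (m := 1) (by compute_degree) |>.trans (by simp)), coeff_line_pow, coeff_line_pow]

theorem natDegree_kH_line (u v r s : K) : (kH (C u + C r * X) (C v + C s * X)).natDegree ≤ 20 := by
  simp only [kH]; compute_degree

theorem natDegree_kT_line (u v r s : K) : (kT (C u + C r * X) (C v + C s * X)).natDegree ≤ 30 := by
  simp only [kT]; compute_degree

theorem coeff_kH_line (u v r s : K) : (kH (C u + C r * X) (C v + C s * X)).coeff 20 = kH r s := by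
  simp only [kH, mul_assoc, coeff_add, coeff_sub, coeff_ofNat_mul, coeff_line_pow]
  rw [show ((C u + C r * X) ^ 5 * (C v + C s * X) ^ 15 : K[X]).coeff 20 = r ^ 5 * s ^ 15 from coeff_line_mul u v r s 5 15,
    show ((C u + C r * X) ^ 10 * (C v + C s * X) ^ 10 : K[X]).coeff 20 = r ^ 10 * s ^ 10 from coeff_line_mul u v r s 10 10,
    show ((C u + C r * X) ^ 15 * (C v + C s * X) ^ 5 : K[X]).coeff 20 = r ^ 15 * s ^ 5 from coeff_line_mul u v r s 15 5]

theorem coeff_kT_line (u v r s : K) : (kT (C u + C r * X) (C v + C s * X)).coeff 30 = kT r s := by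
  simp only [kT, mul_assoc, coeff_add, coeff_sub, coeff_neg, coeff_ofNat_mul, coeff_line_pow]
  rw [show ((C u + C r * X) ^ 5 * (C v + C s * X) ^ 25 : K[X]).coeff 30 = r ^ 5 * s ^ 25 from coeff_line_mul u v r s 5 25,
    show ((C u + C r * X) ^ 10 * (C v + C s * X) ^ 20 : K[X]).coeff 30 = r ^ 10 * s ^ 20 from coeff_line_mul u v r s 10 20,
    show ((C u + C r * X) ^ 20 * (C v + C s * X) ^ 10 : K[X]).coeff 30 = r ^ 20 * s ^ 10 from coeff_line_mul u v r s 20 10,
    show ((C u + C r * X) ^ 25 * (C v + C s * X) ^ 5 : K[X]).coeff 30 = r ^ 25 * s ^ 5 from coeff_line_mul u v r s 25 5]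

end FLTA.Elliptic.Switch
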