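import Mathlib

/-!
# Klein's icosahedral forms

The binary forms of degree 12, 20 and 30 which parametrise the curves with full level 5 structure,
and the linear substitutions fixing them.
-/

set_option autoImplicit false

namespace FLTA.Elliptic.Switch

section Forms

variable {R S : Type*} [CommRing R] [CommRing S]

/-- Klein's form of degree 12. -/
def kf (u v : R) : R := u * v * (v ^ 10 - 11 * u ^ 5 * v ^ 5 - u ^ 10)

/-- Klein's form of degree 20. -/
def kH (u v : R) : R :=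
  v ^ 20 + 228 * u ^ 5 * v ^ 15 + 494 * u ^ 10 * v ^ 10 - 228 * u ^ 15 * v ^ 5 + u ^ 20

/-- Klein's form of degree 30. -/
def kT (u v : R) : R :=
  -v ^ 30 + 522 * u ^ 5 * v ^ 25 + 10005 * u ^ 10 * v ^ 20 + 10005 * u ^ 20 * v ^ 10
    - 522 * u ^ 25 * v ^ 5 - u ^ 30

/-- The partial derivative of `kf` in the first variable. -/
def kfu (u v : R) : R := v ^ 11 - 66 * u ^ 5 * v ^ 6 - 11 * u ^ 10 * v

/-- The partial derivative of `kf` in the second variable. -/
def kfv (u v : R) : R := 11 * u * v ^ 10 - 66 * u ^ 6 * v ^ 5 - u ^ 11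

theorem kH_pow_three_sub (u v : R) : kH u v ^ 3 - kT u v ^ 2 = 1728 * kf u v ^ 5 := by
  simp only [kf, kH, kT]; ring

theorem euler_kf (u v : R) : u * kfu u v + v * kfv u v = 12 * kf u v := by
  simp only [kf, kfu, kfv]; ring

theorem kH_smul (c u v : R) : kH (c * u) (c * v) = c ^ 20 * kH u v := by
  simp only [kH]; ring

theorem kT_smul (c u v : R) : kT (c * u) (c * v) = c ^ 30 * kT u v := by
  simp only [kT]; ring

theorem kf_smul (c u v : R) : kf (c * u) (c * v) = c ^ 12 * kf u v := by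
  simp only [kf]; ring

theorem kfu_smul (c u v : R) : kfu (c * u) (c * v) = c ^ 11 * kfu u v := by
  simp only [kfu]; ring

theorem kfv_smul (c u v : R) : kfv (c * u) (c * v) = c ^ 11 * kfv u v := by
  simp only [kfv]; ring

theorem map_kf (φ : R →+* S) (u v : R) : φ (kf u v) = kf (φ u) (φ v) := by
  simp [kf, map_ofNat]

theorem map_kH (φ : R →+* S) (u v : R) : φ (kH u v) = kH (φ u) (φ v) := by
  simp [kH, map_ofNat]

theorem map_kT (φ : R →+* S) (u v : R) : φ (kT u v) = kT (φ u) (φ v) := by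
  simp [kT, map_ofNat]

theorem map_kfu (φ : R →+* S) (u v : R) : φ (kfu u v) = kfu (φ u) (φ v) := by
  simp [kfu, map_ofNat]

theorem map_kfv (φ : R →+* S) (u v : R) : φ (kfv u v) = kfv (φ u) (φ v) := by
  simp [kfv, map_ofNat]

end Forms

section Field

variable {K : Type*} [Field K]

/-- A linear substitution in two variables. -/
@[ext]
structure Lin (K : Type*) where
  a : K
  b : K
  c : K
  d : K

namespace Lin

/-- First coordinate of the image. -/
def fu (g : Lin K) (u v : K) : K := g.a * u + g.b * v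

/-- Second coordinate of the image. -/
def fv (g : Lin K) (u v : K) : K := g.c * u + g.d * v

/-- Composition. -/
def comp (g h : Lin K) : Lin K :=
  ⟨g.a * h.a + g.b * h.c, g.a * h.b + g.b * h.d, g.c * h.a + g.d * h.c, g.c * h.b + g.d * h.d⟩

theorem fu_comp (g h : Lin K) (u v : K) :
    (g.comp h).fu u v = g.fu (h.fu u v) (h.fv u v) := by
  simp only [comp, fu, fv]; ring

theorem fv_comp (g h : Lin K) (u v : K) :
    (g.comp h).fv u v = g.fv (h.fu u v) (h.fv u v) := by
  simp only [comp, fu, fv]; ring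

/-- Determinant. -/
def det (g : Lin K) : K := g.a * g.d - g.b * g.c

theorem det_comp (g h : Lin K) : (g.comp h).det = g.det * h.det := by
  simp only [comp, det]; ring

end Lin

/-- A substitution of determinant one fixing the three forms. -/
structure IsIcosa (g : Lin K) : Prop where
  hf : ∀ u v, kf (g.fu u v) (g.fv u v) = kf u v
  hH : ∀ u v, kH (g.fu u v) (g.fv u v) = kH u v
  hT : ∀ u v, kT (g.fu u v) (g.fv u v) = kT u v
  hdet : g.det = 1

theorem IsIcosa.comp {g h : Lin K} (hg : IsIcosa g) (hh : IsIcosa h) : IsIcosa (g.comp h) where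
  hf u v := by rw [Lin.fu_comp, Lin.fv_comp, hg.hf, hh.hf]
  hH u v := by rw [Lin.fu_comp, Lin.fv_comp, hg.hH, hh.hH]
  hT u v := by rw [Lin.fu_comp, Lin.fv_comp, hg.hT, hh.hT]
  hdet := by rw [Lin.det_comp, hg.hdet, hh.hdet, one_mul]

theorem kf_line (u v x y : K) :
    (Polynomial.derivative (kf (Polynomial.C u + Polynomial.X * Polynomial.C x)
      (Polynomial.C v + Polynomial.X * Polynomial.C y))).eval 0
      = kfu u v * x + kfv u v * y := by
  simp [kf, kfu, kfv, Polynomial.derivative_pow]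
  ring

/-- The covariant `(f_v, -f_u)` commutes with substitutions fixing `f`. -/
theorem IsIcosa.grad [Infinite K] {g : Lin K} (hg : IsIcosa g) (u v : K) :
    kfv (g.fu u v) (g.fv u v) = g.fu (kfv u v) (-kfu u v) ∧
      -kfu (g.fu u v) (g.fv u v) = g.fv (kfv u v) (-kfu u v) := by
  open Polynomial in
  have key : ∀ x y : K,
      kfu (g.fu u v) (g.fv u v) * g.fu x y + kfv (g.fu u v) (g.fv u v) * g.fv x y
        = kfu u v * x + kfv u v * y := by
    intro x y
    have hpoly : kf (C (g.fu u v) + X * C (g.fu x y)) (C (g.fv u v) + X * C (g.fv x y))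
        = kf (C u + X * C x) (C v + X * C y) := by
      apply Polynomial.funext
      intro e
      have h1 := hg.hf (u + e * x) (v + e * y)
      have e1 : g.fu (u + e * x) (v + e * y) = g.fu u v + g.fu x y * e := by
        simp only [Lin.fu]; ring
      have e2 : g.fv (u + e * x) (v + e * y) = g.fv u v + g.fv x y * e := by
        simp only [Lin.fv]; ring
      rw [e1, e2] at h1
      rw [← coe_evalRingHom, map_kf, map_kf]
      simpa [mul_comm e] using h1
    have := congrArg (fun p => (derivative p).eval 0) hpoly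
    simpa only [kf_line] using this
  have h10 := key 1 0
  have h01 := key 0 1
  have hdet : g.a * g.d - g.b * g.c = 1 := hg.hdet
  simp only [Lin.fu, Lin.fv, mul_one, mul_zero, add_zero, zero_add] at h10 h01 ⊢
  constructor
  · linear_combination g.a * h01 - g.b * h10 -
      kfv (g.a * u + g.b * v) (g.c * u + g.d * v) * hdet
  · linear_combination g.c * h01 - g.d * h10 +
      kfu (g.a * u + g.b * v) (g.c * u + g.d * v) * hdet

/-! ### Generators -/

/-- The rotation of order 5. -/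
def rot (ζ : K) : Lin K := ⟨ζ ^ 3, 0, 0, ζ ^ 2⟩

/-- The involution exchanging the cusps zero and infinity. -/
def flip : Lin K := ⟨0, -1, 1, 0⟩

/-- The golden ratio in terms of a fifth root of unity. -/
def golden (ζ : K) : K := -(ζ ^ 2 + ζ ^ 3)

/-- The substitution moving the cusp infinity to another orbit. -/
def goldenFlip (ζ : K) : Lin K :=
  ⟨(ζ - ζ ^ 4)⁻¹, golden ζ * (ζ - ζ ^ 4)⁻¹, golden ζ * (ζ - ζ ^ 4)⁻¹, -(ζ - ζ ^ 4)⁻¹⟩

theorem isIcosa_flip : IsIcosa (flip : Lin K) where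
  hf u v := by simp only [flip, Lin.fu, Lin.fv, kf]; ring
  hH u v := by simp only [flip, Lin.fu, Lin.fv, kH]; ring
  hT u v := by simp only [flip, Lin.fu, Lin.fv, kT]; ring
  hdet := by simp [flip, Lin.det]

theorem isIcosa_rot {ζ : K} (hζ : ζ ^ 5 = 1) : IsIcosa (rot ζ) := by
  have h1 : ∀ u v : K, ((ζ ^ 3 * u + 0 * v) ^ 5 = u ^ 5) := fun u v => by
    rw [zero_mul, add_zero, mul_pow, ← pow_mul, show 3 * 5 = 5 * 3 from rfl, pow_mul, hζ,
      one_pow, one_mul]
  have h2 : ∀ u v : K, ((0 * u + ζ ^ 2 * v) ^ 5 = v ^ 5) := fun u v => by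
    rw [zero_mul, zero_add, mul_pow, ← pow_mul, show 2 * 5 = 5 * 2 from rfl, pow_mul, hζ,
      one_pow, one_mul]
  have hp : ∀ (x : K) (k : ℕ), x ^ (5 * k) = (x ^ 5) ^ k := fun x k => pow_mul x 5 k
  refine ⟨fun u v => ?_, fun u v => ?_, fun u v => ?_, ?_⟩
  · simp only [rot, Lin.fu, Lin.fv, kf]
    linear_combination (u * v * (v ^ 10 - 11 * u ^ 5 * v ^ 5 - u ^ 10)) * hζ
      + (ζ ^ 3 * u) * (ζ ^ 2 * v) *
        ((h2 u v) * ((0 * u + ζ ^ 2 * v) ^ 5 + v ^ 5 - 11 * u ^ 5)
          - (h1 u v) * (11 * (0 * u + ζ ^ 2 * v) ^ 5 + (ζ ^ 3 * u + 0 * v) ^ 5 + u ^ 5))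
  · simp only [rot, Lin.fu, Lin.fv, kH]
    rw [hp _ 4, hp _ 3, hp _ 2, hp _ 4, hp _ 3, hp _ 2, h1, h2]
    ring
  · simp only [rot, Lin.fu, Lin.fv, kT]
    rw [hp _ 6, hp _ 5, hp _ 4, hp _ 2, hp _ 6, hp _ 5, hp _ 4, hp _ 2, h1, h2]
    ring
  · simp only [rot, Lin.det]
    linear_combination hζ

theorem golden_sq {ζ : K} (hζ : 1 + ζ + ζ ^ 2 + ζ ^ 3 + ζ ^ 4 = 0) :
    golden ζ ^ 2 = golden ζ + 1 := by
  simp only [golden]
  linear_combination (ζ ^ 2 + ζ - 1) * hζ

theorem scale_sq {ζ : K} (hζ : 1 + ζ + ζ ^ 2 + ζ ^ 3 + ζ ^ 4 = 0) :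
    (ζ - ζ ^ 4) ^ 2 = -(golden ζ + 2) := by
  simp only [golden]
  linear_combination (ζ ^ 4 - ζ ^ 3 - 2 * ζ + 2) * hζ

theorem golden_pow {φ : K} (hφ : φ ^ 2 = φ + 1) :
    ∀ n : ℕ, φ ^ (n + 1) = (Nat.fib (n + 1) : K) * φ + (Nat.fib n : K)
  | 0 => by simp
  | n + 1 => by
    rw [pow_succ, golden_pow hφ n, Nat.fib_add_two (n := n)]
    push_cast
    linear_combination (Nat.fib (n + 1) : K) * hφ

set_option maxRecDepth 10000 in
set_option maxHeartbeats 1600000 in
set_option linter.unusedSimpArgs false in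
/-- Powers of a root of `X ^ 2 = X + 1`, as needed for the forms of degree at most 30. -/
theorem golden_forms {φ : K} (hφ : φ ^ 2 = φ + 1) (u v : K) :
    kf (u + φ * v) (φ * u - v) = (φ + 2) ^ 6 * kf u v ∧
      kH (u + φ * v) (φ * u - v) = (φ + 2) ^ 10 * kH u v ∧
      kT (u + φ * v) (φ * u - v) = -((φ + 2) ^ 15 * kT u v) := by
  have e := golden_pow hφ
  have h3 : φ ^ 3 = 2 * φ + 1 := by
    rw [e 2]; norm_num [Nat.fib_add_two]
  have h4 : φ ^ 4 = 3 * φ + 2 := by
    rw [e 3]; norm_num [Nat.fib_add_two]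
  have h5 : φ ^ 5 = 5 * φ + 3 := by
    rw [e 4]; norm_num [Nat.fib_add_two]
  have h6 : φ ^ 6 = 8 * φ + 5 := by
    rw [e 5]; norm_num [Nat.fib_add_two]
  have h7 : φ ^ 7 = 13 * φ + 8 := by
    rw [e 6]; norm_num [Nat.fib_add_two]
  have h8 : φ ^ 8 = 21 * φ + 13 := by
    rw [e 7]; norm_num [Nat.fib_add_two]
  have h9 : φ ^ 9 = 34 * φ + 21 := by
    rw [e 8]; norm_num [Nat.fib_add_two]
  have h10 : φ ^ 10 = 55 * φ + 34 := by
    rw [e 9]; norm_num [Nat.fib_add_two]
  have h11 : φ ^ 11 = 89 * φ + 55 := by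
    rw [e 10]; norm_num [Nat.fib_add_two]
  have h12 : φ ^ 12 = 144 * φ + 89 := by
    rw [e 11]; norm_num [Nat.fib_add_two]
  have h13 : φ ^ 13 = 233 * φ + 144 := by
    rw [e 12]; norm_num [Nat.fib_add_two]
  have h14 : φ ^ 14 = 377 * φ + 233 := by
    rw [e 13]; norm_num [Nat.fib_add_two]
  have h15 : φ ^ 15 = 610 * φ + 377 := by
    rw [e 14]; norm_num [Nat.fib_add_two]
  have h16 : φ ^ 16 = 987 * φ + 610 := by
    rw [e 15]; norm_num [Nat.fib_add_two]
  have h17 : φ ^ 17 = 1597 * φ + 987 := by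
    rw [e 16]; norm_num [Nat.fib_add_two]
  have h18 : φ ^ 18 = 2584 * φ + 1597 := by
    rw [e 17]; norm_num [Nat.fib_add_two]
  have h19 : φ ^ 19 = 4181 * φ + 2584 := by
    rw [e 18]; norm_num [Nat.fib_add_two]
  have h20 : φ ^ 20 = 6765 * φ + 4181 := by
    rw [e 19]; norm_num [Nat.fib_add_two]
  have h21 : φ ^ 21 = 10946 * φ + 6765 := by
    rw [e 20]; norm_num [Nat.fib_add_two]
  have h22 : φ ^ 22 = 17711 * φ + 10946 := by
    rw [e 21]; norm_num [Nat.fib_add_two]
  have h23 : φ ^ 23 = 28657 * φ + 17711 := by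
    rw [e 22]; norm_num [Nat.fib_add_two]
  have h24 : φ ^ 24 = 46368 * φ + 28657 := by
    rw [e 23]; norm_num [Nat.fib_add_two]
  have h25 : φ ^ 25 = 75025 * φ + 46368 := by
    rw [e 24]; norm_num [Nat.fib_add_two]
  have h26 : φ ^ 26 = 121393 * φ + 75025 := by
    rw [e 25]; norm_num [Nat.fib_add_two]
  have h27 : φ ^ 27 = 196418 * φ + 121393 := by
    rw [e 26]; norm_num [Nat.fib_add_two]
  have h28 : φ ^ 28 = 317811 * φ + 196418 := by
    rw [e 27]; norm_num [Nat.fib_add_two]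
  have h29 : φ ^ 29 = 514229 * φ + 317811 := by
    rw [e 28]; norm_num [Nat.fib_add_two]
  have h30 : φ ^ 30 = 832040 * φ + 514229 := by
    rw [e 29]; norm_num [Nat.fib_add_two]
  refine ⟨?_, ?_, ?_⟩
  · simp only [kf]; ring_nf; simp only [hφ, h3, h4, h5, h6, h7, h8, h9, h10, h11, h12, h13, h14, h15, h16, h17, h18, h19, h20, h21, h22, h23, h24, h25, h26, h27, h28, h29, h30]; ring
  · simp only [kH]; ring_nf; simp only [hφ, h3, h4, h5, h6, h7, h8, h9, h10, h11, h12, h13, h14, h15, h16, h17, h18, h19, h20, h21, h22, h23, h24, h25, h26, h27, h28, h29, h30]; ring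
  · simp only [kT]; ring_nf; simp only [hφ, h3, h4, h5, h6, h7, h8, h9, h10, h11, h12, h13, h14, h15, h16, h17, h18, h19, h20, h21, h22, h23, h24, h25, h26, h27, h28, h29, h30]; ring

theorem isIcosa_goldenFlip {ζ : K} (hζ : 1 + ζ + ζ ^ 2 + ζ ^ 3 + ζ ^ 4 = 0) (h5 : (5 : K) ≠ 0) :
    IsIcosa (goldenFlip ζ) := by
  have hφ := golden_sq hζ
  have hsq := scale_sq hζ
  set φ := golden ζ with hφdef
  set s := (ζ - ζ ^ 4)⁻¹ with hs
  have hne : φ + 2 ≠ 0 := by
    intro h
    apply h5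
    linear_combination hφ - (φ - 3) * h
  have hs2 : (φ + 2) * s ^ 2 = -1 := by
    rw [hs, inv_pow, hsq]; field_simp
  have hfu : ∀ u v : K, (goldenFlip ζ).fu u v = s * (u + φ * v) := fun u v => by
    simp only [goldenFlip, Lin.fu, ← hs, ← hφdef]; ring
  have hfv : ∀ u v : K, (goldenFlip ζ).fv u v = s * (φ * u - v) := fun u v => by
    simp only [goldenFlip, Lin.fv, ← hs, ← hφdef]; ring
  refine ⟨fun u v => ?_, fun u v => ?_, fun u v => ?_, ?_⟩
  · rw [hfu, hfv, kf_smul, (golden_forms hφ u v).1]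
    have : s ^ 12 * (φ + 2) ^ 6 = 1 := by
      have : s ^ 12 * (φ + 2) ^ 6 = ((φ + 2) * s ^ 2) ^ 6 := by ring
      rw [this, hs2]; norm_num
    linear_combination kf u v * this
  · rw [hfu, hfv, kH_smul, (golden_forms hφ u v).2.1]
    have : s ^ 20 * (φ + 2) ^ 10 = 1 := by
      have : s ^ 20 * (φ + 2) ^ 10 = ((φ + 2) * s ^ 2) ^ 10 := by ring
      rw [this, hs2]; norm_num
    linear_combination kH u v * this
  · rw [hfu, hfv, kT_smul, (golden_forms hφ u v).2.2]
    have : s ^ 30 * (φ + 2) ^ 15 = -1 := by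
      have : s ^ 30 * (φ + 2) ^ 15 = ((φ + 2) * s ^ 2) ^ 15 := by ring
      rw [this, hs2]; norm_num
    linear_combination (-kT u v) * this
  · simp only [goldenFlip, Lin.det, ← hs, ← hφdef]
    linear_combination (-1 : K) * hs2 - s ^ 2 * hφ

end Field

end FLTA.Elliptic.Switch
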