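import Mathlib
import Fermat.Agent.Elliptic.Switch.Forms

/-!
# The three-division quartic of the Klein family has no polynomial root

Expanding at the point `(0 : 1)`: a root takes there the value `1` (ruled out in order `5`) or
`-3` (then it agrees with `-3 - 18 s⁵ - 39 s¹⁰` up to order `15`, and this is not a root).
-/

set_option autoImplicit false

open Polynomial

namespace FLTA.Elliptic.Switch

variable {K : Type*}

/-- The three-division quartic in the invariants `h = c₄`, `τ = c₆`. -/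
def quartic [CommRing K] (h τ x : K) : K := x ^ 4 - 6 * h * x ^ 2 - 8 * τ * x - 3 * h ^ 2

theorem map_quartic [CommRing K] {S : Type*} [CommRing S] (φ : K →+* S) (h τ x : K) :
    φ (quartic h τ x) = quartic (φ h) (φ τ) (φ x) := by
  simp [quartic, map_ofNat]

theorem quartic_smul [CommRing K] (c h τ x : K) :
    quartic (c ^ 2 * h) (c ^ 3 * τ) (c * x) = c ^ 4 * quartic h τ x := by
  simp only [quartic]; ring

variable [Field K] [CharZero K]

theorem quartic_no_root_dehom (P : K[X]) (hP : P.natDegree ≤ 10) :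
    quartic (kH X 1) (kT X 1) P ≠ 0 := by
  intro hz
  have hX : Prime (X : K[X]) := prime_X
  have h0 := congrArg (eval 0) hz
  rw [← coe_evalRingHom, map_quartic, map_kH, map_kT] at h0
  simp only [coe_evalRingHom, eval_X, eval_one, quartic, kH, kT, eval_zero] at h0
  have h0' : (P.eval 0 - 1) ^ 3 * (P.eval 0 + 3) = 0 := by linear_combination h0
  rcases mul_eq_zero.1 h0' with h1 | h3
  · obtain ⟨Y, hY⟩ := X_dvd_iff.2 (show (P - 1).coeff 0 = 0 by
      rw [coeff_zero_eq_eval_zero, eval_sub, eval_one]; exact pow_eq_zero_iff three_ne_zero |>.1 h1)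
    rw [sub_eq_iff_eq_add] at hY
    subst hY
    set R : K[X] := -6 * (228 + 494 * X ^ 5 - 228 * X ^ 10 + X ^ 15) * (X * Y + 1) ^ 2
      - 8 * (522 + 10005 * X ^ 5 + 10005 * X ^ 15 - 522 * X ^ 20 - X ^ 25) * (X * Y + 1)
      - 3 * (228 + 494 * X ^ 5 - 228 * X ^ 10 + X ^ 15) * (kH X 1 + 1) with hR
    have e1 : X ^ 3 * (Y ^ 3 * (4 + X * Y) + X ^ 2 * R) = (0 : K[X]) := by
      rw [← hz, hR]; simp only [quartic, kH, kT]; ring
    have e2 := (mul_eq_zero.1 e1).resolve_left (pow_ne_zero 3 X_ne_zero)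
    have hY0 : Y.eval 0 = 0 := by
      have := congrArg (eval 0) e2
      simp only [eval_add, eval_mul, eval_pow, eval_X, eval_ofNat, eval_zero] at this
      simpa using this
    obtain ⟨Z, rfl⟩ := X_dvd_iff.2 (show Y.coeff 0 = 0 by rw [coeff_zero_eq_eval_zero]; exact hY0)
    have e3 : X ^ 2 * (X * Z ^ 3 * (4 + X * (X * Z)) + R) = (0 : K[X]) := by
      rw [← e2]; ring
    have e4 := congrArg (eval 0) ((mul_eq_zero.1 e3).resolve_left (pow_ne_zero 2 X_ne_zero))
    rw [hR] at e4
    simp only [kH, eval_add, eval_sub, eval_mul, eval_pow, eval_neg, eval_X, eval_ofNat, eval_one,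
      eval_zero] at e4
    norm_num at e4
  · set P₀ : K[X] := -3 - 18 * X ^ 5 - 39 * X ^ 10 with hP₀
    set E : K[X] := -4608 + 147456 * X ^ 5 - 1481472 * X ^ 10 + 3965184 * X ^ 15
      + 6181632 * X ^ 20 + 2304000 * X ^ 25 with hE
    have hE0 : quartic (kH X 1) (kT X 1) P₀ = X ^ 15 * E := by
      rw [hP₀, hE]; simp only [quartic, kH, kT]; ring
    set S : K[X] := (P + P₀) * (P ^ 2 + P₀ ^ 2) - 6 * kH X 1 * (P + P₀) - 8 * kT X 1 with hS
    have hdvd : X ^ 15 ∣ (P - P₀) * S := ⟨-E, by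
      have : (P - P₀) * S = quartic (kH X 1) (kT X 1) P - quartic (kH X 1) (kT X 1) P₀ := by
        rw [hS]; simp only [quartic]; ring
      rw [this, hz, hE0]; ring⟩
    have hS0 : ¬ X ∣ S := by
      rw [X_dvd_iff, coeff_zero_eq_eval_zero, hS, hP₀]
      simp only [kH, kT, eval_add, eval_sub, eval_mul, eval_pow, eval_neg, eval_X, eval_ofNat,
        eval_one]
      rw [eq_neg_of_add_eq_zero_left h3]
      norm_num
    have hpow := hX.pow_dvd_of_dvd_mul_right 15 hS0 hdvd
    have hdeg : (P - P₀).natDegree ≤ 10 := by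
      refine (natDegree_sub_le _ _).trans (max_le hP ?_)
      rw [hP₀]
      compute_degree
    have heq : P - P₀ = 0 := eq_zero_of_dvd_of_natDegree_lt hpow (by rw [natDegree_X_pow]; omega)
    rw [sub_eq_zero] at heq
    rw [heq, hE0] at hz
    have := congrArg (eval 1) hz
    rw [hE] at this
    simp only [eval_add, eval_sub, eval_mul, eval_pow, eval_neg, eval_X, eval_ofNat, eval_zero,
      one_pow, one_mul, mul_one] at this
    norm_num at this

/-- No polynomial of degree `≤ 10` is a root along an affine line missing the origin. -/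
theorem quartic_no_root_line {a₁ a₂ b₁ b₂ : K} (hdet : a₂ * b₁ - a₁ * b₂ ≠ 0) (P : K[X])
    (hP : P.natDegree ≤ 10) :
    quartic (kH (C a₁ + C b₁ * X) (C a₂ + C b₂ * X)) (kT (C a₁ + C b₁ * X) (C a₂ + C b₂ * X)) P
      ≠ 0 := by
  intro hz
  set D := a₂ * b₁ - a₁ * b₂ with hD
  set Q : K[X] := C (D⁻¹ ^ 10) * ∑ i ∈ Finset.range 11,
    C (P.coeff i) * (C a₂ * X - C a₁) ^ i * (C b₁ - C b₂ * X) ^ (10 - i) with hQ
  have hQdeg : Q.natDegree ≤ 10 := by
    refine (natDegree_C_mul_le _ _).trans (natDegree_sum_le_of_forall_le _ _ fun i hi => ?_)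
    have hi' : i ≤ 10 := Nat.lt_succ_iff.1 (Finset.mem_range.1 hi)
    refine natDegree_mul_le.trans ?_
    have h1 : (C (P.coeff i) * (C a₂ * X - C a₁) ^ i).natDegree ≤ i :=
      (natDegree_C_mul_le _ _).trans (natDegree_pow_le.trans (by
        have : (C a₂ * X - C a₁).natDegree ≤ 1 := by compute_degree
        calc i * (C a₂ * X - C a₁).natDegree ≤ i * 1 := Nat.mul_le_mul_left _ this
          _ = i := mul_one i))
    have h2 : ((C b₁ - C b₂ * X) ^ (10 - i)).natDegree ≤ 10 - i :=
      natDegree_pow_le.trans (by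
        have : (C b₁ - C b₂ * X).natDegree ≤ 1 := by compute_degree
        calc (10 - i) * (C b₁ - C b₂ * X).natDegree ≤ (10 - i) * 1 := Nat.mul_le_mul_left _ this
          _ = 10 - i := mul_one _)
    omega
  apply quartic_no_root_dehom Q hQdeg
  refine eq_zero_of_infinite_isRoot _ (Set.Infinite.mono ?_
    ((Set.finite_singleton (b₁ / b₂)).infinite_compl))
  intro s hs
  have hden : b₁ - b₂ * s ≠ 0 := by
    intro h
    rcases eq_or_ne b₂ 0 with hb | hb
    · simp only [hb, zero_mul, sub_zero] at h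
      exact hdet (by rw [hD, h, hb]; ring)
    · exact hs (by rw [Set.mem_singleton_iff, eq_div_iff hb]; linear_combination -h)
  set t := (a₂ * s - a₁) / (b₁ - b₂ * s) with ht
  set v := D / (b₁ - b₂ * s) with hv
  have hu : a₁ + b₁ * t = v * s := by
    rw [ht, hv, hD, mul_div_assoc', div_mul_eq_mul_div, add_div' _ _ _ hden]
    congr 1; ring
  have hv' : a₂ + b₂ * t = v * 1 := by
    rw [ht, hv, hD, mul_one, mul_div_assoc', add_div' _ _ _ hden]
    congr 1; ring
  have hPQ : P.eval t = v ^ 10 * Q.eval s := by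
    rw [hQ, eval_mul, eval_C, eval_finsetSum,
      eval_eq_sum_range' (Nat.lt_succ_of_le hP), Finset.mul_sum, Finset.mul_sum]
    refine Finset.sum_congr rfl fun i hi => ?_
    have hi' : i ≤ 10 := Nat.lt_succ_iff.1 (Finset.mem_range.1 hi)
    simp only [eval_mul, eval_C, eval_pow, eval_sub, eval_X]
    rw [ht, hv, div_pow, div_pow, inv_pow]
    have hDp : D ^ 10 ≠ 0 := pow_ne_zero _ hdet
    have hsplit : (b₁ - b₂ * s) ^ 10 = (b₁ - b₂ * s) ^ i * (b₁ - b₂ * s) ^ (10 - i) := by
      rw [← pow_add, Nat.add_sub_cancel' hi']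
    rw [hsplit]
    have ha := pow_ne_zero i hden
    have hb := pow_ne_zero (10 - i) hden
    generalize (b₁ - b₂ * s) ^ i = Ai at ha ⊢
    generalize (b₁ - b₂ * s) ^ (10 - i) = Bi at hb ⊢
    field_simp
  have h := congrArg (eval t) hz
  rw [← coe_evalRingHom, map_quartic, map_kH, map_kT] at h
  simp only [coe_evalRingHom, eval_add, eval_mul, eval_C, eval_X, eval_zero] at h
  rw [hu, hv', hPQ, kH_smul, kT_smul, show v ^ 20 = (v ^ 10) ^ 2 by ring,
    show v ^ 30 = (v ^ 10) ^ 3 by ring, quartic_smul] at h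
  have hv0 : v ≠ 0 := div_ne_zero hdet hden
  show eval s _ = 0
  rw [← coe_evalRingHom, map_quartic, map_kH, map_kT]
  simp only [coe_evalRingHom, eval_X, eval_one]
  exact (mul_eq_zero.1 h).resolve_left (pow_ne_zero _ (pow_ne_zero _ hv0))

end FLTA.Elliptic.Switch
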