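import Fermat.Agent.Elliptic.Switch.Family
import Fermat.Agent.Elliptic.Switch.LineCoeff
import Fermat.Agent.Elliptic.Switch.Hilbert
import Fermat.Agent.Elliptic.Switch.NoPolyRoot

/-!
# The members of the twisted family on a rational line
-/

set_option autoImplicit false

open Polynomial WeierstrassCurve
open scoped WeierstrassCurve.Affine

namespace FLTA.Elliptic.Switch

local notation "Qbar" => AlgebraicClosure ℚ

/-- Transport of `5`-torsion along an equality of curves. -/
noncomputable def torsionCongr {F : Type*} [Field F] [DecidableEq F] {E E' : WeierstrassCurve F}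
    (h : E = E') : Submodule.torsionBy ℤ E.toAffine.Point (5 : ℕ) ≃+
      Submodule.torsionBy ℤ E'.toAffine.Point (5 : ℕ) where
  toFun P := ⟨pointCongr h P.1,
    mem_torsion_five (by rw [← map_nsmul, five_nsmul_eq_zero, map_zero])⟩
  invFun P := ⟨(pointCongr h).symm P.1,
    mem_torsion_five (by rw [← map_nsmul, five_nsmul_eq_zero, map_zero])⟩
  left_inv P := Subtype.ext ((pointCongr h).symm_apply_apply _)
  right_inv P := Subtype.ext ((pointCongr h).apply_symm_apply _)
  map_add' P Q := Subtype.ext (map_add (pointCongr h) _ _)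

theorem IsConjPoint.pointCongr_iff {F : Type*} [Field F] [DecidableEq F]
    {E E' : WeierstrassCurve F} (h : E = E') (σ : F →+* F) (P Q : E.toAffine.Point) :
    IsConjPoint σ (pointCongr h P) (pointCongr h Q) ↔ IsConjPoint σ P Q := by
  subst h
  rcases P with _ | ⟨x, y, hP⟩ <;> rcases Q with _ | ⟨x', y', hQ⟩ <;> rfl

theorem isConjPoint_smul (E : WeierstrassCurve ℚ) (σ : Qbar ≃ₐ[ℚ] Qbar)
    (P : (E⁄Qbar).Point) : IsConjPoint σ.toRingEquiv.toRingHom P (σ • P) := by
  rcases P with _ | ⟨x, y, hP⟩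
  · exact trivial
  · exact ⟨rfl, rfl⟩

namespace LineData

variable {c₄ c₆ : ℚ} {u v r₁ r₂ : Qbar} {qH qT qD : ℚ[X]}

theorem eval_qH (d : LineData c₄ c₆ u v r₁ r₂ qH qT qD) (t : ℚ) :
    algebraMap ℚ Qbar (qH.eval t)
      = kH (u + r₁ * algebraMap ℚ Qbar t) (v + r₂ * algebraMap ℚ Qbar t) := by
  rw [← eval₂_at_apply, ← eval_map, d.hqH, ← coe_evalRingHom, map_kH]
  simp

theorem eval_qT (d : LineData c₄ c₆ u v r₁ r₂ qH qT qD) (t : ℚ) :
    algebraMap ℚ Qbar (qT.eval t)
      = kT (u + r₁ * algebraMap ℚ Qbar t) (v + r₂ * algebraMap ℚ Qbar t) := by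
  rw [← eval₂_at_apply, ← eval_map, d.hqT, ← coe_evalRingHom, map_kT]
  simp

theorem eval_qD (d : LineData c₄ c₆ u v r₁ r₂ qH qT qD) (t : ℚ) :
    kf u v * algebraMap ℚ Qbar (qD.eval t)
      = kf (u + r₁ * algebraMap ℚ Qbar t) (v + r₂ * algebraMap ℚ Qbar t) := by
  have := congrArg (evalRingHom (algebraMap ℚ Qbar t)) d.hqD
  rw [map_mul, map_kf _ (C u + C r₁ * X)] at this
  rw [← eval₂_at_apply, ← eval_map]
  simp only [coe_evalRingHom, eval_C, eval_add, eval_mul, eval_X] at this
  exact this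

theorem eval_zero_qH (d : LineData c₄ c₆ u v r₁ r₂ qH qT qD) : qH.eval 0 = c₄ :=
  (algebraMap ℚ Qbar).injective (by rw [d.eval_qH]; simpa using d.hH)

theorem eval_zero_qT (d : LineData c₄ c₆ u v r₁ r₂ qH qT qD) : qT.eval 0 = c₆ :=
  (algebraMap ℚ Qbar).injective (by rw [d.eval_qT]; simpa using d.hT)

theorem eval_zero_qD (d : LineData c₄ c₆ u v r₁ r₂ qH qT qD) : qD.eval 0 = 1 :=
  (algebraMap ℚ Qbar).injective (mul_left_cancel₀ d.hf (by rw [d.eval_qD]; simp))

theorem twist_Δ (E : WeierstrassCurve ℚ)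
    (d : LineData E.c₄ E.c₆ u v r₁ r₂ qH qT qD) :
    (twist E qH qT).Δ = C E.Δ * qD ^ 5 := by
  have hι := (algebraMap ℚ Qbar).injective
  have hΔ5 : algebraMap ℚ Qbar E.Δ = kf u v ^ 5 := by
    have h := congrArg (algebraMap ℚ Qbar) E.c_relation
    rw [map_mul, map_ofNat, map_sub, map_pow, map_pow, ← d.hH, ← d.hT, kH_pow_three_sub] at h
    exact mul_left_cancel₀ (by norm_num : (1728 : Qbar) ≠ 0) h
  have h := (twist E qH qT).c_relation
  rw [twist_c₄, twist_c₆] at h
  apply mul_left_cancel₀ (by norm_num : (1728 : ℚ[X]) ≠ 0)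
  rw [h]
  apply map_injective (algebraMap ℚ Qbar) hι
  simp only [Polynomial.map_sub, Polynomial.map_mul, Polynomial.map_pow, d.hqH, d.hqT, map_C,
    Polynomial.map_ofNat, kH_pow_three_sub]
  rw [← d.hqD, mul_pow, ← C_pow, ← hΔ5]

theorem isCoprime (d : LineData c₄ c₆ u v r₁ r₂ qH qT qD) : IsCoprime qH qD := by
  obtain ⟨-, -, -, -, hdet, hqH, -, hqD, -⟩ := d
  refine (Polynomial.isCoprime_iff_aeval_ne_zero_of_isAlgClosed (k := ℚ) Qbar qH qD).mpr
    fun e => ?_
  rw [aeval_def, aeval_def, ← eval_map, ← eval_map, hqH]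
  by_contra hcon
  simp only [not_or, not_not] at hcon
  obtain ⟨hc, hd⟩ := hcon
  have hd' : kf (u + r₁ * e) (v + r₂ * e) = 0 := by
    have := congrArg (evalRingHom e) hqD
    rw [map_mul, map_kf _ (C u + C r₁ * X)] at this
    simp only [coe_evalRingHom, eval_C, eval_add, eval_mul, eval_X, hd, mul_zero] at this
    exact this.symm
  rw [← coe_evalRingHom, map_kH] at hc
  simp only [coe_evalRingHom, eval_C, eval_add, eval_mul, eval_X] at hc
  obtain ⟨e1, e2⟩ := eq_zero_of_kH_kf hc hd'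
  exact hdet (by linear_combination r₁ * e2 - r₂ * e1)

/-- A parameter in an arithmetic progression at which the quartic has no integral root. -/
theorem exists_no_root (d : LineData c₄ c₆ u v r₁ r₂ qH qT qD) (a m : ℚ) (hm : m ≠ 0) :
    ∃ n : ℕ, ∀ x : ℤ, quartic (qH.eval (a + m * n)) (qT.eval (a + m * n)) (x : ℚ) ≠ 0 := by
  obtain ⟨-, -, -, hfr, hdet, hqH, hqT, -, -⟩ := d
  have hι := (algebraMap ℚ Qbar).injective
  let l : ℚ[X] := C a + C m * X
  let A : Qbar := algebraMap ℚ Qbar a
  let B : Qbar := algebraMap ℚ Qbar m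
  let g : Fin 4 → ℚ[X] :=
    ![-(3 * qH.comp l ^ 2), -(8 * qT.comp l), -(6 * qH.comp l), 0]
  have hmapH : (qH.comp l).map (algebraMap ℚ Qbar)
      = kH (C (u + r₁ * A) + C (r₁ * B) * X) (C (v + r₂ * A) + C (r₂ * B) * X) := by
    rw [Polynomial.map_comp, hqH, ← coe_compRingHom_apply, map_kH]
    simp [l, A, B, mul_add, add_assoc, mul_assoc]
  have hmapT : (qT.comp l).map (algebraMap ℚ Qbar)
      = kT (C (u + r₁ * A) + C (r₁ * B) * X) (C (v + r₂ * A) + C (r₂ * B) * X) := by
    rw [Polynomial.map_comp, hqT, ← coe_compRingHom_apply, map_kT]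
    simp [l, A, B, mul_add, add_assoc, mul_assoc]
  have hdH : (qH.comp l).natDegree ≤ 20 := by
    rw [← natDegree_map_eq_of_injective hι, hmapH]
    exact natDegree_kH_line _ _ _ _
  have hdT : (qT.comp l).natDegree ≤ 30 := by
    rw [← natDegree_map_eq_of_injective hι, hmapT]
    exact natDegree_kT_line _ _ _ _
  have hMQ : B ≠ 0 := by simpa [B] using hm
  set hh := (qH.comp l).coeff 20 with hhdef
  set tt := (qT.comp l).coeff 30 with httdef
  have hhv : algebraMap ℚ Qbar hh = kH (r₁ * B) (r₂ * B) := by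
    rw [hhdef, ← coeff_map, hmapH]
    exact coeff_kH_line _ _ _ _
  have htv : algebraMap ℚ Qbar tt = kT (r₁ * B) (r₂ * B) := by
    rw [httdef, ← coeff_map, hmapT]
    exact coeff_kT_line _ _ _ _
  have hdis : hh ^ 3 ≠ tt ^ 2 := by
    intro h
    have h' := congrArg (algebraMap ℚ Qbar) h
    rw [map_pow, map_pow, hhv, htv, ← sub_eq_zero, kH_pow_three_sub, mul_comm r₁, mul_comm r₂,
      kf_smul] at h'
    simp [hfr, hMQ] at h'
  have hdeg : ∀ i : Fin 4, (g i).natDegree ≤ 10 * (4 - (i : ℕ)) := by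
    intro i
    fin_cases i <;> simp only [g, Matrix.cons_val_zero, Matrix.cons_val_one, Matrix.cons_val,
      natDegree_neg, natDegree_zero, Fin.zero_eta, Fin.mk_one, Fin.reduceFinMk, zero_le,
      Fin.isValue]
    · refine natDegree_mul_le.trans ?_
      have := (natDegree_pow_le (p := qH.comp l) (n := 2)).trans (Nat.mul_le_mul_left 2 hdH)
      simp
      omega
    · refine natDegree_mul_le.trans ?_
      simp
      omega
    · refine natDegree_mul_le.trans ?_
      simp
      omega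
  have hg0 : (g 0).coeff 40 = -(3 * hh ^ 2) := by
    simp only [g, Matrix.cons_val_zero, coeff_neg, coeff_ofNat_mul, hhdef,
      ← coeff_pow_of_natDegree_le hdH]
  have hsep : (X ^ 4 + ∑ i, C ((g i).coeff (10 * (4 - (i : ℕ)))) * X ^ (i : ℕ) : ℚ[X]).Separable := by
    have e : (X ^ 4 + ∑ i, C ((g i).coeff (10 * (4 - (i : ℕ)))) * X ^ (i : ℕ) : ℚ[X])
        = X ^ 4 - C (6 * hh) * X ^ 2 - C (8 * tt) * X - C (3 * hh ^ 2) := by
      simp [Fin.sum_univ_four, g, coeff_ofNat_mul, ← coeff_pow_of_natDegree_le hdH, hhdef, httdef,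
        map_neg, map_mul, map_ofNat]
      ring
    rw [e, separable_def]
    refine (Polynomial.isCoprime_iff_aeval_ne_zero_of_isAlgClosed (k := ℚ) Qbar _ _).mpr
      fun r => ?_
    by_contra hcon
    simp only [not_or, not_not] at hcon
    obtain ⟨e1, e2⟩ := hcon
    rw [aeval_def, eval₂_eq_eval_map] at e1 e2
    rw [← derivative_map] at e2
    simp only [Polynomial.map_sub, Polynomial.map_mul, Polynomial.map_pow, map_X, map_C,
      derivative_sub, derivative_mul, derivative_C, derivative_X, eval_sub,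
      eval_mul, eval_pow, eval_X, eval_C, zero_mul, mul_one, zero_add,
      sub_zero, map_mul, map_pow, map_ofNat, Nat.cast_ofNat, Nat.reduceSub, pow_one,
      eval_ofNat, Polynomial.map_ofNat, mul_zero, add_zero, derivative_ofNat, derivative_pow] at e1 e2
    set h := algebraMap ℚ Qbar hh
    set t := algebraMap ℚ Qbar tt
    have hc : r ^ 3 - 3 * h * r - 2 * t = 0 := by linear_combination (1 / 4 : Qbar) * e2
    have he : h * r ^ 2 + 2 * t * r + h ^ 2 = 0 := by
      linear_combination (r / 3) * hc - (1 / 3 : Qbar) * e1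
    have key : 4 * r * (t ^ 2 - h ^ 3) = 0 := by
      linear_combination h ^ 2 * hc - (h * r - 2 * t) * he
    rcases mul_eq_zero.mp key with hr | hd
    · have hr' : r = 0 := by simpa using hr
      subst hr'
      have h0' : h = 0 := by simpa using he
      have t0 : t = 0 := by simpa [h0'] using hc
      apply hdis
      apply hι
      simp only [map_pow]
      rw [show algebraMap ℚ Qbar hh = h from rfl, show algebraMap ℚ Qbar tt = t from rfl, h0', t0]
      simp
    · exact hdis (hι (by rw [map_pow, map_pow]; linear_combination -hd))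
  have hno : ∀ P : ℚ[X], P.natDegree ≤ 10 → P ^ 4 + ∑ i, g i * P ^ (i : ℕ) ≠ 0 := by
    intro P hP h
    have h' := congrArg (Polynomial.map (algebraMap ℚ Qbar)) h
    refine quartic_no_root_line (K := Qbar) (a₁ := u + r₁ * A) (a₂ := v + r₂ * A) (b₁ := r₁ * B)
      (b₂ := r₂ * B) ?_ (P.map (algebraMap ℚ Qbar)) (natDegree_map_le.trans hP) ?_
    · rw [show (v + r₂ * A) * (r₁ * B) - (u + r₁ * A) * (r₂ * B) = (v * r₁ - u * r₂) * B by ring]
      exact mul_ne_zero hdet hMQ
    · simp only [Fin.sum_univ_four, g, Matrix.cons_val_zero, Matrix.cons_val_one, Matrix.cons_val,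
        Fin.isValue, Fin.val_zero, Fin.val_one, Fin.val_two, pow_zero, mul_one, pow_one, zero_mul,
        add_zero, Polynomial.map_add, Polynomial.map_mul, Polynomial.map_pow, Polynomial.map_neg,
        Polynomial.map_ofNat, Polynomial.map_zero, hmapH, hmapT] at h'
      rw [← h']
      simp only [quartic]
      ring
  obtain ⟨n, -, hn⟩ := exists_int_no_root g hdeg hsep hno 0
  refine ⟨n, fun x hx => hn x ?_⟩
  simp only [quartic] at hx
  simp only [Fin.sum_univ_four, g, Matrix.cons_val_zero, Matrix.cons_val_one, Matrix.cons_val,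
    Fin.isValue, Fin.val_zero, Fin.val_one, Fin.val_two, pow_zero, mul_one, pow_one, eval_neg,
    eval_mul, eval_pow, eval_ofNat, eval_comp, eval_zero, zero_mul, add_zero, l, eval_add, eval_C,
    eval_X]
  linear_combination hx

/-- The member at `t` has the same `5`-torsion Galois module. -/
theorem exists_member_equiv (E : WeierstrassCurve ℚ)
    (d : LineData E.c₄ E.c₆ u v r₁ r₂ qH qT qD) (t : ℚ) (ht : qD.eval t ≠ 0)
    (E' : WeierstrassCurve ℚ) (hE' : E' = twist E (qH.eval t) (qT.eval t)) :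
    ∃ φ : Submodule.torsionBy ℤ (E⁄Qbar).Point (5 : ℕ) ≃+
        Submodule.torsionBy ℤ (E'⁄Qbar).Point (5 : ℕ),
      ∀ (σ : Qbar ≃ₐ[ℚ] Qbar) x, φ (σ • x) = σ • φ x := by
  have hevD := d.eval_qD t
  have hevH := d.eval_qH
  have hevT := d.eval_qT
  obtain ⟨hH, hT, hf, -, -, -, -, -, hsym⟩ := d
  set a := u + r₁ * algebraMap ℚ Qbar t with ha
  set b := v + r₂ * algebraMap ℚ Qbar t with hb
  have hfz : kf a b ≠ 0 := by
    rw [← hevD]
    exact mul_ne_zero hf (by simpa using ht)
  obtain ⟨φ, hφ⟩ := exists_torsion_equiv E u v a b hf hfz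
  have hbase : (genCurve E).map (evalAt u v) = E⁄Qbar := by
    rw [map_genCurve_evalAt, hH, hT, twist_self]
    rfl
  have hmem' : (genCurve E).map (evalAt a b) = E'⁄Qbar := by
    rw [map_genCurve_evalAt]
    show _ = E'.map (algebraMap ℚ Qbar)
    rw [hE', map_twist, hevH, hevT]
  let A := torsionCongr hbase
  let B := torsionCongr hmem'
  refine ⟨A.symm.trans (φ.trans B), fun σ x => ?_⟩
  obtain ⟨g', hg', hu, hv, hr1, hr2⟩ := hsym σ
  let s : Qbar →+* Qbar := σ.toRingEquiv.toRingHom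
  have hst : s (algebraMap ℚ Qbar t) = algebraMap ℚ Qbar t := σ.commutes t
  obtain ⟨y, rfl⟩ := A.surjective x
  obtain ⟨y', hy'⟩ := A.surjective (σ • A y)
  have hconj : IsConjPoint s y.1 y'.1 := by
    rw [← IsConjPoint.pointCongr_iff hbase]
    show IsConjPoint s (A y).1 (A y').1
    rw [hy']
    exact isConjPoint_smul E σ (A y).1
  have h2 := hφ s g' hg'.hH hg'.hT hu hv
    (by rw [ha, map_add, map_mul, hst, show s u = _ from hu, show s r₁ = _ from hr1]
        simp only [Lin.fu]; ring)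
    (by rw [hb, map_add, map_mul, hst, show s v = _ from hv, show s r₂ = _ from hr2]
        simp only [Lin.fv]; ring)
    y y' hconj
  simp only [← hy', AddEquiv.trans_apply, AddEquiv.symm_apply_apply]
  apply Subtype.ext
  have h3 : IsConjPoint s (B (φ y)).1 (B (φ y')).1 :=
    (IsConjPoint.pointCongr_iff hmem' s _ _).mpr h2
  exact h3.unique (isConjPoint_smul _ σ (B (φ y)).1)

end LineData

end FLTA.Elliptic.Switch
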