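import Fermat.Agent.Elliptic.Switch.Forms

/-!
# The fixed point of order five on Klein's family

For a primitive fifth root of unity `ζ`, the forms `kX ζ`, `kY ζ` of degrees 10 and 15 give a point
of order five on `Y² = X³ - 27 H X - 54 T`; its double is the point attached to `ζ²`.
-/

set_option autoImplicit false
set_option linter.unusedSimpArgs false
set_option linter.unusedSectionVars false

namespace FLTA.Elliptic.Switch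

variable {F : Type*} [Field F] [CharZero F]

/-- Five times the abscissa, over an arbitrary ring. -/
def kXn {R : Type*} [CommRing R] (ζ u v : R) : R :=
  (-57 + 36 * (ζ ^ 2 + ζ ^ 3)) * v ^ 10 + (-198 - 396 * (ζ ^ 2 + ζ ^ 3)) * (u ^ 5 * v ^ 5)
    + (-93 - 36 * (ζ ^ 2 + ζ ^ 3)) * u ^ 10

theorem map_kXn {R S : Type*} [CommRing R] [CommRing S] (f : R →+* S) (ζ u v : R) :
    f (kXn ζ u v) = kXn (f ζ) (f u) (f v) := by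
  simp [kXn, map_ofNat]

/-- The abscissa, a form of degree 10. -/
def kX (ζ u v : F) : F := kXn ζ u v / 5

/-- The ordinate, a form of degree 15. -/
def kY (ζ u v : F) : F :=
  ((-216 - 432 * ζ - 324 * ζ ^ 2 - 108 * ζ ^ 3) * v ^ 15
    + (2484 + 4968 * ζ + 3456 * ζ ^ 2 + 1512 * ζ ^ 3) * (u ^ 5 * v ^ 10)
    + (-972 - 1944 * ζ + 1512 * ζ ^ 2 - 3456 * ζ ^ 3) * (u ^ 10 * v ^ 5)
    + (-108 - 216 * ζ + 108 * ζ ^ 2 - 324 * ζ ^ 3) * u ^ 15) / 5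

/-- Half the tangent slope, a form of degree 5. -/
def kLam (ζ u v : F) : F :=
  ((21 + 42 * ζ + 18 * ζ ^ 2 + 24 * ζ ^ 3) * v ^ 5
    + (-3 - 6 * ζ - 24 * ζ ^ 2 + 18 * ζ ^ 3) * u ^ 5) / 5

variable {ζ : F}

theorem five_pow (hζ : 1 + ζ + ζ ^ 2 + ζ ^ 3 + ζ ^ 4 = 0) : ζ ^ 5 = 1 := by
  linear_combination (ζ - 1) * hζ

theorem zeta_powers (hζ : 1 + ζ + ζ ^ 2 + ζ ^ 3 + ζ ^ 4 = 0) :
    ζ ^ 4 = -1 - ζ - ζ ^ 2 - ζ ^ 3 ∧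
      ζ ^ 5 = 1 ∧
      ζ ^ 6 = ζ ∧
      ζ ^ 7 = ζ ^ 2 ∧
      ζ ^ 8 = ζ ^ 3 ∧
      ζ ^ 9 = -1 - ζ - ζ ^ 2 - ζ ^ 3 ∧
      ζ ^ 10 = 1 ∧
      ζ ^ 11 = ζ ∧
      ζ ^ 12 = ζ ^ 2 ∧
      ζ ^ 13 = ζ ^ 3 ∧
      ζ ^ 14 = -1 - ζ - ζ ^ 2 - ζ ^ 3 ∧
      ζ ^ 15 = 1 ∧
      ζ ^ 16 = ζ ∧
      ζ ^ 17 = ζ ^ 2 ∧
      ζ ^ 18 = ζ ^ 3 ∧
      ζ ^ 19 = -1 - ζ - ζ ^ 2 - ζ ^ 3 ∧
      ζ ^ 20 = 1 ∧
      ζ ^ 21 = ζ ∧
      ζ ^ 22 = ζ ^ 2 ∧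
      ζ ^ 23 = ζ ^ 3 ∧
      ζ ^ 24 = -1 - ζ - ζ ^ 2 - ζ ^ 3 ∧
      ζ ^ 25 = 1 ∧
      ζ ^ 26 = ζ ∧
      ζ ^ 27 = ζ ^ 2 ∧
      ζ ^ 28 = ζ ^ 3 ∧
      ζ ^ 29 = -1 - ζ - ζ ^ 2 - ζ ^ 3 ∧
      ζ ^ 30 = 1 ∧
      ζ ^ 31 = ζ ∧
      ζ ^ 32 = ζ ^ 2 ∧
      ζ ^ 33 = ζ ^ 3 ∧
      ζ ^ 34 = -1 - ζ - ζ ^ 2 - ζ ^ 3 ∧
      ζ ^ 35 = 1 ∧
      ζ ^ 36 = ζ := by
  have h5 := five_pow hζ
  refine ⟨?_, ?_, ?_, ?_, ?_, ?_, ?_, ?_, ?_, ?_, ?_, ?_, ?_, ?_, ?_, ?_, ?_, ?_, ?_, ?_, ?_, ?_, ?_, ?_, ?_, ?_, ?_, ?_, ?_, ?_, ?_, ?_, ?_⟩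
  · linear_combination hζ
  · rw [pow_eq_pow_mod 5 h5]; norm_num
  · rw [pow_eq_pow_mod 6 h5]; norm_num
  · rw [pow_eq_pow_mod 7 h5]
  · rw [pow_eq_pow_mod 8 h5]
  · rw [pow_eq_pow_mod 9 h5]; norm_num; linear_combination hζ
  · rw [pow_eq_pow_mod 10 h5]; norm_num
  · rw [pow_eq_pow_mod 11 h5]; norm_num
  · rw [pow_eq_pow_mod 12 h5]
  · rw [pow_eq_pow_mod 13 h5]
  · rw [pow_eq_pow_mod 14 h5]; norm_num; linear_combination hζ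
  · rw [pow_eq_pow_mod 15 h5]; norm_num
  · rw [pow_eq_pow_mod 16 h5]; norm_num
  · rw [pow_eq_pow_mod 17 h5]
  · rw [pow_eq_pow_mod 18 h5]
  · rw [pow_eq_pow_mod 19 h5]; norm_num; linear_combination hζ
  · rw [pow_eq_pow_mod 20 h5]; norm_num
  · rw [pow_eq_pow_mod 21 h5]; norm_num
  · rw [pow_eq_pow_mod 22 h5]
  · rw [pow_eq_pow_mod 23 h5]
  · rw [pow_eq_pow_mod 24 h5]; norm_num; linear_combination hζ
  · rw [pow_eq_pow_mod 25 h5]; norm_num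
  · rw [pow_eq_pow_mod 26 h5]; norm_num
  · rw [pow_eq_pow_mod 27 h5]
  · rw [pow_eq_pow_mod 28 h5]
  · rw [pow_eq_pow_mod 29 h5]; norm_num; linear_combination hζ
  · rw [pow_eq_pow_mod 30 h5]; norm_num
  · rw [pow_eq_pow_mod 31 h5]; norm_num
  · rw [pow_eq_pow_mod 32 h5]
  · rw [pow_eq_pow_mod 33 h5]
  · rw [pow_eq_pow_mod 34 h5]; norm_num; linear_combination hζ
  · rw [pow_eq_pow_mod 35 h5]; norm_num
  · rw [pow_eq_pow_mod 36 h5]; norm_num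

theorem kY_sq (hζ : 1 + ζ + ζ ^ 2 + ζ ^ 3 + ζ ^ 4 = 0) (u v : F) :
    kY ζ u v ^ 2 = kX ζ u v ^ 3 - 27 * kH u v * kX ζ u v - 54 * kT u v := by
  obtain ⟨h4, h5, h6, h7, h8, h9, h10, h11, h12, h13, h14, h15, h16, h17, h18, h19, h20, h21, h22, h23, h24, h25, h26, h27, h28, h29, h30, h31, h32, h33, h34, h35, h36⟩ := zeta_powers hζ
  simp only [kY, kX, kXn, kH, kT]
  ring_nf
  simp only [h4, h5, h6, h7, h8, h9, h10, h11, h12, h13, h14, h15, h16, h17, h18, h19, h20, h21, h22, h23, h24, h25, h26, h27, h28, h29, h30, h31, h32, h33, h34, h35, h36]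
  ring

theorem kLam_mul (hζ : 1 + ζ + ζ ^ 2 + ζ ^ 3 + ζ ^ 4 = 0) (u v : F) :
    kLam ζ u v * (2 * kY ζ u v) = 3 * kX ζ u v ^ 2 - 27 * kH u v := by
  obtain ⟨h4, h5, h6, h7, h8, h9, h10, h11, h12, h13, h14, h15, h16, h17, h18, h19, h20, h21, h22, h23, h24, h25, h26, h27, h28, h29, h30, h31, h32, h33, h34, h35, h36⟩ := zeta_powers hζ
  simp only [kLam, kY, kX, kXn, kH]
  ring_nf
  simp only [h4, h5, h6, h7, h8, h9, h10, h11, h12, h13, h14, h15, h16, h17, h18, h19, h20, h21, h22, h23, h24, h25, h26, h27, h28, h29, h30, h31, h32, h33, h34, h35, h36]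
  ring

theorem kX_double (hζ : 1 + ζ + ζ ^ 2 + ζ ^ 3 + ζ ^ 4 = 0) (u v : F) :
    kX (ζ ^ 2) u v = kLam ζ u v ^ 2 - 2 * kX ζ u v := by
  obtain ⟨h4, h5, h6, h7, h8, h9, h10, h11, h12, h13, h14, h15, h16, h17, h18, h19, h20, h21, h22, h23, h24, h25, h26, h27, h28, h29, h30, h31, h32, h33, h34, h35, h36⟩ := zeta_powers hζ
  simp only [kLam, kX, kXn]
  ring_nf
  simp only [h4, h5, h6, h7, h8, h9, h10, h11, h12, h13, h14, h15, h16, h17, h18, h19, h20, h21, h22, h23, h24, h25, h26, h27, h28, h29, h30, h31, h32, h33, h34, h35, h36]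
  ring

theorem kY_double (hζ : 1 + ζ + ζ ^ 2 + ζ ^ 3 + ζ ^ 4 = 0) (u v : F) :
    kY (ζ ^ 2) u v = -(kLam ζ u v * (kX (ζ ^ 2) u v - kX ζ u v) + kY ζ u v) := by
  obtain ⟨h4, h5, h6, h7, h8, h9, h10, h11, h12, h13, h14, h15, h16, h17, h18, h19, h20, h21, h22, h23, h24, h25, h26, h27, h28, h29, h30, h31, h32, h33, h34, h35, h36⟩ := zeta_powers hζ
  simp only [kLam, kX, kXn, kY]
  ring_nf
  simp only [h4, h5, h6, h7, h8, h9, h10, h11, h12, h13, h14, h15, h16, h17, h18, h19, h20, h21, h22, h23, h24, h25, h26, h27, h28, h29, h30, h31, h32, h33, h34, h35, h36]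
  ring

theorem kX_inv (hζ : 1 + ζ + ζ ^ 2 + ζ ^ 3 + ζ ^ 4 = 0) (u v : F) :
    kX (ζ ^ 4) u v = kX ζ u v := by
  obtain ⟨h4, h5, h6, h7, h8, h9, h10, h11, h12, h13, h14, h15, h16, h17, h18, h19, h20, h21, h22, h23, h24, h25, h26, h27, h28, h29, h30, h31, h32, h33, h34, h35, h36⟩ := zeta_powers hζ
  simp only [kX, kXn]
  ring_nf
  simp only [h4, h5, h6, h7, h8, h9, h10, h11, h12, h13, h14, h15, h16, h17, h18, h19, h20, h21, h22, h23, h24, h25, h26, h27, h28, h29, h30, h31, h32, h33, h34, h35, h36]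
  ring

theorem kY_inv (hζ : 1 + ζ + ζ ^ 2 + ζ ^ 3 + ζ ^ 4 = 0) (u v : F) :
    kY (ζ ^ 4) u v = -kY ζ u v := by
  obtain ⟨h4, h5, h6, h7, h8, h9, h10, h11, h12, h13, h14, h15, h16, h17, h18, h19, h20, h21, h22, h23, h24, h25, h26, h27, h28, h29, h30, h31, h32, h33, h34, h35, h36⟩ := zeta_powers hζ
  simp only [kY]
  ring_nf
  simp only [h4, h5, h6, h7, h8, h9, h10, h11, h12, h13, h14, h15, h16, h17, h18, h19, h20, h21, h22, h23, h24, h25, h26, h27, h28, h29, h30, h31, h32, h33, h34, h35, h36]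
  ring

theorem kXn_golden (hζ : 1 + ζ + ζ ^ 2 + ζ ^ 3 + ζ ^ 4 = 0) :
    kXn ζ (golden ζ) (-1) = -15 * (golden ζ + 2) ^ 5 := by
  obtain ⟨h4, h5, h6, h7, h8, h9, h10, h11, h12, h13, h14, h15, h16, h17, h18, h19, h20, h21, h22, h23, h24, h25, h26, h27, h28, h29, h30, h31, h32, h33, h34, h35, h36⟩ := zeta_powers hζ
  simp only [kXn, golden]
  ring_nf
  simp only [h4, h5, h6, h7, h8, h9, h10, h11, h12, h13, h14, h15, h16, h17, h18, h19, h20, h21, h22, h23, h24, h25, h26, h27, h28, h29, h30, h31, h32, h33, h34, h35, h36]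
  ring

end FLTA.Elliptic.Switch
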