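import Fermat.Agent.Elliptic.Switch.NoPolyRoot
import Fermat.Agent.EllReducible.Line
import Fermat.Agent.EllReducible.IntegralTorsion
import Fermat.Agent.EllTorsion.MulFormula

/-!
# A criterion for irreducibility of the mod `3` representation

If the three-division quartic in `c₄, c₆` has no integer root, there is no Galois stable line in
`E[3]`: the `x`-coordinate of a point on such a line would be rational.
-/

set_option autoImplicit false

open WeierstrassCurve WeierstrassCurve.Affine WeierstrassCurve.Affine.Point Polynomial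
open FLTA.EllReducible

open scoped WeierstrassCurve.Affine

namespace FLTA.Elliptic.Switch

local notation "Qbar" => AlgebraicClosure ℚ

theorem quartic_eq_Ψ₃ {R : Type*} [CommRing R] (W : WeierstrassCurve R) (X₀ : R) :
    quartic W.c₄ W.c₆ (12 * X₀ + W.b₂) = 6912 * W.Ψ₃.eval X₀ := by
  simp only [quartic, WeierstrassCurve.Ψ₃, WeierstrassCurve.c₄, WeierstrassCurve.c₆,
    WeierstrassCurve.b₂, WeierstrassCurve.b₄, WeierstrassCurve.b₆, WeierstrassCurve.b₈,
    eval_add, eval_mul, eval_pow, eval_C, eval_X, eval_ofNat]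
  ring

theorem zmod_three_cases : ∀ b : ZMod 3, b = 0 ∨ b = 1 ∨ b = -1 := by decide

/-- A rational root of the monic quartic with integer coefficients is an integer. -/
theorem exists_int_quartic_root {h τ : ℤ} {r : ℚ} (hr : quartic (h : ℚ) (τ : ℚ) r = 0) :
    ∃ x : ℤ, quartic h τ x = 0 := by
  have hint : IsIntegral ℤ r := by
    refine ⟨Polynomial.X ^ 4 - C (6 * h) * Polynomial.X ^ 2 - C (8 * τ) * Polynomial.X
      - C (3 * h ^ 2), by monicity!, ?_⟩
    simp only [quartic] at hr
    simp only [eval₂_sub, eval₂_mul, eval₂_X_pow, eval₂_C, eval₂_X, algebraMap_int_eq,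
      Int.coe_castRingHom]
    push_cast
    linear_combination hr
  obtain ⟨x, hx⟩ := IsIntegrallyClosed.isIntegral_iff.1 hint
  refine ⟨x, (Int.cast_injective (α := ℚ)) ?_⟩
  rw [← hx] at hr
  simpa [quartic] using hr

theorem modThree_irreducible_of_no_root (W : WeierstrassCurve ℤ) (hΔ : W.Δ ≠ 0)
    (h : ∀ x : ℤ, quartic W.c₄ W.c₆ x ≠ 0) : W.ModRepIsIrreducible 3 := by
  by_contra hred
  set E := W.map (Int.castRingHom ℚ) with hE
  have hE0 : E.Δ ≠ 0 := by rw [hE, WeierstrassCurve.map_Δ]; simpa using hΔ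
  obtain ⟨N, hN⟩ := exists_stableLine E hE0 Nat.prime_three hred
  have : Fact (Nat.Prime 3) := ⟨Nat.prime_three⟩
  have hfin := finite_tors E hE0 Nat.prime_three
  obtain ⟨v, hv, hv0⟩ := N.ne_bot_iff.1 hN.ne_bot
  -- every element of the line is a multiple of `v`
  have hline : ∀ w ∈ N, ∃ a : ZMod 3, w = a • v := by
    have hNfr : Module.finrank (ZMod 3) N = 1 := by
      have h1 := Submodule.finrank_lt hN.ne_top
      rw [finrank_tors E hE0] at h1
      have : Module.finrank (ZMod 3) N ≠ 0 := by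
        rw [Ne, Submodule.finrank_eq_zero]; exact hN.ne_bot
      omega
    intro w hw
    obtain ⟨a, ha⟩ := exists_smul_eq_of_finrank_eq_one hNfr
      (x := (⟨v, hv⟩ : N)) (fun h0 => hv0 (congrArg Subtype.val h0)) ⟨w, hw⟩
    exact ⟨a, (congrArg Subtype.val ha).symm⟩
  obtain ⟨P, hP⟩ := v
  rcases P with _ | ⟨x, y, hns⟩
  · exact hv0 (Subtype.ext rfl)
  -- `x` is fixed by Galois
  have hfix : ∀ σ : Qbar ≃ₐ[ℚ] Qbar, σ x = x := by
    intro σ
    obtain ⟨a, ha⟩ := hline _ (hN.stable σ _ hv)
    have key : σ • (Affine.Point.some x y hns : (E⁄Qbar).Point)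
        = Affine.Point.some x y hns ∨
        σ • (Affine.Point.some x y hns : (E⁄Qbar).Point) = -Affine.Point.some x y hns ∨
        σ • (Affine.Point.some x y hns : (E⁄Qbar).Point) = 0 := by
      set V : Tors E 3 := ⟨Affine.Point.some x y hns, hP⟩ with hV
      have hcase : a = 0 ∨ a = 1 ∨ a = -1 :=
        zmod_three_cases a
      rcases hcase with rfl | rfl | rfl
      · exact Or.inr (Or.inr (congrArg Subtype.val (ha.trans (zero_smul _ V))))
      · exact Or.inl (congrArg Subtype.val (ha.trans (one_smul _ V)))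
      · exact Or.inr (Or.inl (congrArg Subtype.val (ha.trans (neg_one_smul _ V))))
    rw [algEquiv_smul_def, Affine.Point.map_some] at key
    rcases key with k | k | k
    · exact (Affine.Point.some.inj k).1
    · rw [Affine.Point.neg_some] at k
      exact (Affine.Point.some.inj k).1
    · exact absurd k (Affine.Point.some_ne_zero _)
  have : IsGalois ℚ Qbar := isGalois_qbar
  obtain ⟨X₀, hX₀⟩ := (InfiniteGalois.mem_range_algebraMap_iff_fixed (k := ℚ) x).2 hfix
  have hell : (E⁄Qbar).IsElliptic := ⟨by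
    show IsUnit (E.map (algebraMap ℚ Qbar)).Δ
    rw [WeierstrassCurve.map_Δ, isUnit_iff_ne_zero]
    exact (map_ne_zero (algebraMap ℚ Qbar)).2 hE0⟩
  have h3 : 3 • (Affine.Point.some x y hns : (E⁄Qbar).Point) = 0 := by
    rw [Submodule.mem_torsionBy_iff] at hP
    rwa [← natCast_zsmul]
  have hΨ := (EllTorsion.nsmul_eq_zero_iff_of_odd hns (by decide : Odd 3)).1 h3
  rw [preΨ'_three] at hΨ
  have hΨ' : E.Ψ₃.eval X₀ = 0 := by
    apply (algebraMap ℚ Qbar).injective
    rw [_root_.map_zero, ← hΨ, ← eval₂_at_apply, ← eval_map, ← WeierstrassCurve.map_Ψ₃, hX₀]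
    rfl
  have hq : quartic (W.c₄ : ℚ) (W.c₆ : ℚ) (12 * X₀ + (W.b₂ : ℚ)) = 0 := by
    have := quartic_eq_Ψ₃ E X₀
    rw [hΨ', mul_zero] at this
    simpa [hE] using this
  obtain ⟨r, hr⟩ := exists_int_quartic_root hq
  exact h r hr

end FLTA.Elliptic.Switch
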