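import Mathlib
import Fermat.Prelude.Def_FLTPrelim_Modularity

/-!
# Semistable integral members of a polynomial family

If the discriminant of a family through the semistable curve `W` is `Δ D ^ 5` with `D (0) = 1` and
`c₄` is coprime to `D`, then all members with parameter divisible by a suitable `M` have semistable
integral models congruent to `W`.
-/

set_option autoImplicit false

open Polynomial

namespace FLTA.Elliptic.Switch

/-- Finitely many rational polynomials become integral after multiplication by one natural. -/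
theorem exists_common_denom (l : List ℚ[X]) :
    ∃ N : ℕ, 0 < N ∧ ∀ p ∈ l, ∃ q : ℤ[X], q.map (Int.castRingHom ℚ) = C (N : ℚ) * p := by
  induction l with
  | nil => exact ⟨1, one_pos, by simp⟩
  | cons p l ih =>
    obtain ⟨N, hN, hl⟩ := ih
    obtain ⟨b, hb, hp⟩ := IsLocalization.integerNormalization_spec (nonZeroDivisors ℤ) p
    refine ⟨b.natAbs * N, Nat.mul_pos (Int.natAbs_pos.2 (nonZeroDivisors.ne_zero hb)) hN, ?_⟩
    intro r hr
    rcases List.mem_cons.1 hr with rfl | hr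
    · refine ⟨C (b.sign * N) * IsLocalization.integerNormalization (nonZeroDivisors ℤ) r, ?_⟩
      rw [algebraMap_int_eq] at hp
      have hb' : ((b.natAbs * N : ℕ) : ℚ) = ((b.sign * N : ℤ) : ℚ) * (b : ℚ) := by
        rw [← Int.cast_natCast (R := ℚ) (b.natAbs * N), ← Int.cast_mul]
        congr 1
        push_cast
        rw [← Int.sign_mul_self_eq_abs]; ring
      have hbr : b • r = C (b : ℚ) * r := by rw [← smul_eq_C_mul, Int.cast_smul_eq_zsmul]
      rw [Polynomial.map_mul, hp, map_C, hb', hbr, ← mul_assoc, ← map_mul]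
      simp
    · obtain ⟨q, hq⟩ := hl r hr
      refine ⟨C (b.natAbs : ℤ) * q, ?_⟩
      rw [Polynomial.map_mul, hq, map_C, ← mul_assoc, ← map_mul]
      push_cast; simp

/-- A polynomial integral at `0` takes at `L * N * n` values congruent to that modulo `L`. -/
theorem exists_eval_eq_add {p : ℚ[X]} {q : ℤ[X]} {N : ℕ} (hN : 0 < N)
    (hq : q.map (Int.castRingHom ℚ) = C (N : ℚ) * p) {a : ℤ} (ha : p.eval 0 = a) (L n : ℤ) :
    ∃ z : ℤ, p.eval (((L * N) * n : ℤ) : ℚ) = ((a + L * z : ℤ) : ℚ) := by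
  obtain ⟨r, hr⟩ : (X : ℤ[X]) ∣ q - C ((N : ℤ) * a) := by
    rw [X_dvd_iff, coeff_sub, coeff_C_zero, sub_eq_zero]
    apply Int.cast_injective (α := ℚ)
    have := congrArg (fun f : ℚ[X] => f.coeff 0) hq
    simp only [coeff_map, coeff_C_mul, coeff_zero_eq_eval_zero p, ha] at this
    simpa using this
  rw [sub_eq_iff_eq_add] at hr
  refine ⟨n * r.eval ((L * N) * n), ?_⟩
  have h := congrArg (eval (((L * N) * n : ℤ) : ℚ)) hq
  rw [hr] at h
  rw [eval_mul, eval_C, Polynomial.map_add, Polynomial.map_mul, map_C, map_X, eval_add, eval_mul,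
    eval_X, eval_C] at h
  have hev : (r.map (Int.castRingHom ℚ)).eval (((L * N) * n : ℤ) : ℚ)
      = ((r.eval ((L * N) * n) : ℤ) : ℚ) := Polynomial.eval_intCast_map _ _ _
  rw [hev] at h
  apply mul_left_cancel₀ (show (N : ℚ) ≠ 0 by exact_mod_cast hN.ne')
  rw [← h]
  simp only [Int.coe_castRingHom]
  push_cast
  ring

/-- Semistable integral models in a family through `W`. -/
theorem exists_semistable_members (W : WeierstrassCurve ℤ) (hΔ : W.Δ ≠ 0)
    (hW : W.IsSemistableModel) (Wt : WeierstrassCurve ℚ[X])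
    (h1 : Wt.a₁ = C (W.a₁ : ℚ)) (h2 : Wt.a₂ = C (W.a₂ : ℚ)) (h3 : Wt.a₃ = C (W.a₃ : ℚ))
    (h4 : Wt.a₄.eval 0 = (W.a₄ : ℚ)) (h6 : Wt.a₆.eval 0 = (W.a₆ : ℚ))
    (D : ℚ[X]) (hD0 : D.eval 0 = 1) (hD : Wt.Δ = C (W.Δ : ℚ) * D ^ 5)
    (hcop : IsCoprime Wt.c₄ D) (K : ℕ) (hK : 0 < K) :
    ∃ M : ℕ, 0 < M ∧ K ∣ M ∧ ∀ n : ℤ, ∃ W' : WeierstrassCurve ℤ,
      W'.map (Int.castRingHom ℚ) = Wt.map (evalRingHom (((M : ℤ) * n : ℤ) : ℚ)) ∧
      W'.IsSemistableModel ∧
      W'.map (Int.castRingHom (ZMod K)) = W.map (Int.castRingHom (ZMod K)) := by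
  obtain ⟨U, V, hUV⟩ := hcop
  obtain ⟨N, hN, hden⟩ := exists_common_denom [Wt.a₄, Wt.a₆, D, U, V]
  obtain ⟨q4, hq4⟩ := hden Wt.a₄ (by simp)
  obtain ⟨q6, hq6⟩ := hden Wt.a₆ (by simp)
  obtain ⟨qD, hqD⟩ := hden D (by simp)
  obtain ⟨qU, hqU⟩ := hden U (by simp)
  obtain ⟨qV, hqV⟩ := hden V (by simp)
  set L : ℕ := K * W.Δ.natAbs * N with hL
  have hLpos : 0 < L := Nat.mul_pos (Nat.mul_pos hK (Int.natAbs_pos.2 hΔ)) hN
  refine ⟨L * N, Nat.mul_pos hLpos hN,
    dvd_mul_of_dvd_left (dvd_mul_of_dvd_left (dvd_mul_right _ _) _) _, fun n => ?_⟩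
  obtain ⟨z4, hz4⟩ := exists_eval_eq_add hN hq4 h4 (L : ℤ) n
  obtain ⟨z6, hz6⟩ := exists_eval_eq_add hN hq6 h6 (L : ℤ) n
  obtain ⟨zD, hzD⟩ := exists_eval_eq_add (a := 1) hN hqD (by simpa using hD0) (L : ℤ) n
  set W' : WeierstrassCurve ℤ := ⟨W.a₁, W.a₂, W.a₃, W.a₄ + L * z4, W.a₆ + L * z6⟩ with hW'
  set t : ℚ := ((((L * N : ℕ) : ℤ) * n : ℤ) : ℚ) with ht
  have ht' : t = (((L : ℤ) * N * n : ℤ) : ℚ) := by rw [ht]; push_cast; ring
  have hmap : W'.map (Int.castRingHom ℚ) = Wt.map (evalRingHom t) := by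
    ext <;> simp only [hW', WeierstrassCurve.map_a₁, WeierstrassCurve.map_a₂,
      WeierstrassCurve.map_a₃, WeierstrassCurve.map_a₄, WeierstrassCurve.map_a₆, coe_evalRingHom,
      Int.coe_castRingHom, h1, h2, h3, eval_C]
    · rw [ht', hz4]
    · rw [ht', hz6]
  have hcong : ∀ {R : Type} [CommRing R] (φ : ℤ →+* R), φ (L : ℤ) = 0 → W'.map φ = W.map φ := by
    intro R _ φ hφ
    ext <;> simp only [hW', WeierstrassCurve.map_a₁, WeierstrassCurve.map_a₂,
      WeierstrassCurve.map_a₃, WeierstrassCurve.map_a₄, WeierstrassCurve.map_a₆, map_add, map_mul,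
      hφ, zero_mul, add_zero]
  refine ⟨W', hmap, ?_, hcong _ ?_⟩
  · intro p hp hpΔ hpc
    by_cases hpL : p ∣ L
    · have e := hcong (Int.castRingHom (ZMod p)) (by
        simpa [ZMod.natCast_eq_zero_iff] using hpL)
      have eΔ := congrArg WeierstrassCurve.Δ e
      have ec := congrArg WeierstrassCurve.c₄ e
      rw [WeierstrassCurve.map_Δ, WeierstrassCurve.map_Δ] at eΔ
      rw [WeierstrassCurve.map_c₄, WeierstrassCurve.map_c₄] at ec
      simp only [Int.coe_castRingHom] at eΔ ec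
      rw [(ZMod.intCast_zmod_eq_zero_iff_dvd W'.Δ p).2 hpΔ] at eΔ
      rw [(ZMod.intCast_zmod_eq_zero_iff_dvd W'.c₄ p).2 hpc] at ec
      exact hW p hp ((ZMod.intCast_zmod_eq_zero_iff_dvd _ _).1 eΔ.symm)
        ((ZMod.intCast_zmod_eq_zero_iff_dvd _ _).1 ec.symm)
    · have hΔ' : W'.Δ = W.Δ * (1 + L * zD) ^ 5 := by
        apply Int.cast_injective (α := ℚ)
        have e := congrArg WeierstrassCurve.Δ hmap
        rw [WeierstrassCurve.map_Δ, WeierstrassCurve.map_Δ, hD] at e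
        simp only [Int.coe_castRingHom, coe_evalRingHom, eval_mul, eval_C, eval_pow] at e
        rw [e, ht', hzD]; push_cast; ring
      have hpD : (p : ℤ) ∣ 1 + L * zD := by
        have hp' := Nat.prime_iff_prime_int.1 hp
        rcases hp'.dvd_or_dvd (hΔ' ▸ hpΔ) with h | h
        · exact absurd (dvd_mul_of_dvd_left (dvd_mul_of_dvd_right
            (Int.natCast_dvd.1 h) K) N) hpL
        · exact hp'.dvd_of_dvd_pow h
      have hN' : (N : ℤ) = qU.eval ((L : ℤ) * N * n) * W'.c₄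
          + qV.eval ((L : ℤ) * N * n) * (1 + L * zD) := by
        apply Int.cast_injective (α := ℚ)
        have e := congrArg WeierstrassCurve.c₄ hmap
        rw [WeierstrassCurve.map_c₄, WeierstrassCurve.map_c₄] at e
        simp only [Int.coe_castRingHom, coe_evalRingHom] at e
        have hu := congrArg (eval t) hqU
        have hv := congrArg (eval t) hqV
        rw [ht', Polynomial.eval_intCast_map, eval_mul, eval_C] at hu hv
        have h := congrArg (eval t) hUV
        rw [eval_add, eval_mul, eval_mul, eval_one, ← e, ht', hzD] at h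
        simp only [Int.coe_castRingHom] at hu hv
        push_cast at h hu hv ⊢
        rw [hu, hv]
        linear_combination -(N : ℚ) * h
      refine hpL (dvd_mul_of_dvd_right (Int.natCast_dvd_natCast.1 ?_) _)
      rw [hN']
      exact dvd_add (dvd_mul_of_dvd_right hpc _) (dvd_mul_of_dvd_right hpD _)
  · simp [hL]

end FLTA.Elliptic.Switch
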