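import Fermat.Agent.Elliptic.Switch.FamilyMember
import Fermat.Agent.Elliptic.Switch.Semistable
import Fermat.Agent.Elliptic.Switch.ModThree

/-!
# Semistable curves with the same 5-torsion and irreducible 3-torsion
-/

set_option autoImplicit false

open Polynomial WeierstrassCurve
open scoped WeierstrassCurve.Affine

namespace FLTA.Elliptic.Switch

local notation "Qbar" => AlgebraicClosure ℚ

/-- Member of the family with semistable reduction, irreducible 3-torsion, the same 5-torsion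
Galois module and the same reduction modulo `K`. -/
theorem exists_member (W : WeierstrassCurve ℤ) (hΔ : W.Δ ≠ 0) (hW : W.IsSemistableModel)
    (K : ℕ) (hK : 0 < K) :
    ∃ W' : WeierstrassCurve ℤ, W'.Δ ≠ 0 ∧ W'.IsSemistableModel ∧ W'.ModRepIsIrreducible 3 ∧
      W'.map (Int.castRingHom (ZMod K)) = W.map (Int.castRingHom (ZMod K)) ∧
      ∃ φ : Submodule.torsionBy ℤ ((W.map (Int.castRingHom ℚ))⁄Qbar).Point (5 : ℕ) ≃+
          Submodule.torsionBy ℤ ((W'.map (Int.castRingHom ℚ))⁄Qbar).Point (5 : ℕ),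
        ∀ (σ : Qbar ≃ₐ[ℚ] Qbar) x, φ (σ • x) = σ • φ x := by
  set E := W.map (Int.castRingHom ℚ) with hE
  obtain ⟨hc4, hc6⟩ := c₄_ne_zero_and_c₆_ne_zero W hΔ hW
  have hEΔ : E.Δ ≠ 0 := by rw [hE, WeierstrassCurve.map_Δ]; simpa using hΔ
  have hEc4 : E.c₄ = (W.c₄ : ℚ) := by rw [hE, WeierstrassCurve.map_c₄]; simp
  have hEc6 : E.c₆ = (W.c₆ : ℚ) := by rw [hE, WeierstrassCurve.map_c₆]; simp
  obtain ⟨u, v, r₁, r₂, qH, qT, qD, hH, hT, hf, hfr, hdet, hqH, hqT, hqD, hsym⟩ :=
    exists_line E.c₄ E.c₆ (by rw [hEc4]; exact_mod_cast hc4) (by rw [hEc6]; exact_mod_cast hc6)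
      (fun h => hEΔ (by linarith [E.c_relation]))
  have d : LineData E.c₄ E.c₆ u v r₁ r₂ qH qT qD :=
    ⟨hH, hT, hf, hfr, hdet, hqH, hqT, hqD, hsym⟩
  set Wt : WeierstrassCurve ℚ[X] := twist E qH qT with hWt
  have hmapWt : ∀ t : ℚ, Wt.map (evalRingHom t) = twist E (qH.eval t) (qT.eval t) := fun t => by
    rw [hWt, map_twist]; rfl
  have h0 : Wt.map (evalRingHom 0) = E := by
    rw [hmapWt, d.eval_zero_qH, d.eval_zero_qT]
    simpa using twist_self (R := ℚ) E
  have h4 : Wt.a₄.eval 0 = (W.a₄ : ℚ) := by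
    have := congrArg WeierstrassCurve.a₄ h0
    simpa [hE] using this
  have h6 : Wt.a₆.eval 0 = (W.a₆ : ℚ) := by
    have := congrArg WeierstrassCurve.a₆ h0
    simpa [hE] using this
  have hWtΔ : Wt.Δ = C (W.Δ : ℚ) * qD ^ 5 := by
    rw [hWt, d.twist_Δ, hE, WeierstrassCurve.map_Δ]; rfl
  obtain ⟨q, hq, hqp⟩ := Nat.exists_infinite_primes (W.Δ.natAbs + 1)
  obtain ⟨M, hM, hKM, hmem⟩ := exists_semistable_members W hΔ hW Wt
    (by simp [hWt, twist, hE]) (by simp [hWt, twist, hE]) (by simp [hWt, twist, hE])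
    h4 h6 qD d.eval_zero_qD hWtΔ (by rw [hWt, twist_c₄]; exact d.isCoprime)
    (K * q) (Nat.mul_pos hK hqp.pos)
  obtain ⟨n, hn⟩ := d.exists_no_root 0 (M : ℚ) (Nat.cast_ne_zero.mpr hM.ne')
  obtain ⟨W', hW', hss, hmodKq⟩ := hmem n
  set t : ℚ := (((M : ℤ) * n : ℤ) : ℚ) with ht
  have ht' : t = 0 + (M : ℚ) * (n : ℚ) := by rw [ht]; push_cast; ring
  have hW't : W'.map (Int.castRingHom ℚ) = twist E (qH.eval t) (qT.eval t) := by
    rw [hW', hmapWt]
  have hc4' : (W'.c₄ : ℚ) = qH.eval t := by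
    have := congrArg WeierstrassCurve.c₄ hW't
    rw [WeierstrassCurve.map_c₄, twist_c₄] at this
    simpa using this
  have hc6' : (W'.c₆ : ℚ) = qT.eval t := by
    have := congrArg WeierstrassCurve.c₆ hW't
    rw [WeierstrassCurve.map_c₆, twist_c₆] at this
    simpa using this
  have hmod : ∀ m' : ℕ, m' ∣ K * q →
      W'.map (Int.castRingHom (ZMod m')) = W.map (Int.castRingHom (ZMod m')) := by
    intro m' hdvd
    have := congrArg (fun C : WeierstrassCurve (ZMod (K * q)) =>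
      C.map (ZMod.castHom hdvd (ZMod m'))) hmodKq
    simpa only [WeierstrassCurve.map_map,
      RingHom.ext_int ((ZMod.castHom hdvd (ZMod m')).comp (Int.castRingHom (ZMod (K * q))))
        (Int.castRingHom (ZMod m'))] using this
  have hΔ' : W'.Δ ≠ 0 := by
    intro h0'
    have := congrArg WeierstrassCurve.Δ (hmod q (dvd_mul_left q K))
    rw [WeierstrassCurve.map_Δ, WeierstrassCurve.map_Δ, h0', map_zero] at this
    have hdvd : q ∣ W.Δ.natAbs := Int.natCast_dvd.mp
      ((ZMod.intCast_zmod_eq_zero_iff_dvd W.Δ q).mp this.symm)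
    have := Nat.le_of_dvd (Int.natAbs_pos.mpr hΔ) hdvd
    omega
  have hqt : qD.eval t ≠ 0 := by
    intro hqt
    apply hΔ'
    have := congrArg WeierstrassCurve.Δ hW'
    rw [WeierstrassCurve.map_Δ, WeierstrassCurve.map_Δ, hWtΔ] at this
    simp [hqt] at this
    exact this
  refine ⟨W', hΔ', hss, modThree_irreducible_of_no_root W' hΔ' (fun x hx => hn x ?_),
    hmod K (dvd_mul_right K q), d.exists_member_equiv E t hqt _ hW't⟩
  have hx' := congrArg (fun z : ℤ => (z : ℚ)) hx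
  simp only [quartic, Int.cast_sub, Int.cast_mul, Int.cast_pow, Int.cast_ofNat, Int.cast_zero,
    hc4', hc6', ht'] at hx'
  simp only [quartic]
  linear_combination hx'

end FLTA.Elliptic.Switch
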