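import Fermat.Agent.Elliptic.Switch.Forms

/-!
# The orbits of the icosahedral group

Two points with the same values of the forms of degree 20 and 30 differ by a substitution fixing
both forms; every pair of values with nonzero discriminant is attained.
-/

set_option autoImplicit false
set_option linter.unusedSectionVars false

namespace FLTA.Elliptic.Switch

open Polynomial

variable {K : Type*} [Field K] [CharZero K] {ζ : K}

/-- A substitution fixing the two invariants, under which the covariant line is stable. -/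
structure IsKleinSym (g : Lin K) : Prop where
  hH : ∀ u v, kH (g.fu u v) (g.fv u v) = kH u v
  hT : ∀ u v, kT (g.fu u v) (g.fv u v) = kT u v
  hf : ∃ α : K, α ≠ 0 ∧ ∀ u v, kf (g.fu u v) (g.fv u v) = α * kf u v
  hgu : ∀ u v, kfv (g.fu u v) (g.fv u v) = g.fu (kfv u v) (-kfu u v)
  hgv : ∀ u v, -kfu (g.fu u v) (g.fv u v) = g.fv (kfv u v) (-kfu u v)

/-- Index set for sixty projectively distinct substitutions. -/
abbrev IcosaIndex : Type := Fin 5 ⊕ Fin 5 ⊕ (Fin 5 × Fin 5) ⊕ (Fin 5 × Fin 5)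

/-- Sixty substitutions fixing the forms. -/
def icosa (ζ : K) : IcosaIndex → Lin K
  | .inl i => rot (ζ ^ (i : ℕ))
  | .inr (.inl i) => (rot (ζ ^ (i : ℕ))).comp flip
  | .inr (.inr (.inl p)) =>
      ((rot (ζ ^ (p.1 : ℕ))).comp (goldenFlip ζ)).comp (rot (ζ ^ (p.2 : ℕ)))
  | .inr (.inr (.inr p)) =>
      ((rot (ζ ^ (p.1 : ℕ))).comp (flip.comp (goldenFlip ζ))).comp (rot (ζ ^ (p.2 : ℕ)))

theorem sum_pow_zeta (hζ : IsPrimitiveRoot ζ 5) : 1 + ζ + ζ ^ 2 + ζ ^ 3 + ζ ^ 4 = 0 := by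
  have := hζ.geom_sum_eq_zero (by norm_num)
  simpa [Finset.sum_range_succ] using this

theorem isIcosa_icosa (hζ : IsPrimitiveRoot ζ 5) : ∀ i, IsIcosa (icosa ζ i) := by
  have hr : ∀ i : ℕ, IsIcosa (rot (ζ ^ i)) := fun i =>
    isIcosa_rot (by rw [← pow_mul, mul_comm, pow_mul, hζ.pow_eq_one, one_pow])
  have hg := isIcosa_goldenFlip (sum_pow_zeta hζ) (by norm_num)
  rintro (i | i | ⟨i, j⟩ | ⟨i, j⟩) <;> simp only [icosa]
  · exact hr _
  · exact (hr _).comp isIcosa_flip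
  · exact ((hr _).comp hg).comp (hr _)
  · exact ((hr _).comp (isIcosa_flip.comp hg)).comp (hr _)

theorem card_icosaIndex : Fintype.card IcosaIndex = 60 := by simp

theorem eq_of_pow_three_mul_pow_two (hζ : IsPrimitiveRoot ζ 5) {i j : Fin 5}
    (h : (ζ ^ (i : ℕ)) ^ 3 * (ζ ^ (j : ℕ)) ^ 2 = (ζ ^ (j : ℕ)) ^ 3 * (ζ ^ (i : ℕ)) ^ 2) :
    i = j := by
  have hne : ζ ≠ 0 := hζ.ne_zero (by norm_num)
  have h' : ζ ^ (i : ℕ) = ζ ^ (j : ℕ) := by
    refine mul_right_cancel₀ (b := (ζ ^ (i : ℕ)) ^ 2 * (ζ ^ (j : ℕ)) ^ 2) ?_ ?_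
    · exact mul_ne_zero (pow_ne_zero _ (pow_ne_zero _ hne)) (pow_ne_zero _ (pow_ne_zero _ hne))
    · linear_combination h
  exact Fin.ext (hζ.pow_inj i.isLt j.isLt h')

theorem neg_sq_golden_ne (hζ : IsPrimitiveRoot ζ 5) {i j : Fin 5} :
    (ζ ^ (i : ℕ)) ^ 3 * (ζ ^ (j : ℕ)) ^ 2 ≠
      -(golden ζ ^ 2 * ((ζ ^ (j : ℕ)) ^ 3 * (ζ ^ (i : ℕ)) ^ 2)) := by
  intro h
  set φ := golden ζ with hφd
  have hφ : φ ^ 2 = φ + 1 := golden_sq (sum_pow_zeta hζ)
  have hp : ∀ k m : ℕ, ((ζ ^ k) ^ m) ^ 5 = 1 := fun k m => by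
    rw [pow_right_comm _ m 5, pow_right_comm ζ k 5, hζ.pow_eq_one, one_pow, one_pow]
  have h5 := congrArg (fun x => x ^ 5) h
  simp only [(show Odd 5 by decide).neg_pow, mul_pow, hp, mul_one, ← pow_mul φ] at h5
  norm_num only at h5
  have h10 : φ ^ 10 = 55 * φ + 34 := by
    rw [golden_pow hφ 9]; norm_num [Nat.fib_add_two]
  have hlin : (55 : K) * φ = -35 := by
    linear_combination h5 - h10
  have : (125 : K) = 0 := by
    linear_combination (55 * 55 : K) * hφ - (55 * φ - 90) * hlin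
  norm_num at this

/-- The three coefficients of `(aX + b)(c'X + d') - (a'X + b')(cX + d)`. -/
theorem icosa_inj (hζ : IsPrimitiveRoot ζ 5) {p q : IcosaIndex}
    (h2 : (icosa ζ p).a * (icosa ζ q).c = (icosa ζ q).a * (icosa ζ p).c)
    (h1 : (icosa ζ p).a * (icosa ζ q).d + (icosa ζ p).b * (icosa ζ q).c
      = (icosa ζ q).a * (icosa ζ p).d + (icosa ζ q).b * (icosa ζ p).c) : p = q := by
  have hne : ζ ≠ 0 := hζ.ne_zero (by norm_num)
  have hz : ∀ n m : ℕ, (ζ ^ n) ^ m ≠ 0 := fun n m => pow_ne_zero _ (pow_ne_zero _ hne)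
  have hz' : ∀ n : ℕ, ζ ^ n ≠ 0 := fun n => pow_ne_zero _ hne
  have hsum := sum_pow_zeta hζ
  have hφ : golden ζ ^ 2 = golden ζ + 1 := golden_sq hsum
  have hsq := scale_sq hsum
  have hφ0 : golden ζ ≠ 0 := by intro h; rw [h] at hφ; norm_num at hφ
  have hφ1 : golden ζ ^ 2 + 1 ≠ 0 := by
    intro h
    have h' : golden ζ = -2 := by linear_combination h - hφ
    rw [h'] at hφ; norm_num at hφ
  have hs : (ζ - ζ ^ 4)⁻¹ ≠ 0 := by
    refine inv_ne_zero fun h => hφ1 ?_
    rw [h] at hsq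
    linear_combination hsq + hφ
  set φ := golden ζ with hφd
  set s := (ζ - ζ ^ 4)⁻¹ with hsd
  rcases p with i | i | ⟨i, j⟩ | ⟨i, j⟩ <;> rcases q with k | k | ⟨k, l⟩ | ⟨k, l⟩ <;>
    simp only [icosa, rot, flip, goldenFlip, Lin.comp, ← hφd, ← hsd, mul_zero, zero_mul, add_zero,
      zero_add, mul_one, one_mul, mul_neg, neg_mul, neg_zero] at h1 h2
  case inl.inl => rw [eq_of_pow_three_mul_pow_two hζ h1]
  case inl.inr.inl => simp [hz'] at h2
  case inl.inr.inr.inl => simp [hz', hs, hφ0] at h2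
  case inl.inr.inr.inr => simp [hz', hs] at h2
  case inr.inl.inl => simp [hz'] at h2
  case inr.inl.inr.inl =>
    rw [eq_of_pow_three_mul_pow_two hζ (show (ζ ^ (i : ℕ)) ^ 3 * (ζ ^ (k : ℕ)) ^ 2 = _ by
      linear_combination -h1)]
  case inr.inl.inr.inr.inl => simp [hz', hs, hφ0] at h2
  case inr.inl.inr.inr.inr => simp [hz', hs, hφ0] at h2
  case inr.inr.inl.inl => simp [hz', hs, hφ0] at h2
  case inr.inr.inr.inl => simp [hz', hs] at h2
  case inr.inr.inl.inr.inl => simp [hz', hs, hφ0] at h2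
  case inr.inr.inr.inr.inl => simp [hz', hs, hφ0] at h2
  case inr.inr.inl.inr.inr.inl =>
    have hik : i = k := eq_of_pow_three_mul_pow_two hζ (by
      refine mul_right_cancel₀ (b := s ^ 2 * φ * (ζ ^ (j : ℕ)) ^ 3 * (ζ ^ (l : ℕ)) ^ 3) ?_ ?_
      · simp [hs, hφ0, hz']
      · linear_combination h2)
    subst hik
    have hjl : l = j := eq_of_pow_three_mul_pow_two hζ (by
      refine mul_left_cancel₀ (a := s ^ 2 * (φ ^ 2 + 1) * (ζ ^ (i : ℕ)) ^ 3 * (ζ ^ (i : ℕ)) ^ 2)
        ?_ ?_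
      · simp [hs, hφ1, hz']
      · linear_combination h1)
    rw [hjl]
  case inr.inr.inl.inr.inr.inr =>
    refine absurd ?_ (neg_sq_golden_ne hζ (i := i) (j := k))
    refine mul_right_cancel₀ (b := s ^ 2 * (ζ ^ (j : ℕ)) ^ 3 * (ζ ^ (l : ℕ)) ^ 3) ?_ ?_
    · simp [hs, hz']
    · linear_combination h2
  case inr.inr.inr.inr.inr.inl =>
    refine absurd ?_ (neg_sq_golden_ne hζ (i := k) (j := i))
    refine mul_right_cancel₀ (b := s ^ 2 * (ζ ^ (j : ℕ)) ^ 3 * (ζ ^ (l : ℕ)) ^ 3) ?_ ?_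
    · simp [hs, hz']
    · linear_combination -h2
  case inr.inr.inr.inr.inr.inr =>
    have hik : i = k := eq_of_pow_three_mul_pow_two hζ (by
      refine mul_right_cancel₀ (b := s ^ 2 * φ * (ζ ^ (j : ℕ)) ^ 3 * (ζ ^ (l : ℕ)) ^ 3) ?_ ?_
      · simp [hs, hφ0, hz']
      · linear_combination -h2)
    subst hik
    have hjl : j = l := eq_of_pow_three_mul_pow_two hζ (by
      refine mul_left_cancel₀ (a := s ^ 2 * (φ ^ 2 + 1) * (ζ ^ (i : ℕ)) ^ 3 * (ζ ^ (i : ℕ)) ^ 2)
        ?_ ?_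
      · simp [hs, hφ1, hz']
      · linear_combination -h1)
    rw [hjl]

/-- `g` as a degree-one polynomial pair: numerator. -/
noncomputable def linNum (g : Lin K) : K[X] := C g.a * X + C g.b

/-- Denominator. -/
noncomputable def linDen (g : Lin K) : K[X] := C g.c * X + C g.d

theorem eval_linNum (g : Lin K) (x : K) : (linNum g).eval x = g.fu x 1 := by
  simp [linNum, Lin.fu]

theorem eval_linDen (g : Lin K) (x : K) : (linDen g).eval x = g.fv x 1 := by
  simp [linDen, Lin.fv]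

theorem finite_bad (hζ : IsPrimitiveRoot ζ 5) :
    {u : K | (∃ p, (icosa ζ p).fv u 1 = 0) ∨ kf u 1 = 0 ∨ ∃ p q, p ≠ q ∧
      (icosa ζ p).fu u 1 * (icosa ζ q).fv u 1 = (icosa ζ q).fu u 1 * (icosa ζ p).fv u 1}.Finite := by
  classical
  have hf : kf (X : K[X]) 1 ≠ 0 := by
    intro h
    have := congrArg (fun p => p.coeff 1) h
    simp [kf, coeff_X_mul, coeff_X_pow, coeff_mul_X_pow', coeff_one] at this
  have hd : ∀ p, linDen (icosa ζ p) ≠ 0 := by
    intro p h
    have h0 := congrArg (fun r => r.coeff 0) h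
    have h1 := congrArg (fun r => r.coeff 1) h
    simp [linDen] at h0 h1
    have := (isIcosa_icosa hζ p).hdet
    simp [Lin.det, h0, h1] at this
  have hc : ∀ p q, p ≠ q → linNum (icosa ζ p) * linDen (icosa ζ q)
      - linNum (icosa ζ q) * linDen (icosa ζ p) ≠ 0 := by
    intro p q hpq h
    have e : linNum (icosa ζ p) * linDen (icosa ζ q) - linNum (icosa ζ q) * linDen (icosa ζ p)
        = C ((icosa ζ p).a * (icosa ζ q).c - (icosa ζ q).a * (icosa ζ p).c) * X ^ 2
          + C (((icosa ζ p).a * (icosa ζ q).d + (icosa ζ p).b * (icosa ζ q).c)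
            - ((icosa ζ q).a * (icosa ζ p).d + (icosa ζ q).b * (icosa ζ p).c)) * X
          + C ((icosa ζ p).b * (icosa ζ q).d - (icosa ζ q).b * (icosa ζ p).d) := by
      simp only [linNum, linDen, map_sub, map_add, map_mul]; ring
    rw [e] at h
    have c2 := congrArg (fun r => r.coeff 2) h
    have c1 := congrArg (fun r => r.coeff 1) h
    simp [-map_sub, -map_mul, -map_add, coeff_X_pow, coeff_X] at c2 c1
    exact hpq (icosa_inj hζ (sub_eq_zero.mp c2) (sub_eq_zero.mp c1))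
  refine Set.Finite.subset ((Set.finite_iUnion fun p => finite_setOfPred_isRoot (hd p)).union
    ((finite_setOfPred_isRoot hf).union (Set.finite_iUnion fun pq : {pq : IcosaIndex × IcosaIndex //
      pq.1 ≠ pq.2} => finite_setOfPred_isRoot (hc pq.1.1 pq.1.2 pq.2)))) ?_
  rintro u (⟨p, hp⟩ | hf0 | ⟨p, q, hpq, h⟩)
  · exact Or.inl (Set.mem_iUnion.mpr ⟨p, by simp [IsRoot, eval_linDen, hp]⟩)
  · refine Or.inr (Or.inl ?_)
    show eval u (kf X 1) = 0
    rw [← coe_evalRingHom, map_kf]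
    simpa using hf0
  · refine Or.inr (Or.inr (Set.mem_iUnion.mpr ⟨⟨(p, q), hpq⟩, ?_⟩))
    simp [IsRoot, eval_linNum, eval_linDen, h]

set_option maxHeartbeats 1000000 in
/-- The factorisation of `f(u)^5 H(x)^3 - H(u)^3 f(x)^5` into linear forms. -/
theorem orbit_identity (hζ : IsPrimitiveRoot ζ 5) (u x : K) :
    (kf u 1 ^ 5 * kH x 1 ^ 3 - kH u 1 ^ 3 * kf x 1 ^ 5) * (∏ p, (icosa ζ p).fv u 1)
      = kf u 1 ^ 5 * ∏ p, ((icosa ζ p).fv u 1 * x - (icosa ζ p).fu u 1) := by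
  classical
  suffices hgood : ∀ v : K, v ∈ {u : K | (∃ p, (icosa ζ p).fv u 1 = 0) ∨ kf u 1 = 0 ∨ ∃ p q,
      p ≠ q ∧ (icosa ζ p).fu u 1 * (icosa ζ q).fv u 1
        = (icosa ζ q).fu u 1 * (icosa ζ p).fv u 1}ᶜ → ∀ y : K,
      (kf v 1 ^ 5 * kH y 1 ^ 3 - kH v 1 ^ 3 * kf y 1 ^ 5) * (∏ p, (icosa ζ p).fv v 1)
        = kf v 1 ^ 5 * ∏ p, ((icosa ζ p).fv v 1 * y - (icosa ζ p).fu v 1) by
    have key : (kf X 1 ^ 5 * C (kH x 1 ^ 3) - kH X 1 ^ 3 * C (kf x 1 ^ 5))
          * (∏ p, linDen (icosa ζ p))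
        = kf X 1 ^ 5 * ∏ p, (linDen (icosa ζ p) * C x - linNum (icosa ζ p)) := by
      refine eq_of_infinite_eval_eq _ _
        (Set.Infinite.mono ?_ (finite_bad hζ).infinite_compl)
      intro v hv
      simp only [Set.mem_ofPred_eq, eval_mul, eval_sub, eval_pow, eval_prod, eval_C, eval_linNum,
        eval_linDen]
      rw [← coe_evalRingHom, map_kf, map_kH]
      simp only [coe_evalRingHom, eval_X, eval_one]
      exact hgood v hv x
    have := congrArg (eval u) key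
    simp only [eval_mul, eval_sub, eval_pow, eval_prod, eval_C, eval_linNum, eval_linDen] at this
    rw [← coe_evalRingHom, map_kf, map_kH] at this
    simpa only [coe_evalRingHom, eval_X, eval_one] using this
  intro v hv y
  simp only [Set.mem_compl_iff, Set.mem_ofPred_eq, not_or, not_exists, not_and] at hv
  obtain ⟨hden, hf, hcross⟩ := hv
  set P := ∏ p, (icosa ζ p).fv v 1 with hPdef
  let A : K[X] := (C (kf v 1 ^ 5) * kH X 1 ^ 3 - C (kH v 1 ^ 3) * kf X 1 ^ 5) * C P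
  let B : K[X] := C (kf v 1 ^ 5) * ∏ p, (C ((icosa ζ p).fv v 1) * X - C ((icosa ζ p).fu v 1))
  have hA : ∀ t, A.eval t =
      (kf v 1 ^ 5 * kH t 1 ^ 3 - kH v 1 ^ 3 * kf t 1 ^ 5) * P := by
    intro t
    simp only [A, eval_mul, eval_sub, eval_pow, eval_C]
    rw [← coe_evalRingHom, map_kf, map_kH]
    simp
  have hB : ∀ t, B.eval t =
      kf v 1 ^ 5 * ∏ p, ((icosa ζ p).fv v 1 * t - (icosa ζ p).fu v 1) := by
    intro t; simp [B, eval_prod]
  have hAd : A.natDegree ≤ 60 := by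
    refine natDegree_mul_C_le _ _ |>.trans ?_
    refine (natDegree_sub_le _ _).trans (max_le ?_ ?_)
    · refine (natDegree_C_mul_le _ _).trans (natDegree_pow_le.trans ?_)
      have : (kH (X : K[X]) 1).natDegree ≤ 20 := by
        simp only [kH, one_pow, mul_one]; compute_degree
      omega
    · refine (natDegree_C_mul_le _ _).trans (natDegree_pow_le.trans ?_)
      have : (kf (X : K[X]) 1).natDegree ≤ 11 := by
        simp only [kf, one_pow, mul_one]; compute_degree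
      omega
  have hfl : ∀ p : IcosaIndex,
      (C ((icosa ζ p).fv v 1) * X - C ((icosa ζ p).fu v 1)).natDegree ≤ 1 := fun p => by
    compute_degree
  have hBd : B.natDegree ≤ 60 := by
    refine (natDegree_C_mul_le _ _).trans ((natDegree_prod_le _ _).trans ?_)
    exact (Finset.sum_le_card_nsmul _ _ 1 fun p _ => hfl p).trans
      (by simp)
  have hA60 : A.coeff 60 = kf v 1 ^ 5 * P := by
    have h1 : (kH (X : K[X]) 1).natDegree ≤ 20 := by
      simp only [kH, one_pow, mul_one]; compute_degree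
    have h2 : (kH (X : K[X]) 1).coeff 20 = 1 := by
      simp [kH, coeff_X_pow, coeff_one]
    have h3 : (kf (X : K[X]) 1 ^ 5).natDegree ≤ 55 := by
      refine natDegree_pow_le.trans ?_
      have : (kf (X : K[X]) 1).natDegree ≤ 11 := by
        simp only [kf, one_pow, mul_one]; compute_degree
      omega
    have h4 : (kH (X : K[X]) 1 ^ 3).coeff 60 = 1 := by
      rw [show (60 : ℕ) = 3 * 20 from rfl, coeff_pow_of_natDegree_le h1, h2, one_pow]
    have h6 : (kf (X : K[X]) 1 ^ 5).coeff 60 = 0 := coeff_eq_zero_of_natDegree_lt (by omega)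
    simp only [A, coeff_mul_C, coeff_sub, coeff_C_mul, h4, h6, mul_one, mul_zero, sub_zero]
  have hB60 : B.coeff 60 = kf v 1 ^ 5 * P := by
    simp only [B, coeff_C_mul]
    congr 1
    have := coeff_prod_of_natDegree_le (Finset.univ : Finset IcosaIndex) _ 1 fun p _ => hfl p
    rw [Finset.card_univ, card_icosaIndex] at this
    rw [this, hPdef]
    simp
  have hinj : Function.Injective fun p => (icosa ζ p).fu v 1 / (icosa ζ p).fv v 1 := by
    intro p q h
    by_contra hpq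
    apply hcross p q hpq
    have := (div_eq_div_iff (hden p) (hden q)).mp h
    linear_combination this
  have hAB : A = B := by
    refine eq_of_degree_sub_lt_of_eval_finset_eq
      (Finset.univ.image fun p => (icosa ζ p).fu v 1 / (icosa ζ p).fv v 1) ?_ ?_
    · rw [Finset.card_image_of_injective _ hinj, Finset.card_univ, card_icosaIndex]
      refine (degree_lt_iff_coeff_zero _ _).mpr fun m hm => ?_
      rcases hm.lt_or_eq with h | h
      · rw [coeff_sub, coeff_eq_zero_of_natDegree_lt (hAd.trans_lt h),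
          coeff_eq_zero_of_natDegree_lt (hBd.trans_lt h), sub_zero]
      · rw [coeff_sub, ← h, hA60, hB60, sub_self]
    · intro t ht
      simp only [Finset.mem_image, Finset.mem_univ, true_and] at ht
      obtain ⟨p, rfl⟩ := ht
      rw [hA, hB, Finset.prod_eq_zero (Finset.mem_univ p)
        (by rw [mul_div_cancel₀ _ (hden p), sub_self]), mul_zero]
      refine mul_eq_zero_of_left ?_ _
      set g := icosa ζ p
      have hg := isIcosa_icosa hζ p
      have e1 : g.fv v 1 * (g.fu v 1 / g.fv v 1) = g.fu v 1 := mul_div_cancel₀ _ (hden p)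
      have eH : g.fv v 1 ^ 20 * kH (g.fu v 1 / g.fv v 1) 1 = kH v 1 := by
        rw [← kH_smul, e1, mul_one, hg.hH]
      have eF : g.fv v 1 ^ 12 * kf (g.fu v 1 / g.fv v 1) 1 = kf v 1 := by
        rw [← kf_smul, e1, mul_one, hg.hf]
      rw [← eH, ← eF]
      ring
  rw [← hA, ← hB, hAB]

/-- Points with equal invariants differ by a symmetry. -/
theorem exists_kleinSym (hζ : IsPrimitiveRoot ζ 5) {u v u' v' : K}
    (hH : kH u' v' = kH u v) (hT : kT u' v' = kT u v) (hH0 : kH u v ≠ 0) (hT0 : kT u v ≠ 0)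
    (hf0 : kf u v ≠ 0) :
    ∃ g : Lin K, IsKleinSym g ∧ g.fu u v = u' ∧ g.fv u v = v' := by
  classical
  have hv : v ≠ 0 := by rintro rfl; simp [kf] at hf0
  have hf5 : kf u' v' ^ 5 = kf u v ^ 5 := by
    have h1 := kH_pow_three_sub u v
    have h2 := kH_pow_three_sub u' v'
    rw [hH, hT] at h2
    exact mul_left_cancel₀ (by norm_num : (1728 : K) ≠ 0) (h2.symm.trans h1)
  have hv' : v' ≠ 0 := by
    rintro rfl
    rw [show kf u' 0 = 0 by simp [kf], zero_pow (by norm_num)] at hf5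
    exact hf0 (by simpa using hf5.symm)
  set t := u / v
  set t' := u' / v'
  have et : v * t = u := mul_div_cancel₀ u hv
  have et' : v' * t' = u' := mul_div_cancel₀ u' hv'
  have eH : kH u v = v ^ 20 * kH t 1 := by rw [← kH_smul, et, mul_one]
  have eH' : kH u' v' = v' ^ 20 * kH t' 1 := by rw [← kH_smul, et', mul_one]
  have eF : kf u v = v ^ 12 * kf t 1 := by rw [← kf_smul, et, mul_one]
  have eF' : kf u' v' = v' ^ 12 * kf t' 1 := by rw [← kf_smul, et', mul_one]
  have hft : kf t 1 ≠ 0 := fun h => hf0 (by rw [eF, h, mul_zero])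
  have hzero : kf t 1 ^ 5 * kH t' 1 ^ 3 - kH t 1 ^ 3 * kf t' 1 ^ 5 = 0 := by
    have hv60 : v ^ 60 * v' ^ 60 ≠ 0 := mul_ne_zero (pow_ne_zero _ hv) (pow_ne_zero _ hv')
    refine (mul_eq_zero.mp (?_ : v ^ 60 * v' ^ 60 * _ = 0)).resolve_left hv60
    have : kf u v ^ 5 * kH u' v' ^ 3 - kH u v ^ 3 * kf u' v' ^ 5 = 0 := by
      rw [hH, hf5]; ring
    rw [eH, eH', eF, eF'] at this
    linear_combination this
  have hid := orbit_identity hζ t t'
  rw [hzero, zero_mul, zero_eq_mul] at hid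
  obtain ⟨p, -, hp⟩ :=
    Finset.prod_eq_zero_iff.mp (hid.resolve_left (pow_ne_zero _ hft))
  set g₀ := icosa ζ p
  have hg₀ := isIcosa_icosa hζ p
  -- `(u', v') = c • g₀ (u, v)`
  have hfu : g₀.fu u v = v * g₀.fu t 1 := by rw [← et]; simp only [Lin.fu]; ring
  have hfv : g₀.fv u v = v * g₀.fv t 1 := by rw [← et]; simp only [Lin.fv]; ring
  have hw : g₀.fv t 1 ≠ 0 := by
    intro hw
    have h := hg₀.hf t 1
    rw [hw] at h
    rw [← h] at hft
    simp [kf] at hft
  set c := v' / g₀.fv u v with hc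
  have hfv0 : g₀.fv u v ≠ 0 := by rw [hfv]; exact mul_ne_zero hv hw
  have hcv : c * g₀.fv u v = v' := div_mul_cancel₀ _ hfv0
  have hcu : c * g₀.fu u v = u' := by
    rw [hfu, ← et']
    have h2 : g₀.fu t 1 = g₀.fv t 1 * t' := (sub_eq_zero.mp hp).symm
    rw [h2, ← hcv, hfv]; ring
  have hc20 : c ^ 20 = 1 := by
    have := hH
    rw [← hcu, ← hcv, kH_smul, hg₀.hH] at this
    exact (mul_eq_right₀ hH0).mp this
  have hc30 : c ^ 30 = 1 := by
    have := hT
    rw [← hcu, ← hcv, kT_smul, hg₀.hT] at this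
    exact (mul_eq_right₀ hT0).mp this
  have hc10 : c ^ 10 = 1 := by
    have : c ^ 30 = c ^ 20 * c ^ 10 := by ring
    rw [hc30, hc20, one_mul] at this
    exact this.symm
  have hc11 : c ^ 11 = c := by rw [pow_succ, hc10, one_mul]
  refine ⟨⟨c * g₀.a, c * g₀.b, c * g₀.c, c * g₀.d⟩, ?_, ?_, ?_⟩
  · have e1 : ∀ x y, (⟨c * g₀.a, c * g₀.b, c * g₀.c, c * g₀.d⟩ : Lin K).fu x y
        = c * g₀.fu x y := fun x y => by simp only [Lin.fu]; ring
    have e2 : ∀ x y, (⟨c * g₀.a, c * g₀.b, c * g₀.c, c * g₀.d⟩ : Lin K).fv x y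
        = c * g₀.fv x y := fun x y => by simp only [Lin.fv]; ring
    refine ⟨fun x y => ?_, fun x y => ?_, ⟨c ^ 12, ?_, fun x y => ?_⟩, fun x y => ?_,
      fun x y => ?_⟩
    · rw [e1, e2, kH_smul, hg₀.hH, hc20, one_mul]
    · rw [e1, e2, kT_smul, hg₀.hT, hc30, one_mul]
    · intro h
      have := pow_eq_zero_iff (n := 12) (by norm_num) |>.mp h
      rw [this] at hc10
      simp at hc10
    · rw [e1, e2, kf_smul, hg₀.hf]
    · rw [e1, e2, e1, kfv_smul, hc11, (hg₀.grad x y).1]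
    · rw [e1, e2, e2, kfu_smul, hc11, ← (hg₀.grad x y).2]
      ring
  · rw [← hcu]; simp only [Lin.fu]; ring
  · rw [← hcv]; simp only [Lin.fv]; ring

/-- The three forms have no nontrivial common zero. -/
theorem eq_zero_of_kH_kf {u v : K} (hH : kH u v = 0) (hf : kf u v = 0) : u = 0 ∧ v = 0 := by
  simp only [kf, mul_eq_zero] at hf
  rcases hf with (rfl | rfl) | h
  · simpa [kH] using hH
  · simpa [kH] using hH
  · simp only [kH] at hH
    by_cases hu : u = 0
    · subst hu; simpa using h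
    · exfalso
      -- with `a = v^5`, `b = u^5`: `a² - 11ab - b² = 0` and `H = 0` force `b = 0`
      obtain ⟨k, l, hk, hl⟩ : ∃ k l : K, k = u ^ 5 ∧ l = v ^ 5 := ⟨_, _, rfl, rfl⟩
      have h' : l ^ 2 - 11 * l * k - k ^ 2 = 0 := by rw [hk, hl]; linear_combination h
      have hH' : l ^ 4 + 228 * k * l ^ 3 + 494 * k ^ 2 * l ^ 2 - 228 * k ^ 3 * l + k ^ 4 = 0 := by
        rw [hk, hl]; linear_combination hH
      have hk0 : k ≠ 0 := hk ▸ pow_ne_zero _ hu
      have e1 : k ^ 3 * (34375 * l + 3125 * k) = 0 := by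
        linear_combination hH' - (l ^ 2 + 239 * k * l + 3124 * k ^ 2) * h'
      have e2 : 34375 * l + 3125 * k = 0 := (mul_eq_zero.mp e1).resolve_left (pow_ne_zero _ hk0)
      have e3 : k ^ 2 = 0 := by
        linear_combination 121 * h' - (11 * l - 122 * k) / 3125 * e2
      exact hk0 (by simpa using e3)

/-- Every pair `(c4, c6)` with `c4 c6 (c4³ - c6²) ≠ 0` is attained. -/
theorem exists_kleinPoint [IsAlgClosed K] {A B : K} (hA : A ≠ 0) (hB : B ≠ 0)
    (hAB : A ^ 3 ≠ B ^ 2) : ∃ u v : K, kH u v = A ∧ kT u v = B := by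
  obtain ⟨u, hu⟩ : ∃ u, B ^ 2 * kH u 1 ^ 3 - A ^ 3 * kT u 1 ^ 2 = 0 := by
    let p : K[X] := C (B ^ 2) * kH X 1 ^ 3 - C (A ^ 3) * kT X 1 ^ 2
    have h60 : p.coeff 60 = B ^ 2 - A ^ 3 := by
      have h1 : (kH (X : K[X]) 1).natDegree ≤ 20 := by
        simp only [kH, one_pow, mul_one]; compute_degree
      have h2 : (kT (X : K[X]) 1).natDegree ≤ 30 := by
        simp only [kT, one_pow, mul_one]; compute_degree
      have h4 : (kH (X : K[X]) 1 ^ 3).coeff 60 = 1 := by
        rw [show (60 : ℕ) = 3 * 20 from rfl, coeff_pow_of_natDegree_le h1]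
        simp [kH, coeff_X_pow, coeff_one]
      have h5 : (kT (X : K[X]) 1 ^ 2).coeff 60 = 1 := by
        rw [show (60 : ℕ) = 2 * 30 from rfl, coeff_pow_of_natDegree_le h2]
        simp [kT, coeff_X_pow, coeff_one]
      simp only [p, coeff_sub, coeff_C_mul, h4, h5, mul_one]
    have hdeg : p.degree ≠ 0 := by
      intro h
      have : p.coeff 60 = 0 := coeff_eq_zero_of_degree_lt (by rw [h]; norm_num)
      rw [h60, sub_eq_zero] at this
      exact hAB this.symm
    obtain ⟨u, hu⟩ := IsAlgClosed.exists_root p hdeg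
    refine ⟨u, ?_⟩
    simp only [p, IsRoot, eval_sub, eval_mul, eval_pow, eval_C] at hu
    rw [← coe_evalRingHom, map_kH, map_kT] at hu
    simpa using hu
  have hH0 : kH u 1 ≠ 0 := by
    intro h
    rw [h] at hu
    have hT : kT u 1 = 0 := by simpa [hA] using hu
    have := kH_pow_three_sub u 1
    rw [h, hT] at this
    have hf : kf u 1 = 0 := by simpa using this
    exact one_ne_zero (eq_zero_of_kH_kf h hf).2
  have hT0 : kT u 1 ≠ 0 := by
    intro h
    rw [h] at hu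
    simp [hB, hH0] at hu
  obtain ⟨l, hl⟩ := IsAlgClosed.exists_pow_nat_eq
    ((B / kT u 1) * (kH u 1 / A)) (n := 10) (by norm_num)
  refine ⟨l * u, l, ?_, ?_⟩
  · have : kH (l * u) l = l ^ 20 * kH u 1 := by rw [← kH_smul, mul_one]
    rw [this, show l ^ 20 = (l ^ 10) ^ 2 by ring, hl]
    field_simp
    linear_combination hu
  · have : kT (l * u) l = l ^ 30 * kT u 1 := by rw [← kT_smul, mul_one]
    rw [this, show l ^ 30 = (l ^ 10) ^ 3 by ring, hl]
    field_simp
    linear_combination hu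

end FLTA.Elliptic.Switch
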