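import Fermat.Agent.Elliptic.Switch.Semistable

/-!
# Semistability of members of a family, prime by prime

A version of `exists_semistable_members` in which the parameter is only restricted at one prime
at a time: it must be `p`-integral, and `p`-adically small if `p` divides a fixed bound.
-/

set_option autoImplicit false

open Polynomial

namespace FLTA.Elliptic.Switch

variable {p : ℕ} [Fact p.Prime]

theorem padicInt_ringHom_eq_coe (x : ℤ_[p]) : PadicInt.Coe.ringHom x = (x : ℚ_[p]) := rfl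

/-- A polynomial with a denominator `N` evaluated at a `p`-integral rational. -/
theorem exists_padicInt_mul_eq {f : ℚ[X]} {q : ℤ[X]} {N : ℕ}
    (hq : q.map (Int.castRingHom ℚ) = C (N : ℚ) * f) (t : ℚ) (s : ℤ_[p]) (hs : (s : ℚ_[p]) = t) :
    (N : ℚ_[p]) * ((f.eval t : ℚ) : ℚ_[p]) = ((q.eval₂ (Int.castRingHom ℤ_[p]) s : ℤ_[p]) : ℚ_[p]) := by
  have h := congrArg (fun g : ℚ[X] => (Rat.castHom ℚ_[p]) (g.eval t)) hq
  simp only [eval_mul, eval_C, eval_map, map_mul, hom_eval₂] at h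
  simp only [map_natCast] at h
  have h2 := hom_eval₂ q (Int.castRingHom ℤ_[p]) (PadicInt.Coe.ringHom (p := p)) s
  simp only [RingHom.ext_int _ (Int.castRingHom ℚ_[p]), Rat.coe_castHom] at h h2
  rw [← hs] at h
  exact h.symm.trans h2.symm

/-- The value at a small rational of a polynomial with integral constant term is congruent to
the constant term. -/
theorem exists_padicInt_eval {f : ℚ[X]} {q : ℤ[X]} {N L : ℕ} (hN : 0 < N) (hNL : N * N ∣ L)
    (hq : q.map (Int.castRingHom ℚ) = C (N : ℚ) * f) {a : ℤ} (ha : f.eval 0 = a) (t : ℚ)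
    (ht : ‖(t : ℚ_[p])‖ ≤ 1) (htL : p ∣ L → ‖(t : ℚ_[p])‖ ≤ ‖(L : ℚ_[p])‖) :
    ∃ x : ℤ_[p], (x : ℚ_[p]) = ((f.eval t : ℚ) : ℚ_[p]) ∧
      (p ∣ L → PadicInt.toZMod x = (a : ZMod p)) := by
  set s : ℤ_[p] := ⟨(t : ℚ_[p]), ht⟩ with hs
  by_cases hpL : p ∣ L
  · obtain ⟨r, hr⟩ : (X : ℤ[X]) ∣ q - C ((N : ℤ) * a) := by
      rw [X_dvd_iff, coeff_sub, coeff_C_zero, sub_eq_zero]
      apply Int.cast_injective (α := ℚ)
      have := congrArg (fun f : ℚ[X] => f.coeff 0) hq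
      simp only [coeff_map, coeff_C_mul, coeff_zero_eq_eval_zero f, ha] at this
      simpa using this
    have h := exists_padicInt_mul_eq hq t s rfl
    rw [sub_eq_iff_eq_add] at hr
    rw [hr, eval₂_add, eval₂_mul, eval₂_X, eval₂_C] at h
    simp only [PadicInt.coe_add, PadicInt.coe_mul, eq_intCast, PadicInt.coe_intCast,
      Int.cast_mul, Int.cast_natCast] at h
    set b : ℤ_[p] := r.eval₂ (Int.castRingHom ℤ_[p]) s
    have hN0 : (N : ℚ_[p]) ≠ 0 := Nat.cast_ne_zero.2 hN.ne'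
    have hlt : ‖(t : ℚ_[p])‖ < ‖(N : ℚ_[p])‖ := by
      refine lt_of_le_of_lt (htL hpL) ?_
      obtain ⟨c, hc⟩ := hNL
      have hNn : ‖(N : ℚ_[p])‖ ≤ 1 := by simpa using Padic.norm_int_le_one (p := p) (N : ℤ)
      rcases hNn.lt_or_eq with h1 | h1
      · rw [hc, Nat.cast_mul, Nat.cast_mul, norm_mul, norm_mul, mul_assoc]
        exact mul_lt_of_lt_one_right (norm_pos_iff.2 hN0)
          (lt_of_le_of_lt (mul_le_of_le_one_right (norm_nonneg _)
            (by simpa using Padic.norm_int_le_one (p := p) (c : ℤ))) h1)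
      · rw [h1]
        exact Padic.norm_natCast_lt_one_iff.2 hpL
    set δ : ℚ_[p] := ((f.eval t : ℚ) : ℚ_[p]) - (a : ℚ_[p]) with hδdef
    have hδ : (N : ℚ_[p]) * δ = (t : ℚ_[p]) * (b : ℚ_[p]) := by
      rw [hδdef, mul_sub, h]
      change ((s : ℚ_[p]) * b + _) - _ = _
      simp [hs]
    have hsmall : ‖δ‖ < 1 := by
      have h1 : ‖(N : ℚ_[p])‖ * ‖δ‖ < ‖(N : ℚ_[p])‖ * 1 := by
        rw [← norm_mul, hδ, norm_mul, mul_one]
        exact lt_of_le_of_lt (mul_le_of_le_one_right (norm_nonneg _) b.2) hlt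
      exact lt_of_mul_lt_mul_left h1 (norm_nonneg _)
    obtain ⟨e, he⟩ : ∃ e : ℤ_[p], (e : ℚ_[p]) = δ := ⟨⟨δ, hsmall.le⟩, rfl⟩
    refine ⟨(a : ℤ_[p]) + e, by simp [he, hδdef], fun _ => ?_⟩
    rw [map_add, map_intCast, add_eq_left, ← RingHom.mem_ker, PadicInt.ker_toZMod,
      IsLocalRing.mem_maximalIdeal, PadicInt.mem_nonunits, PadicInt.norm_def, he]
    exact hsmall
  · have hNn : ‖(N : ℚ_[p])‖ = 1 :=
      Padic.norm_natCast_eq_one_iff.2
        ((Nat.Prime.coprime_iff_not_dvd Fact.out).2 fun h =>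
          hpL ((dvd_trans h (dvd_mul_left N N)).trans hNL))
    have h : ‖((f.eval t : ℚ) : ℚ_[p])‖ ≤ 1 := by
      have e := congrArg norm (exists_padicInt_mul_eq hq t s rfl)
      rw [norm_mul, hNn, one_mul] at e
      exact e ▸ PadicInt.norm_le_one _
    exact ⟨⟨_, h⟩, rfl, fun h' => absurd h' hpL⟩

/-- A bound `L` such that the member of the family at a parameter which is `p`-integral, and
`p`-adically at most `L` in case `p ∣ L`, is semistable at `p`. -/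
theorem exists_semistable_local (W : WeierstrassCurve ℤ) (hΔ : W.Δ ≠ 0)
    (hW : W.IsSemistableModel) (Wt : WeierstrassCurve ℚ[X])
    (h1 : Wt.a₁ = C (W.a₁ : ℚ)) (h2 : Wt.a₂ = C (W.a₂ : ℚ)) (h3 : Wt.a₃ = C (W.a₃ : ℚ))
    (h4 : Wt.a₄.eval 0 = (W.a₄ : ℚ)) (h6 : Wt.a₆.eval 0 = (W.a₆ : ℚ))
    (D : ℚ[X]) (hD : Wt.Δ = C (W.Δ : ℚ) * D ^ 5)
    (hcop : IsCoprime Wt.c₄ D) (K : ℕ) (hK : 0 < K) :
    ∃ L : ℕ, 0 < L ∧ K ∣ L ∧ W.Δ.natAbs ∣ L ∧ ∀ (p : ℕ) [Fact p.Prime] (t : ℚ),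
      ‖(t : ℚ_[p])‖ ≤ 1 → (p ∣ L → ‖(t : ℚ_[p])‖ ≤ ‖(L : ℚ_[p])‖) →
      ∃ V : WeierstrassCurve ℤ_[p],
        V.map PadicInt.Coe.ringHom = (Wt.map (evalRingHom t)).map (Rat.castHom ℚ_[p]) ∧
        (p ∣ L → V.map PadicInt.toZMod = W.map (Int.castRingHom (ZMod p))) ∧
        (PadicInt.toZMod V.Δ ≠ 0 ∨ PadicInt.toZMod V.c₄ ≠ 0) := by
  obtain ⟨U, U', hUV⟩ := hcop
  obtain ⟨N, hN, hden⟩ := exists_common_denom [Wt.a₄, Wt.a₆, D, U, U']
  obtain ⟨q4, hq4⟩ := hden Wt.a₄ (by simp)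
  obtain ⟨q6, hq6⟩ := hden Wt.a₆ (by simp)
  obtain ⟨qD, hqD⟩ := hden D (by simp)
  obtain ⟨qU, hqU⟩ := hden U (by simp)
  obtain ⟨qV, hqV⟩ := hden U' (by simp)
  refine ⟨K * W.Δ.natAbs * (N * N),
    Nat.mul_pos (Nat.mul_pos hK (Int.natAbs_pos.2 hΔ)) (Nat.mul_pos hN hN),
    dvd_mul_of_dvd_left (dvd_mul_right _ _) _, dvd_mul_of_dvd_left (dvd_mul_left _ _) _, ?_⟩
  intro p _ t ht htL
  set L := K * W.Δ.natAbs * (N * N) with hL
  have hNL : N * N ∣ L := dvd_mul_left _ _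
  obtain ⟨x4, hx4, hx4'⟩ := exists_padicInt_eval hN hNL hq4 h4 t ht htL
  obtain ⟨x6, hx6, hx6'⟩ := exists_padicInt_eval hN hNL hq6 h6 t ht htL
  set V : WeierstrassCurve ℤ_[p] := ⟨(W.a₁ : ℤ_[p]), (W.a₂ : ℤ_[p]), (W.a₃ : ℤ_[p]), x4, x6⟩
    with hV
  have hmap : V.map PadicInt.Coe.ringHom = (Wt.map (evalRingHom t)).map (Rat.castHom ℚ_[p]) := by
    ext <;> simp [hV, h1, h2, h3, hx4, hx6, padicInt_ringHom_eq_coe]
  have hcong : p ∣ L → V.map PadicInt.toZMod = W.map (Int.castRingHom (ZMod p)) := fun h => by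
    ext <;> simp [hV, hx4' h, hx6' h]
  refine ⟨V, hmap, hcong, ?_⟩
  by_cases hpL : p ∣ L
  · have eΔ := congrArg WeierstrassCurve.Δ (hcong hpL)
    have ec := congrArg WeierstrassCurve.c₄ (hcong hpL)
    rw [WeierstrassCurve.map_Δ, WeierstrassCurve.map_Δ] at eΔ
    rw [WeierstrassCurve.map_c₄, WeierstrassCurve.map_c₄] at ec
    rw [eΔ, ec]
    simp only [ne_eq, eq_intCast, ZMod.intCast_zmod_eq_zero_iff_dvd, ← not_and_or]
    exact fun h => hW p Fact.out h.1 h.2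
  · have hNn : ‖(N : ℚ_[p])‖ = 1 := Padic.norm_natCast_eq_one_iff.2
      ((Nat.Prime.coprime_iff_not_dvd Fact.out).2 fun h =>
        hpL ((dvd_trans h (dvd_mul_left N N)).trans hNL))
    have key : ∀ {f : ℚ[X]} {q : ℤ[X]}, q.map (Int.castRingHom ℚ) = C (N : ℚ) * f →
        ∃ x : ℤ_[p], (x : ℚ_[p]) = ((f.eval t : ℚ) : ℚ_[p]) := fun {f q} hq =>
      ⟨⟨_, by
        have e := congrArg norm (exists_padicInt_mul_eq hq t ⟨_, ht⟩ rfl)
        rw [norm_mul, hNn, one_mul] at e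
        exact e ▸ PadicInt.norm_le_one _⟩, rfl⟩
    obtain ⟨d, hd⟩ := key hqD
    obtain ⟨u, hu⟩ := key hqU
    obtain ⟨v, hv⟩ := key hqV
    have hΔV : V.Δ = (W.Δ : ℤ_[p]) * d ^ 5 := by
      apply Subtype.coe_injective
      have e := congrArg WeierstrassCurve.Δ hmap
      rw [WeierstrassCurve.map_Δ, WeierstrassCurve.map_Δ, WeierstrassCurve.map_Δ, hD] at e
      simpa [hd, padicInt_ringHom_eq_coe] using e
    have hone : u * V.c₄ + v * d = 1 := by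
      apply Subtype.coe_injective
      have e := congrArg WeierstrassCurve.c₄ hmap
      rw [WeierstrassCurve.map_c₄, WeierstrassCurve.map_c₄, WeierstrassCurve.map_c₄] at e
      have h := congrArg (fun g : ℚ[X] => ((g.eval t : ℚ) : ℚ_[p])) hUV
      simp only [eval_add, eval_mul, eval_one, Rat.cast_add, Rat.cast_mul, Rat.cast_one,
        ← hu, ← hv, ← hd] at h
      simp only [coe_evalRingHom, padicInt_ringHom_eq_coe, Rat.coe_castHom] at e
      rw [← e] at h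
      simpa using h
    refine not_and_or.1 fun ⟨h0, hc⟩ => ?_
    rw [hΔV, map_mul, map_pow, map_intCast, mul_eq_zero, ZMod.intCast_zmod_eq_zero_iff_dvd,
      pow_eq_zero_iff (by norm_num)] at h0
    rcases h0 with h0 | h0
    · exact hpL (dvd_mul_of_dvd_left (dvd_mul_of_dvd_right (Int.natCast_dvd.1 h0) K) _)
    · have := congrArg PadicInt.toZMod hone
      simp [h0, hc] at this

/-- An integral model differing from the member at `t` by a change of variables whose scale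
`a / b` is a `p`-adic unit is semistable at `p`. -/
theorem not_dvd_c₄_of_local {p : ℕ} [Fact p.Prime] {Wq : WeierstrassCurve ℚ}
    {V : WeierstrassCurve ℤ_[p]} (hmap : V.map PadicInt.Coe.ringHom = Wq.map (Rat.castHom ℚ_[p]))
    (hV : PadicInt.toZMod V.Δ ≠ 0 ∨ PadicInt.toZMod V.c₄ ≠ 0) (W' : WeierstrassCurve ℤ)
    {a b : ℤ} (hb : ¬ (p : ℤ) ∣ b)
    (hc : (W'.c₄ : ℚ) * a ^ 4 = Wq.c₄ * b ^ 4) (hd : (W'.Δ : ℚ) * a ^ 12 = Wq.Δ * b ^ 12)
    (hpΔ : (p : ℤ) ∣ W'.Δ) : ¬ (p : ℤ) ∣ W'.c₄ := by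
  intro hpc
  have eΔ := congrArg WeierstrassCurve.Δ hmap
  have ec := congrArg WeierstrassCurve.c₄ hmap
  rw [WeierstrassCurve.map_Δ, WeierstrassCurve.map_Δ] at eΔ
  rw [WeierstrassCurve.map_c₄, WeierstrassCurve.map_c₄] at ec
  simp only [padicInt_ringHom_eq_coe, Rat.coe_castHom] at eΔ ec
  have e1 : (W'.c₄ : ℤ_[p]) * (a : ℤ_[p]) ^ 4 = V.c₄ * (b : ℤ_[p]) ^ 4 := by
    apply Subtype.coe_injective
    have h := congrArg (fun x : ℚ => (x : ℚ_[p])) hc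
    push_cast at h ⊢
    simpa [← ec, padicInt_ringHom_eq_coe] using h
  have e2 : (W'.Δ : ℤ_[p]) * (a : ℤ_[p]) ^ 12 = V.Δ * (b : ℤ_[p]) ^ 12 := by
    apply Subtype.coe_injective
    have h := congrArg (fun x : ℚ => (x : ℚ_[p])) hd
    push_cast at h ⊢
    simpa [← eΔ, padicInt_ringHom_eq_coe] using h
  have hb0 : (b : ZMod p) ≠ 0 := fun h => hb ((ZMod.intCast_zmod_eq_zero_iff_dvd _ _).1 h)
  have r1 := congrArg PadicInt.toZMod e1
  have r2 := congrArg PadicInt.toZMod e2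
  simp only [map_mul, map_pow, map_intCast, (ZMod.intCast_zmod_eq_zero_iff_dvd _ _).2 hpc,
    (ZMod.intCast_zmod_eq_zero_iff_dvd _ _).2 hpΔ, zero_mul] at r1 r2
  rcases hV with h | h
  · exact h ((mul_eq_zero.1 r2.symm).resolve_right (pow_ne_zero _ hb0))
  · exact h ((mul_eq_zero.1 r1.symm).resolve_right (pow_ne_zero _ hb0))

/-- The parameters `n / d` satisfying the hypotheses of `exists_semistable_local` at `p`. -/
theorem norm_div_le_of_dvd {p : ℕ} [Fact p.Prime] (L : ℕ) (n d : ℤ) (hd : ¬ (p : ℤ) ∣ d) :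
    ‖(((n : ℚ) / d : ℚ) : ℚ_[p])‖ ≤ 1 ∧
      ((L : ℤ) ∣ n → ‖(((n : ℚ) / d : ℚ) : ℚ_[p])‖ ≤ ‖(L : ℚ_[p])‖) := by
  have hd1 : ‖(d : ℚ_[p])‖ = 1 :=
    le_antisymm (Padic.norm_int_le_one d) (not_lt.1 fun h => hd (Padic.norm_intCast_lt_one_iff.1 h))
  have e : ‖(((n : ℚ) / d : ℚ) : ℚ_[p])‖ = ‖(n : ℚ_[p])‖ := by
    push_cast
    rw [norm_div, hd1, div_one]
  rw [e]
  refine ⟨Padic.norm_int_le_one n, ?_⟩
  rintro ⟨c, rfl⟩
  push_cast
  rw [norm_mul]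
  exact mul_le_of_le_one_right (norm_nonneg _) (Padic.norm_int_le_one c)

end FLTA.Elliptic.Switch
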